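import Mathlib

set_option autoImplicit false

namespace Fermat.Agent.Kummer

open NumberField

/-- Kummer's lemma for the number field `K` (meant: `K = ℚ(ζ_p)`): a unit congruent to a rational
integer modulo `p` is a `p`-th power of a unit. -/
def KummerLemmaFor (p : ℕ) (K : Type*) [Field K] [NumberField K] : Prop :=
  ∀ (u : (𝓞 K)ˣ) (n : ℤ), (p : 𝓞 K) ∣ (u : 𝓞 K) - (n : 𝓞 K) → ∃ v : (𝓞 K)ˣ, u = v ^ p

end Fermat.Agent.Kummer
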