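import Mathlib
import Fermat.Agent.Kummer.Defs

set_option autoImplicit false
set_option linter.unusedSectionVars false

/-!
# Case II of Fermat's Last Theorem for cyclotomic rings that are PIDs (Kummer's descent)

Abstract core: `R` a PID containing a primitive `p`-th root of unity `ζ` with `λ = ζ - 1` prime,
`R ⧸ λ` of cardinality `p`, `λ ^ (p - 1) ~ p`, `a ^ p ≡ integer mod p` and Kummer's lemma.
-/

open Polynomial Finset

namespace Fermat.Agent.Kummer.CaseII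

variable {R : Type*} [CommRing R] [IsDomain R] [IsPrincipalIdealRing R]

/-- The hypotheses on the ring `R = ℤ[ζ_p]` used in the descent. -/
structure Ctx (p : ℕ) (ζ : R) : Prop where
  pp : p.Prime
  odd : p ≠ 2
  prim : IsPrimitiveRoot ζ p
  lam_prime : Prime (ζ - 1)
  fin : Finite (R ⧸ Ideal.span {ζ - 1})
  card : Nat.card (R ⧸ Ideal.span {ζ - 1}) = p
  assoc : Associated ((ζ - 1) ^ (p - 1)) (p : R)
  frob : ∀ a : R, ∃ m : ℤ, (p : R) ∣ a ^ p - m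
  kummer : ∀ u : Rˣ, (∃ n : ℤ, (p : R) ∣ (u : R) - n) → ∃ v : Rˣ, u = v ^ p

variable {p : ℕ} {ζ : R}

namespace Ctx

variable (h : Ctx p ζ)
include h

lemma pos : 0 < p := h.pp.pos

lemma odd' : Odd p := h.pp.odd_of_ne_two h.odd

lemma one_mem : (1 : R) ∈ nthRootsFinset p (1 : R) := by
  rw [mem_nthRootsFinset h.pos]; exact one_pow p

lemma zeta_mem : ζ ∈ nthRootsFinset p (1 : R) := by
  rw [mem_nthRootsFinset h.pos]; exact h.prim.pow_eq_one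

lemma zeta_inv_mem : ζ ^ (p - 1) ∈ nthRootsFinset p (1 : R) := by
  rw [mem_nthRootsFinset h.pos, ← pow_mul, mul_comm, pow_mul, h.prim.pow_eq_one, one_pow]

lemma zeta_mul_zeta_inv : ζ * ζ ^ (p - 1) = 1 := by
  rw [← pow_succ', Nat.sub_add_cancel h.pp.one_le, h.prim.pow_eq_one]

lemma zeta_ne_one : ζ ≠ 1 := h.prim.ne_one h.pp.one_lt

lemma zeta_inv_ne_one : ζ ^ (p - 1) ≠ 1 := by
  intro h1
  have := h.zeta_mul_zeta_inv
  rw [h1, mul_one] at this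
  exact h.zeta_ne_one this

lemma zeta_ne_zeta_inv : ζ ≠ ζ ^ (p - 1) := by
  intro h1
  have h2 : ζ ^ 2 = 1 := by
    have := h.zeta_mul_zeta_inv
    rw [← h1] at this
    rw [sq]; exact this
  have hdvd : p ∣ 2 := h.prim.dvd_of_pow_eq_one 2 h2
  have := (Nat.prime_dvd_prime_iff_eq h.pp Nat.prime_two).mp hdvd
  exact h.odd this

lemma lam_ne_zero : ζ - 1 ≠ 0 := h.lam_prime.ne_zero

lemma card_roots : (nthRootsFinset p (1 : R)).card = p := h.prim.card_nthRootsFinset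

lemma lam_dvd_sub {η₁ η₂ : R} (h₁ : η₁ ∈ nthRootsFinset p (1 : R))
    (h₂ : η₂ ∈ nthRootsFinset p (1 : R)) : ζ - 1 ∣ η₁ - η₂ :=
  h.prim.sub_one_dvd_sub h.pp h₁ h₂

lemma assoc_sub {η₁ η₂ : R} (h₁ : η₁ ∈ nthRootsFinset p (1 : R))
    (h₂ : η₂ ∈ nthRootsFinset p (1 : R)) (hne : η₁ ≠ η₂) : Associated (ζ - 1) (η₁ - η₂) :=
  h.prim.nthRootsFinset_pairwise_associated_sub_one_sub_of_prime h.pp h₁ h₂ hne

lemma one_add_zeta_isUnit : IsUnit (1 + ζ) := by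
  have := h.prim.geom_sum_isUnit h.pp.two_le
    (j := 2) ((Nat.coprime_primes Nat.prime_two h.pp).mpr (Ne.symm h.odd))
  simpa [Finset.sum_range_succ] using this

lemma p_dvd_lam_pow {k : ℕ} (hk : p - 1 ≤ k) : (p : R) ∣ (ζ - 1) ^ k :=
  h.assoc.symm.dvd.trans (pow_dvd_pow _ hk)

lemma lam_dvd_p : ζ - 1 ∣ (p : R) := by
  have h1 : 1 ≤ p - 1 := by have := h.pp.two_le; omega
  exact (dvd_pow_self _ (by omega)).trans h.assoc.dvd


/-- `λ` divides every factor `x + η y`. -/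
lemma lam_dvd_add {n : ℕ} (hn : 1 ≤ n) {x y w : R} {u : Rˣ}
    (H : x ^ p + y ^ p = u * ((ζ - 1) ^ n * w) ^ p) :
    ∀ η ∈ nthRootsFinset p (1 : R), ζ - 1 ∣ x + η * y := by
  have hprod := h.prim.pow_add_pow_eq_prod_add_mul x y h.odd'
  have hdvd : ζ - 1 ∣ ∏ η ∈ nthRootsFinset p (1 : R), (x + η * y) := by
    rw [← hprod, H]
    refine Dvd.dvd.mul_left ?_ _
    refine dvd_pow ?_ h.pos.ne'
    exact Dvd.dvd.mul_right (dvd_pow_self _ (by omega)) _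
  obtain ⟨η₀, hη₀, hd⟩ := (Prime.dvd_finsetProd_iff h.lam_prime _).mp hdvd
  intro η hη
  have : x + η * y = (x + η₀ * y) + (η - η₀) * y := by ring
  rw [this]
  exact dvd_add hd (Dvd.dvd.mul_right (h.lam_dvd_sub hη hη₀) _)

/-- the basic relations between two of the quotients `a η = (x + η y) / λ` -/
lemma quot_rel {x y : R} {a : R → R}
    (ha : ∀ η ∈ nthRootsFinset p (1 : R), x + η * y = (ζ - 1) * a η) {η₁ η₂ : R}
    (h₁ : η₁ ∈ nthRootsFinset p (1 : R)) (h₂ : η₂ ∈ nthRootsFinset p (1 : R)) (hne : η₁ ≠ η₂) :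
    ∃ ε : Rˣ, a η₁ - a η₂ = ε * y ∧ η₂ * a η₁ - η₁ * a η₂ = - (ε * x) := by
  obtain ⟨ε, hε⟩ := h.assoc_sub h₁ h₂ hne
  refine ⟨ε, ?_, ?_⟩
  · apply mul_left_cancel₀ h.lam_ne_zero
    have e1 := ha η₁ h₁
    have e2 := ha η₂ h₂
    linear_combination e2 - e1 - y * hε
  · apply mul_left_cancel₀ h.lam_ne_zero
    have e1 := ha η₁ h₁
    have e2 := ha η₂ h₂
    linear_combination η₁ * e2 - η₂ * e1 + x * hε

lemma quot_isCoprime {x y : R} (hxy : IsCoprime x y) {a : R → R}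
    (ha : ∀ η ∈ nthRootsFinset p (1 : R), x + η * y = (ζ - 1) * a η) {η₁ η₂ : R}
    (h₁ : η₁ ∈ nthRootsFinset p (1 : R)) (h₂ : η₂ ∈ nthRootsFinset p (1 : R)) (hne : η₁ ≠ η₂) :
    IsCoprime (a η₁) (a η₂) := by
  obtain ⟨ε, e1, e2⟩ := h.quot_rel ha h₁ h₂ hne
  obtain ⟨r, s, hrs⟩ := hxy
  refine ⟨(↑ε⁻¹ : R) * (s - r * η₂), (↑ε⁻¹ : R) * (r * η₁ - s), ?_⟩
  have hε : (↑ε⁻¹ : R) * ε = 1 := by simp
  linear_combination (↑ε⁻¹ : R) * s * e1 - (↑ε⁻¹ : R) * r * e2 + (r * x + s * y) * hε + hrs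

lemma quot_not_dvd_sub {x y : R} (hy : ¬ ζ - 1 ∣ y) {a : R → R}
    (ha : ∀ η ∈ nthRootsFinset p (1 : R), x + η * y = (ζ - 1) * a η) {η₁ η₂ : R}
    (h₁ : η₁ ∈ nthRootsFinset p (1 : R)) (h₂ : η₂ ∈ nthRootsFinset p (1 : R)) (hne : η₁ ≠ η₂) :
    ¬ ζ - 1 ∣ a η₁ - a η₂ := by
  obtain ⟨ε, e1, -⟩ := h.quot_rel ha h₁ h₂ hne
  rw [e1]
  intro hd
  exact hy ((Units.dvd_mul_left (u := ε)).mp (by rwa [mul_comm] at hd ⊢))


/-- pigeonhole: one of the quotients is divisible by `λ`. -/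
lemma exists_lam_dvd_quot {x y : R} (hy : ¬ ζ - 1 ∣ y) {a : R → R}
    (ha : ∀ η ∈ nthRootsFinset p (1 : R), x + η * y = (ζ - 1) * a η) :
    ∃ η₀ ∈ nthRootsFinset p (1 : R), ζ - 1 ∣ a η₀ := by
  have := h.fin
  let f : (nthRootsFinset p (1 : R)) → R ⧸ Ideal.span {ζ - 1} :=
    fun η => Ideal.Quotient.mk _ (a η)
  have hinj : Function.Injective f := by
    intro η₁ η₂ he
    by_contra hne
    have hne' : (η₁ : R) ≠ η₂ := fun h' => hne (Subtype.ext h')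
    apply h.quot_not_dvd_sub hy ha η₁.2 η₂.2 hne'
    rw [← Ideal.mem_span_singleton, ← Ideal.Quotient.eq]
    exact he
  have hbij : Function.Bijective f := hinj.bijective_of_nat_card_le (by
    rw [h.card, Nat.card_eq_fintype_card, Fintype.card_coe, h.card_roots])
  obtain ⟨η₀, hη₀⟩ := hbij.2 0
  refine ⟨η₀, η₀.2, ?_⟩
  rw [← Ideal.mem_span_singleton, ← Ideal.Quotient.eq_zero_iff_mem]
  exact hη₀

/-- After twisting `y` by a root of unity, `λ ^ 2 ∣ x + y`. -/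
lemma exists_sq_dvd {n : ℕ} (hn : 1 ≤ n) {x y w : R} {u : Rˣ} (hy : ¬ ζ - 1 ∣ y)
    (H : x ^ p + y ^ p = u * ((ζ - 1) ^ n * w) ^ p) :
    ∃ η₀ ∈ nthRootsFinset p (1 : R), (ζ - 1) ^ 2 ∣ x + η₀ * y := by
  have hd := h.lam_dvd_add hn H
  choose! a ha using hd
  obtain ⟨η₀, hη₀, hdvd⟩ := h.exists_lam_dvd_quot hy ha
  refine ⟨η₀, hη₀, ?_⟩
  rw [ha η₀ hη₀, sq]
  exact mul_dvd_mul_left _ hdvd


/-- The descent step, assuming `λ ^ 2 ∣ x + y`. -/
theorem descent_aux {m : ℕ} {x y w : R} {u : Rˣ} (hxy : IsCoprime x y)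
    (hy : ¬ ζ - 1 ∣ y) (hw : ¬ ζ - 1 ∣ w) (hsq : (ζ - 1) ^ 2 ∣ x + y)
    (H : x ^ p + y ^ p = u * ((ζ - 1) ^ (m + 1) * w) ^ p) :
    1 ≤ m ∧ ∃ (x' y' w' : R) (u' : Rˣ), IsCoprime x' y' ∧ ¬ ζ - 1 ∣ y' ∧ ¬ ζ - 1 ∣ w' ∧
      x' ^ p + y' ^ p = u' * ((ζ - 1) ^ m * w') ^ p := by
  classical
  have hd := h.lam_dvd_add (Nat.le_add_left 1 m) H
  choose! a ha using hd
  have hcop : ∀ η₁ ∈ nthRootsFinset p (1 : R), ∀ η₂ ∈ nthRootsFinset p (1 : R), η₁ ≠ η₂ →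
      IsCoprime (a η₁) (a η₂) := fun η₁ h₁ η₂ h₂ hne => h.quot_isCoprime hxy ha h₁ h₂ hne
  -- `λ ∣ a 1`
  have ha1 : ζ - 1 ∣ a 1 := by
    have := ha 1 h.one_mem
    rw [one_mul] at this
    rw [this, sq] at hsq
    exact (mul_dvd_mul_iff_left h.lam_ne_zero).mp hsq
  -- `λ ∤ a η` for `η ≠ 1`
  have hane : ∀ η ∈ nthRootsFinset p (1 : R), η ≠ 1 → ¬ ζ - 1 ∣ a η := by
    intro η hη hne hd
    apply h.quot_not_dvd_sub hy ha hη h.one_mem hne
    exact dvd_sub hd ha1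
  -- the product of the quotients
  have hprod : ∏ η ∈ nthRootsFinset p (1 : R), a η = u * ((ζ - 1) ^ m * w) ^ p := by
    have h1 := h.prim.pow_add_pow_eq_prod_add_mul x y h.odd'
    rw [H, Finset.prod_congr rfl ha, Finset.prod_mul_distrib, Finset.prod_const,
      h.card_roots] at h1
    apply mul_left_cancel₀ (pow_ne_zero p h.lam_ne_zero)
    rw [← h1]
    generalize ζ - 1 = L
    rw [pow_succ, mul_pow, mul_pow, mul_pow]
    ring
  have hsplit : a 1 * ∏ η ∈ (nthRootsFinset p (1 : R)).erase 1, a η =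
      u * ((ζ - 1) ^ m * w) ^ p := by
    rw [Finset.mul_prod_erase _ a h.one_mem, hprod]
  obtain ⟨P, hP⟩ : ∃ P, P = ∏ η ∈ (nthRootsFinset p (1 : R)).erase 1, a η := ⟨_, rfl⟩
  rw [← hP] at hsplit
  have hPnd : ¬ ζ - 1 ∣ P := by
    rw [hP, Prime.dvd_finsetProd_iff h.lam_prime]
    rintro ⟨η, hη, hd⟩
    rw [Finset.mem_erase] at hη
    exact hane η hη.2 hη.1 hd
  have hnd_uw : ¬ ζ - 1 ∣ (u : R) * w ^ p := by
    intro hd
    rcases h.lam_prime.dvd_or_dvd hd with h' | h'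
    · exact h.lam_prime.not_isUnit (isUnit_of_dvd_unit h' u.isUnit)
    · exact hw (h.lam_prime.dvd_of_dvd_pow h')
  -- `1 ≤ m`
  have hm : 1 ≤ m := by
    by_contra hm0
    have : m = 0 := by omega
    subst this
    rw [pow_zero, one_mul] at hsplit
    apply hnd_uw
    rw [← hsplit]
    exact Dvd.dvd.mul_right ha1 _
  refine ⟨hm, ?_⟩
  -- `λ ^ (m p) ∣ a 1`
  have hpow : (ζ - 1) ^ (m * p) ∣ a 1 := by
    apply h.lam_prime.pow_dvd_of_dvd_mul_right _ hPnd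
    rw [hsplit, mul_pow, ← pow_mul]
    exact Dvd.dvd.mul_left (Dvd.dvd.mul_right (dvd_refl _) _) _
  obtain ⟨c₁, hc₁⟩ := hpow
  have hc₁P : c₁ * P = u * w ^ p := by
    apply mul_left_cancel₀ (pow_ne_zero (m * p) h.lam_ne_zero)
    rw [← mul_assoc, ← hc₁, hsplit, mul_pow, ← pow_mul]
    ring
  have hc₁nd : ¬ ζ - 1 ∣ c₁ := by
    intro hd
    apply hnd_uw
    rw [← hc₁P]
    exact Dvd.dvd.mul_right hd _
  have hc₁cop : ∀ η ∈ nthRootsFinset p (1 : R), η ≠ 1 → IsCoprime c₁ (a η) := by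
    intro η hη hne
    have := hcop 1 h.one_mem η hη (Ne.symm hne)
    rw [hc₁] at this
    exact this.of_mul_left_right
  -- `c₁` is associated to a `p`-th power
  have hc₁pow : ∃ ρ₀, Associated (ρ₀ ^ p) c₁ := by
    apply exists_associated_pow_of_associated_pow_mul (b := P) (c := w)
    · rw [hP]
      exact IsCoprime.prod_right (fun η hη =>
        hc₁cop η (Finset.mem_of_mem_erase hη) (Finset.ne_of_mem_erase hη))
    · rw [hc₁P]; exact ⟨u, by ring⟩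
  -- so is `a η` for `η ≠ 1`
  have hapow : ∀ η ∈ nthRootsFinset p (1 : R), η ≠ 1 → ∃ ρ, Associated (ρ ^ p) (a η) := by
    intro η hη hne
    have hmem : η ∈ (nthRootsFinset p (1 : R)).erase 1 := Finset.mem_erase.mpr ⟨hne, hη⟩
    apply exists_associated_pow_of_associated_pow_mul
      (b := c₁ * ∏ η' ∈ ((nthRootsFinset p (1 : R)).erase 1).erase η, a η') (c := w)
    · refine IsCoprime.mul_right (hc₁cop η hη hne).symm (IsCoprime.prod_right fun η' hη' => ?_)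
      have h1 := Finset.mem_of_mem_erase hη'
      exact hcop η hη η' (Finset.mem_of_mem_erase h1) (Finset.ne_of_mem_erase hη').symm
    · have : a η * (c₁ * ∏ η' ∈ ((nthRootsFinset p (1 : R)).erase 1).erase η, a η') =
          u * w ^ p := by
        rw [← hc₁P, hP, ← Finset.mul_prod_erase _ a hmem]; ring
      rw [this]; exact ⟨u, by ring⟩
  obtain ⟨ρ₁, ε₁, h₁⟩ := hapow ζ h.zeta_mem h.zeta_ne_one
  obtain ⟨ρ₂, ε₂, h₂⟩ := hapow (ζ ^ (p - 1)) h.zeta_inv_mem h.zeta_inv_ne_one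
  obtain ⟨ρ₀, ε₀, h₀⟩ := hc₁pow
  have hρ₂nd : ¬ ζ - 1 ∣ ρ₂ := by
    intro hd
    apply hane _ h.zeta_inv_mem h.zeta_inv_ne_one
    rw [← h₂]
    exact Dvd.dvd.mul_right (dvd_pow hd h.pos.ne') _
  have hρ₀nd : ¬ ζ - 1 ∣ ρ₀ := by
    intro hd
    apply hc₁nd
    rw [← h₀]
    exact Dvd.dvd.mul_right (dvd_pow hd h.pos.ne') _
  -- the linear relation
  have hlin : a ζ + ζ * a (ζ ^ (p - 1)) = (1 + ζ) * a 1 := by
    have e1 := ha ζ h.zeta_mem
    have e2 := ha (ζ ^ (p - 1)) h.zeta_inv_mem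
    have e0 := ha 1 h.one_mem
    have hz := h.zeta_mul_zeta_inv
    apply mul_left_cancel₀ h.lam_ne_zero
    linear_combination (-1) * e1 - ζ * e2 + (1 + ζ) * e0 + y * hz
  -- units
  obtain ⟨ζu, hζu⟩ := h.prim.isUnit h.pos.ne'
  obtain ⟨θ, hθ⟩ := h.one_add_zeta_isUnit
  set η' : Rˣ := ζu * ε₂ * ε₁⁻¹ with hη'
  set u' : Rˣ := θ * ε₀ * ε₁⁻¹ with hu'
  have hE : ρ₁ ^ p + η' * ρ₂ ^ p = u' * ((ζ - 1) ^ m * ρ₀) ^ p := by
    rw [← h₁, ← h₂, hc₁, ← h₀] at hlin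
    have hε : (ε₁ : R) * (↑ε₁⁻¹ : R) = 1 := by simp
    simp only [hη', hu', Units.val_mul, hζu, hθ]
    rw [mul_pow, ← pow_mul]
    linear_combination (↑ε₁⁻¹ : R) * hlin -
      (ρ₁ ^ p) * hε
  -- Kummer's lemma applies to `η'`
  obtain ⟨m₁, t₁, ht₁⟩ := h.frob ρ₁
  obtain ⟨m₂, t₂, ht₂⟩ := h.frob ρ₂
  have hpdvd : (p : R) ∣ (ζ - 1) ^ (m * p) := by
    apply h.p_dvd_lam_pow
    calc p - 1 ≤ p := Nat.sub_le _ _
      _ = 1 * p := (one_mul p).symm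
      _ ≤ m * p := Nat.mul_le_mul_right p hm
  obtain ⟨t₃, ht₃⟩ := hpdvd
  have hm₂ : ¬ (p : ℤ) ∣ m₂ := by
    rintro ⟨k, hk⟩
    apply hρ₂nd
    apply h.lam_prime.dvd_of_dvd_pow (n := p)
    have : ρ₂ ^ p = (p : R) * (k + t₂) := by
      have : (m₂ : R) = (p : R) * k := by rw [hk]; push_cast; ring
      linear_combination ht₂ + this
    rw [this]
    exact Dvd.dvd.mul_right h.lam_dvd_p _
  have hcopZ : IsCoprime (p : ℤ) m₂ :=
    (Prime.coprime_iff_not_dvd (Nat.prime_iff_prime_int.mp h.pp)).mpr hm₂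
  obtain ⟨k, l, hkl⟩ := hcopZ
  have hkl' : (k : R) * (p : R) + (l : R) * (m₂ : R) = 1 := by
    have := congrArg (Int.cast (R := R)) hkl
    push_cast at this
    exact this
  obtain ⟨v, hv⟩ := h.kummer η' ⟨-(l * m₁), by
    refine ⟨k * η' + l * (u' * t₃ * ρ₀ ^ p - t₁ - η' * t₂), ?_⟩
    rw [mul_pow, ← pow_mul, ht₃] at hE
    push_cast
    linear_combination (-(η' : R)) * hkl' + (l : R) * hE - (l : R) * ht₁ -
      (l : R) * (η' : R) * ht₂⟩
  refine ⟨ρ₁, v * ρ₂, ρ₀, u', ?_, ?_, hρ₀nd, ?_⟩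
  · have h3 := hcop ζ h.zeta_mem _ h.zeta_inv_mem h.zeta_ne_zeta_inv
    rw [← h₁, ← h₂] at h3
    have h4 : IsCoprime (ρ₁ ^ p) (ρ₂ ^ p) :=
      (h3.of_mul_left_left).of_mul_right_left
    have h5 : IsCoprime ρ₁ ρ₂ := (IsCoprime.pow_iff h.pos h.pos).mp h4
    exact (isCoprime_mul_unit_left_right v.isUnit _ _).mpr h5
  · intro hd
    exact hρ₂nd ((Units.dvd_mul_left).mp hd)
  · rw [mul_pow, ← Units.val_pow_eq_pow_val, ← hv]
    exact hE


/-- The descent step. -/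
theorem descent {m : ℕ} {x y w : R} {u : Rˣ} (hxy : IsCoprime x y)
    (hy : ¬ ζ - 1 ∣ y) (hw : ¬ ζ - 1 ∣ w)
    (H : x ^ p + y ^ p = u * ((ζ - 1) ^ (m + 1) * w) ^ p) :
    1 ≤ m ∧ ∃ (x' y' w' : R) (u' : Rˣ), IsCoprime x' y' ∧ ¬ ζ - 1 ∣ y' ∧ ¬ ζ - 1 ∣ w' ∧
      x' ^ p + y' ^ p = u' * ((ζ - 1) ^ m * w') ^ p := by
  obtain ⟨η₀, hη₀, hsq⟩ := h.exists_sq_dvd (Nat.le_add_left 1 m) hy H
  have hη₀p : η₀ ^ p = 1 := (mem_nthRootsFinset h.pos _).mp hη₀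
  have hη₀u : IsUnit η₀ := IsUnit.of_pow_eq_one hη₀p h.pos.ne'
  refine h.descent_aux (y := η₀ * y) (u := u)
    ((isCoprime_mul_unit_left_right hη₀u _ _).mpr hxy) ?_ hw hsq ?_
  · intro hd
    exact hy ((hη₀u.dvd_mul_left).mp hd)
  · rw [mul_pow, hη₀p, one_mul]; exact H

theorem no_solution (m : ℕ) : ∀ {x y w : R} {u : Rˣ}, IsCoprime x y → ¬ ζ - 1 ∣ y →
    ¬ ζ - 1 ∣ w → x ^ p + y ^ p ≠ u * ((ζ - 1) ^ (m + 1) * w) ^ p := by
  induction m with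
  | zero =>
    intro x y w u hxy hy hw H
    have := (h.descent hxy hy hw H).1
    omega
  | succ k ih =>
    intro x y w u hxy hy hw H
    obtain ⟨-, x', y', w', u', hxy', hy', hw', H'⟩ := h.descent hxy hy hw H
    exact ih hxy' hy' hw' H'

/-- **Case II over `R`**: `x ^ p + y ^ p = u z ^ p` has no solution with `x, y` coprime,
`λ ∤ y`, `λ ∣ z ≠ 0`. -/
theorem no_solution' {x y z : R} {u : Rˣ} (hxy : IsCoprime x y) (hy : ¬ ζ - 1 ∣ y)
    (hz : z ≠ 0) (hlz : ζ - 1 ∣ z) : x ^ p + y ^ p ≠ u * z ^ p := by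
  obtain ⟨n, w, hw, rfl⟩ := WfDvdMonoid.max_power_factor hz h.lam_prime.irreducible
  obtain ⟨m, rfl⟩ : ∃ m, n = m + 1 := by
    rcases n with _ | m
    · rw [pow_zero, one_mul] at hlz
      exact absurd hlz hw
    · exact ⟨m, rfl⟩
  exact h.no_solution m hxy hy hw

end Ctx

section NumberField

open NumberField IsCyclotomicExtension.Rat

variable {p : ℕ} [hp : Fact p.Prime] {K : Type*} [Field K] [NumberField K]
  [IsCyclotomicExtension {p} ℚ K]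

/-- every `p`-th power in `𝓞 K` is congruent to a rational integer modulo `p`. -/
theorem exists_int_sub_pow_prime_dvd {ζ : K} (hζ : IsPrimitiveRoot ζ p) (a : 𝓞 K) :
    ∃ m : ℤ, (p : 𝓞 K) ∣ a ^ p - m := by
  have htop : Algebra.adjoin ℤ {hζ.toInteger} = ⊤ := by
    rw [← hζ.integralPowerBasis_gen]
    exact hζ.integralPowerBasis.adjoin_gen_eq_top
  have hmem : a ∈ Algebra.adjoin ℤ {hζ.toInteger} := by rw [htop]; trivial
  induction hmem using Algebra.adjoin_induction with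
  | mem x hx =>
    rw [Set.mem_singleton_iff] at hx
    subst hx
    refine ⟨1, ?_⟩
    rw [hζ.toInteger_isPrimitiveRoot.pow_eq_one]
    simp
  | algebraMap r =>
    refine ⟨r ^ p, ?_⟩
    simp
  | add x y _ _ hx hy =>
    obtain ⟨m, s, hs⟩ := hx
    obtain ⟨n, t, ht⟩ := hy
    obtain ⟨r, hr⟩ := exists_add_pow_prime_eq hp.out x y
    refine ⟨m + n, s + t + x * y * r, ?_⟩
    push_cast
    linear_combination hr + hs + ht
  | mul x y _ _ hx hy =>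
    obtain ⟨m, s, hs⟩ := hx
    obtain ⟨n, t, ht⟩ := hy
    refine ⟨m * n, s * y ^ p + (m : 𝓞 K) * t, ?_⟩
    push_cast
    rw [mul_pow]
    linear_combination y ^ p * hs + (m : 𝓞 K) * ht

/-- The cyclotomic ring of integers satisfies the hypotheses of the descent. -/
theorem ctx_of_cyclotomic (hp2 : p ≠ 2) [IsPrincipalIdealRing (𝓞 K)] {ζ : K}
    (hζ : IsPrimitiveRoot ζ p)
    (kummer : ∀ u : (𝓞 K)ˣ, (∃ n : ℤ, (p : 𝓞 K) ∣ (u : 𝓞 K) - n) → ∃ v : (𝓞 K)ˣ, u = v ^ p) :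
    Ctx p hζ.toInteger where
  pp := hp.out
  odd := hp2
  prim := hζ.toInteger_isPrimitiveRoot
  lam_prime := hζ.zeta_sub_one_prime'
  fin := hζ.finite_quotient_toInteger_sub_one hp.out.one_lt
  card := by
    rw [hζ.card_quotient_toInteger_sub_one, hζ.norm_toInteger_sub_one_of_prime_ne_two' hp2]
    simp
  assoc := associated_zeta_sub_one_pow_prime p hζ
  frob := exists_int_sub_pow_prime_dvd hζ
  kummer := kummer

/-- **Case II of Fermat's Last Theorem** (with `p ∣ c`) for a prime `p ≠ 2` such that the ring of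
integers of the `p`-th cyclotomic field is a PID and satisfies Kummer's lemma. -/
theorem caseII (hp2 : p ≠ 2) [IsPrincipalIdealRing (𝓞 K)]
    (kummer : ∀ u : (𝓞 K)ˣ, (∃ n : ℤ, (p : 𝓞 K) ∣ (u : 𝓞 K) - n) → ∃ v : (𝓞 K)ˣ, u = v ^ p)
    (a b c : ℤ) (hab : IsCoprime a b) (hc : c ≠ 0) (hpc : (p : ℤ) ∣ c) :
    a ^ p + b ^ p ≠ c ^ p := by
  intro H
  have hζ := IsCyclotomicExtension.zeta_spec p ℚ K
  have hctx := ctx_of_cyclotomic hp2 hζ kummer
  have hpZ : Prime (p : ℤ) := Nat.prime_iff_prime_int.mp hp.out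
  -- `p ∤ b`
  have hpb : ¬ (p : ℤ) ∣ b := by
    intro hb
    have ha : (p : ℤ) ∣ a := by
      have h1 : (p : ℤ) ∣ a ^ p := by
        have : a ^ p = c ^ p - b ^ p := by linear_combination H
        rw [this]
        exact dvd_sub (dvd_pow hpc hp.out.ne_zero) (dvd_pow hb hp.out.ne_zero)
      exact hpZ.dvd_of_dvd_pow h1
    exact hpZ.not_isUnit (hab.isUnit_of_dvd' ha hb)
  refine hctx.no_solution' (x := (a : 𝓞 K)) (y := (b : 𝓞 K)) (z := (c : 𝓞 K)) (u := 1)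
    (IsCoprime.intCast hab) ?_ ?_ ?_ ?_
  · rw [zeta_sub_one_dvd_intCast_iff' p hζ]
    exact hpb
  · exact_mod_cast hc
  · rw [zeta_sub_one_dvd_intCast_iff' p hζ]
    exact hpc
  · rw [Units.val_one, one_mul]
    exact_mod_cast H

/-- **Case II of Fermat's Last Theorem** (`p ∣ a b c`). -/
theorem caseII' (hp2 : p ≠ 2) [IsPrincipalIdealRing (𝓞 K)]
    (kummer : ∀ u : (𝓞 K)ˣ, (∃ n : ℤ, (p : 𝓞 K) ∣ (u : 𝓞 K) - n) → ∃ v : (𝓞 K)ˣ, u = v ^ p)
    (a b c : ℤ) (hab : IsCoprime a b) (habc : a * b * c ≠ 0) (hdvd : (p : ℤ) ∣ a * b * c) :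
    a ^ p + b ^ p ≠ c ^ p := by
  intro H
  have hpZ : Prime (p : ℤ) := Nat.prime_iff_prime_int.mp hp.out
  have hodd : Odd p := hp.out.odd_of_ne_two hp2
  have ha0 : a ≠ 0 := fun h => habc (by rw [h]; ring)
  have hb0 : b ≠ 0 := fun h => habc (by rw [h]; ring)
  have hc0 : c ≠ 0 := fun h => habc (by rw [h]; ring)
  have hpos : 0 < p := hp.out.pos
  -- coprimality of the other pairs
  have hcb : IsCoprime c b := by
    have h1 : IsCoprime (a ^ p) b := hab.pow_left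
    have h2 : IsCoprime (c ^ p) b := by
      have : c ^ p = a ^ p + b ^ (p - 1) * b := by
        rw [← pow_succ, Nat.sub_add_cancel hpos]; exact H.symm
      rw [this]
      exact h1.add_mul_right_left _
    exact (IsCoprime.pow_left_iff hpos).mp h2
  have hca : IsCoprime c a := by
    have h1 : IsCoprime (b ^ p) a := hab.symm.pow_left
    have h2 : IsCoprime (c ^ p) a := by
      have : c ^ p = b ^ p + a ^ (p - 1) * a := by
        rw [← pow_succ, Nat.sub_add_cancel hpos]; linear_combination -H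
      rw [this]
      exact h1.add_mul_right_left _
    exact (IsCoprime.pow_left_iff hpos).mp h2
  rcases hpZ.dvd_or_dvd hdvd with hd | hd
  · rcases hpZ.dvd_or_dvd hd with hd | hd
    · -- `p ∣ a` : `c ^ p + (-b) ^ p = a ^ p`
      refine caseII (K := K) hp2 kummer c (-b) a hcb.neg_right ha0 hd ?_
      rw [hodd.neg_pow]; linear_combination -H
    · -- `p ∣ b` : `c ^ p + (-a) ^ p = b ^ p`
      refine caseII (K := K) hp2 kummer c (-a) b hca.neg_right hb0 hd ?_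
      rw [hodd.neg_pow]; linear_combination -H
  · exact caseII (K := K) hp2 kummer a b c hab hc0 hd H

end NumberField

end Fermat.Agent.Kummer.CaseII

/-! ### The statements of the Kummer skeleton (K4) -/

namespace Fermat.Agent.Kummer

open NumberField

variable {p : ℕ} [hp : Fact p.Prime] {K : Type} [Field K] [NumberField K]
  [IsCyclotomicExtension {p} ℚ K] {ζ : K} (hζ : IsPrimitiveRoot ζ p)

theorem caseII_descent [IsPrincipalIdealRing (𝓞 K)] (hodd : p ≠ 2) (hKL : KummerLemmaFor p K) :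
    ¬ ∃ (m : ℕ) (x y z : 𝓞 K) (ε : (𝓞 K)ˣ), 1 ≤ m ∧ ¬ (hζ.toInteger - 1) ∣ x ∧
      ¬ (hζ.toInteger - 1) ∣ y ∧ ¬ (hζ.toInteger - 1) ∣ z ∧ IsCoprime x y ∧
      x ^ p + y ^ p = ε * ((hζ.toInteger - 1) ^ m * z) ^ p := by
  rintro ⟨m, x, y, z, ε, hm, -, hy, hz, hxy, H⟩
  have hctx := CaseII.ctx_of_cyclotomic hodd hζ (fun u ⟨n, hn⟩ => hKL u n hn)
  obtain ⟨k, rfl⟩ : ∃ k, m = k + 1 := ⟨m - 1, by omega⟩
  exact hctx.no_solution k hxy hy hz H

theorem caseII_int [IsPrincipalIdealRing (𝓞 K)] (hodd : p ≠ 2) (hKL : KummerLemmaFor p K)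
    {a b c : ℤ} (hab : IsCoprime a b) (hc : c ≠ 0) (hpc : (p : ℤ) ∣ c)
    (h : a ^ p + b ^ p = c ^ p) : False :=
  CaseII.caseII (K := K) hodd (fun u ⟨n, hn⟩ => hKL u n hn) a b c hab hc hpc h

end Fermat.Agent.Kummer
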