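import Fermat.Agent.Kummer.H92Abstract

/-!
# Hilbert's Satz 92 for cyclic extensions of odd prime degree of number fields
-/

namespace Fermat.Agent.Kummer
open Module NumberField

section NF

variable {k K : Type*} [Field k] [Field K] [NumberField k] [NumberField K] [Algebra k K]

noncomputable def unitsMap (σ : K ≃ₐ[k] K) : (𝓞 K)ˣ →* (𝓞 K)ˣ :=
  Units.map (RingOfIntegers.mapRingHom (σ : K →+* K)).toMonoidHom

omit [NumberField k] [NumberField K] in
theorem unitsMap_coe (σ : K ≃ₐ[k] K) (u : (𝓞 K)ˣ) :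
    (((unitsMap σ u : (𝓞 K)ˣ) : 𝓞 K) : K) = σ ((u : 𝓞 K) : K) := rfl

noncomputable def unitsEnd (σ : K ≃ₐ[k] K) : Module.End ℤ (Additive (𝓞 K)ˣ) :=
  (MonoidHom.toAdditive (unitsMap σ)).toIntLinearMap

omit [NumberField k] [NumberField K] in
theorem unitsEnd_apply (σ : K ≃ₐ[k] K) (u : Additive (𝓞 K)ˣ) :
    unitsEnd σ u = Additive.ofMul (unitsMap σ (Additive.toMul u)) := rfl

omit [NumberField k] [NumberField K] in
theorem unitsEnd_pow_apply (σ : K ≃ₐ[k] K) (j : ℕ) (u : Additive (𝓞 K)ˣ) :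
    ((unitsEnd σ) ^ j) u = Additive.ofMul (unitsMap (σ ^ j) (Additive.toMul u)) := by
  induction j generalizing u with
  | zero =>
    simp only [pow_zero, Module.End.one_apply]
    apply congrArg Additive.ofMul
    apply Units.ext
    apply RingOfIntegers.ext
    rfl
  | succ j ih =>
    rw [pow_succ, Module.End.mul_apply, ih, unitsEnd_apply]
    apply congrArg Additive.ofMul
    apply Units.ext
    apply RingOfIntegers.ext
    simp only [toMul_ofMul, unitsMap_coe, pow_succ, AlgEquiv.mul_apply]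

/-- the inclusion of the units of `𝓞 k`. -/
noncomputable def unitsIncl (k K : Type*) [Field k] [Field K] [Algebra k K] :
    Additive (𝓞 k)ˣ →ₗ[ℤ] Additive (𝓞 K)ˣ :=
  (MonoidHom.toAdditive (Units.map (algebraMap (𝓞 k) (𝓞 K)).toMonoidHom)).toIntLinearMap

omit [NumberField k] [NumberField K] in
theorem unitsIncl_coe (u : Additive (𝓞 k)ˣ) :
    (((Additive.toMul (unitsIncl k K u) : (𝓞 K)ˣ) : 𝓞 K) : K) =
      algebraMap k K (((Additive.toMul u : (𝓞 k)ˣ) : 𝓞 k) : k) := rfl

omit [NumberField k] [NumberField K] in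
theorem unitsIncl_injective : Function.Injective (unitsIncl k K) := by
  intro u v huv
  have h := congrArg (fun w => (((Additive.toMul w : (𝓞 K)ˣ) : 𝓞 K) : K)) huv
  simp only [unitsIncl_coe] at h
  have h2 := (algebraMap k K).injective h
  have h3 : (Additive.toMul u : (𝓞 k)ˣ) = Additive.toMul v :=
    Units.ext (RingOfIntegers.ext h2)
  exact Additive.toMul.injective h3

theorem range_unitsIncl [IsGalois k K] (σ : K ≃ₐ[k] K)
    (hσ : ∀ τ : K ≃ₐ[k] K, τ ∈ Subgroup.zpowers σ) :
    LinearMap.range (unitsIncl k K) = LinearMap.ker (1 - unitsEnd σ) := by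
  ext u
  rw [LinearMap.mem_ker, LinearMap.sub_apply, Module.End.one_apply, sub_eq_zero]
  constructor
  · rintro ⟨v, rfl⟩
    rw [unitsEnd_apply]
    apply Additive.toMul.injective
    apply Units.ext
    apply RingOfIntegers.ext
    rw [toMul_ofMul, unitsMap_coe, unitsIncl_coe, AlgEquiv.commutes]
  · intro hu
    -- u is fixed by σ hence by everything
    have hfix : σ (((Additive.toMul u : (𝓞 K)ˣ) : 𝓞 K) : K) = (((Additive.toMul u : (𝓞 K)ˣ) : 𝓞 K) : K) := by
      have := congrArg (fun w => (((Additive.toMul w : (𝓞 K)ˣ) : 𝓞 K) : K)) hu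
      simp only [unitsEnd_apply, toMul_ofMul, unitsMap_coe] at this
      exact this.symm
    have hfixall : ∀ (x : K), σ x = x → ∀ τ : K ≃ₐ[k] K, τ x = x := by
      intro x hx τ
      obtain ⟨n, rfl⟩ := Subgroup.mem_zpowers_iff.mp (hσ τ)
      have hmem : σ ∈ MulAction.stabilizer (K ≃ₐ[k] K) x := by
        rw [MulAction.mem_stabilizer_iff]; exact hx
      have := Subgroup.zpow_mem _ hmem n
      rw [MulAction.mem_stabilizer_iff] at this
      exact this
    set x : K := (((Additive.toMul u : (𝓞 K)ˣ) : 𝓞 K) : K) with hx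
    set x' : K := ((((Additive.toMul u)⁻¹ : (𝓞 K)ˣ) : 𝓞 K) : K) with hx'
    have hxx' : x * x' = 1 := by
      rw [hx, hx', ← map_mul, ← Units.val_mul, mul_inv_cancel, Units.val_one, map_one]
    have hfix' : σ x' = x' := by
      have h1 : σ x * σ x' = 1 := by rw [← map_mul, hxx', map_one]
      rw [hfix] at h1
      have hx0 : x ≠ 0 := left_ne_zero_of_mul_eq_one hxx'
      exact mul_left_cancel₀ hx0 (h1.trans hxx'.symm)
    obtain ⟨y, hy⟩ := (IsGalois.mem_range_algebraMap_iff_fixed x).mpr (hfixall x hfix)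
    obtain ⟨y', hy'⟩ := (IsGalois.mem_range_algebraMap_iff_fixed x').mpr (hfixall x' hfix')
    have hyint : IsIntegral ℤ y := by
      rw [← isIntegral_algebraMap_iff (algebraMap k K).injective, hy]
      exact RingOfIntegers.isIntegral_coe _
    have hy'int : IsIntegral ℤ y' := by
      rw [← isIntegral_algebraMap_iff (algebraMap k K).injective, hy']
      exact RingOfIntegers.isIntegral_coe _
    have hyy' : y * y' = 1 := by
      apply (algebraMap k K).injective
      rw [map_mul, hy, hy', hxx', map_one]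
    let Y : 𝓞 k := ⟨y, hyint⟩
    let Y' : 𝓞 k := ⟨y', hy'int⟩
    have hYY' : Y * Y' = 1 := RingOfIntegers.ext hyy'
    let U : (𝓞 k)ˣ := ⟨Y, Y', hYY', by rw [mul_comm]; exact hYY'⟩
    refine ⟨Additive.ofMul U, ?_⟩
    apply Additive.toMul.injective
    apply Units.ext
    apply RingOfIntegers.ext
    rw [unitsIncl_coe]
    exact hy

theorem prod_automorphisms_eq [IsGalois k K] (p : ℕ) (σ : K ≃ₐ[k] K)
    (hσ : ∀ τ : K ≃ₐ[k] K, τ ∈ Subgroup.zpowers σ) (hcard : Nat.card (K ≃ₐ[k] K) = p) (x : K) :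
    ∏ τ : K ≃ₐ[k] K, τ x = ∏ j ∈ Finset.range p, (σ ^ j) x := by
  have hord : orderOf σ = p := by rw [orderOf_eq_card_of_forall_mem_zpowers hσ, hcard]
  have hfin : IsOfFinOrder σ := isOfFinOrder_of_finite σ
  -- bijection Fin p → Gal
  have hbij : Function.Bijective (fun j : Fin (orderOf σ) => σ ^ (j : ℕ)) := by
    constructor
    · intro a b hab
      have := (finEquivZPowers hfin).injective (a₁ := a) (a₂ := b) (Subtype.ext (by
        simpa [finEquivZPowers_apply] using hab))
      exact this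
    · intro τ
      obtain ⟨j, hj⟩ := (finEquivZPowers hfin).surjective ⟨τ, hσ τ⟩
      refine ⟨j, ?_⟩
      have := congrArg Subtype.val hj
      simpa [finEquivZPowers_apply] using this
  rw [← Fintype.prod_bijective _ hbij (fun j => (σ ^ (j : ℕ)) x) (fun τ => τ x) (fun _ => rfl)]
  rw [Finset.prod_range, hord]

theorem hilbert92 [IsGalois k K] (p : ℕ) [hp : Fact p.Prime] (hp2 : p ≠ 2)
    (hdeg : Module.finrank k K = p) (σ : K ≃ₐ[k] K)
    (hσ : ∀ τ : K ≃ₐ[k] K, τ ∈ Subgroup.zpowers σ) :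
    ∃ η : (𝓞 K)ˣ, Algebra.norm k ((η : 𝓞 K) : K) = 1 ∧
      ∀ ε : (𝓞 K)ˣ, ((η : 𝓞 K) : K) ≠ ((ε : 𝓞 K) : K) / σ ((ε : 𝓞 K) : K) := by
  have hcard : Nat.card (K ≃ₐ[k] K) = p := by rw [IsGalois.card_aut_eq_finrank, hdeg]
  have hσp : σ ^ p = 1 := by rw [← hcard]; exact pow_card_eq_one'
  set S := unitsEnd σ with hS
  have hSp : S ^ p = 1 := by
    ext u
    rw [unitsEnd_pow_apply, hσp, Module.End.one_apply]
    rfl
  -- ranks
  have hodd : Odd (Module.finrank k K) := by
    rw [hdeg]; exact hp.out.odd_of_ne_two hp2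
  have : IsUnramifiedAtInfinitePlaces k K := IsUnramifiedAtInfinitePlaces_of_odd_finrank hodd
  set s := Fintype.card (InfinitePlace k) with hs
  have hspos : 0 < s := Fintype.card_pos
  have hplaces : Fintype.card (InfinitePlace K) = s * p := by
    rw [IsUnramifiedAtInfinitePlaces.card_infinitePlace k K, hdeg]
  have hM : Module.finrank ℤ (Additive (𝓞 K)ˣ) + 1 = p * s := by
    rw [Units.finrank_eq, Units.rank, hplaces]
    have : 0 < s * p := Nat.mul_pos hspos hp.out.pos
    rw [Nat.sub_add_cancel this, mul_comm]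
  have hK : Module.finrank ℤ (LinearMap.ker (1 - S)) + 1 = s := by
    rw [← range_unitsIncl σ hσ]
    rw [(LinearEquiv.ofInjective (unitsIncl k K) unitsIncl_injective).symm.finrank_eq,
      Units.finrank_eq, Units.rank]
    exact Nat.sub_add_cancel hspos
  obtain ⟨η', hη', hne'⟩ := hilbert92_abstract p S hSp s hM hK
  refine ⟨Additive.toMul η', ?_, ?_⟩
  · apply (algebraMap k K).injective
    rw [Algebra.norm_eq_prod_automorphisms, map_one, prod_automorphisms_eq p σ hσ hcard]
    have h1 : ∏ j ∈ Finset.range p, unitsMap (σ ^ j) (Additive.toMul η') = 1 := by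
      have h0 := congrArg Additive.toMul hη'
      simp only [LinearMap.sum_apply, unitsEnd_pow_apply, hS] at h0
      rw [toMul_sum] at h0
      simpa using h0
    let φ : (𝓞 K)ˣ →* K := ((algebraMap (𝓞 K) K) : 𝓞 K →* K).comp (Units.coeHom (𝓞 K))
    have h2 := congrArg φ h1
    rw [map_prod, map_one] at h2
    exact h2
  · intro ε hε
    apply hne' (Additive.ofMul ε)
    rw [LinearMap.sub_apply, Module.End.one_apply, hS, unitsEnd_apply, toMul_ofMul]
    apply Additive.toMul.injective
    rw [toMul_sub, toMul_ofMul, toMul_ofMul]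
    apply Units.ext
    apply RingOfIntegers.ext
    rw [hε]
    have hne0 : σ ((ε : 𝓞 K) : K) ≠ 0 := by
      rw [← unitsMap_coe]
      exact RingOfIntegers.coe_ne_zero_iff.mpr (Units.ne_zero _)
    rw [div_eq_iff hne0, ← unitsMap_coe, ← map_mul, ← Units.val_mul, div_mul_cancel]

end NF


end Fermat.Agent.Kummer
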