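import Mathlib

set_option autoImplicit false

namespace Fermat.Agent.Kummer

open IsDedekindDomain HeightOneSpectrum

section generic

variable {A B : Type*} [CommRing A] [IsDedekindDomain A] [CommRing B] [IsDedekindDomain B]
  [Algebra A B] [Module.IsTorsionFree A B] [Algebra.IsIntegral A B]

/-- unit has trivial valuation -/
lemma intValuation_unit (w : HeightOneSpectrum B) (u : Bˣ) : w.intValuation (u : B) = 1 := by
  have h1 : w.intValuation (u : B) ≤ 1 := w.intValuation_le_one _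
  have h2 : w.intValuation ((u⁻¹ : Bˣ) : B) ≤ 1 := w.intValuation_le_one _
  have h3 : w.intValuation (u : B) * w.intValuation ((u⁻¹ : Bˣ) : B) = 1 := by
    rw [← map_mul, Units.mul_inv, map_one]
  by_contra hne
  have hlt : w.intValuation (u : B) < 1 := lt_of_le_of_ne h1 hne
  have h0 : w.intValuation (u : B) ≠ 0 := fun h => by rw [h, zero_mul] at h3; exact zero_ne_one h3
  have : w.intValuation (u : B) * w.intValuation ((u⁻¹ : Bˣ) : B) < 1 := by
    calc w.intValuation (u : B) * w.intValuation ((u⁻¹ : Bˣ) : B)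
        ≤ w.intValuation (u : B) * 1 := by gcongr
      _ = w.intValuation (u : B) := mul_one _
      _ < 1 := hlt
  exact absurd h3 this.ne

/-- If `n ∈ A` becomes a unit times a `p`-th power in an everywhere unramified extension `B`,
then all multiplicities of `n` are divisible by `p`. -/
lemma dvd_count_of_unramified (p : ℕ) (hp : p ≠ 0)
    (hunr : ∀ (v : HeightOneSpectrum A) (w : HeightOneSpectrum B),
      w.asIdeal.LiesOver v.asIdeal → v.asIdeal.ramificationIdx' w.asIdeal = 1)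
    (n : A) (hn : n ≠ 0) (α : B) (υ : Bˣ) (h : algebraMap A B n = υ * α ^ p)
    (v : HeightOneSpectrum A) :
    p ∣ (Associates.mk v.asIdeal).count (Associates.mk (Ideal.span {n} : Ideal A)).factors := by
  have hinj : Function.Injective (algebraMap A B) := FaithfulSMul.algebraMap_injective A B
  have : v.asIdeal.IsMaximal := v.isMaximal
  obtain ⟨Q, hQmax, hQ⟩ := Ideal.exists_maximal_ideal_liesOver_of_isIntegral (S := B) v.asIdeal
  have hQbot : Q ≠ ⊥ := Ideal.ne_bot_of_liesOver_of_ne_bot v.ne_bot Q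
  let w : HeightOneSpectrum B := ⟨Q, hQmax.isPrime, hQbot⟩
  have : w.asIdeal.LiesOver v.asIdeal := hQ
  have he := hunr v w hQ
  have hval := intValuation_liesOver v w n
  rw [he, pow_one, h, map_mul, map_pow, intValuation_unit, one_mul] at hval
  have hα : α ≠ 0 := by
    rintro rfl
    rw [zero_pow hp, mul_zero] at h
    exact hn (hinj (by rw [h, map_zero]))
  rw [v.intValuation_if_neg hn, w.intValuation_if_neg hα, ← WithZero.exp_nsmul, WithZero.exp_inj]
    at hval
  have : ((Associates.mk v.asIdeal).count (Associates.mk (Ideal.span {n} : Ideal A)).factors : ℤ)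
      = p * ((Associates.mk w.asIdeal).count (Associates.mk (Ideal.span {α} : Ideal B)).factors : ℤ) := by
    simp only [smul_neg, nsmul_eq_mul, neg_inj] at hval
    exact_mod_cast hval
  exact ⟨_, by exact_mod_cast this⟩


open scoped Classical in
/-- In a PID `A` with an everywhere unramified integral extension `B`: if `n ∈ A` is a unit times
a `p`-th power in `B`, then `n` is a unit times a `p`-th power in `A`. -/
lemma exists_eq_unit_mul_pow_of_unramified [IsPrincipalIdealRing A] (p : ℕ) (hp : p ≠ 0)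
    (hunr : ∀ (v : HeightOneSpectrum A) (w : HeightOneSpectrum B),
      w.asIdeal.LiesOver v.asIdeal → v.asIdeal.ramificationIdx' w.asIdeal = 1)
    (n : A) (hn : n ≠ 0) (α : B) (υ : Bˣ) (h : algebraMap A B n = υ * α ^ p) :
    ∃ (u : Aˣ) (m : A), n = u * m ^ p := by
  have hspan : (Ideal.span {n} : Ideal A) ≠ 0 := by
    rw [Ideal.zero_eq_bot, Ne, Ideal.span_singleton_eq_bot]; exact hn
  have ha : Associates.mk (Ideal.span {n} : Ideal A) ≠ 0 := Associates.mk_ne_zero.mpr hspan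
  obtain ⟨b, hb⟩ := Associates.is_pow_of_dvd_count ha (k := p) (by
    intro q hq
    obtain ⟨P, rfl⟩ := Associates.mk_surjective q
    have hP : Irreducible P := Associates.irreducible_mk.mp hq
    have hP0 : P ≠ ⊥ := hP.ne_zero
    have hPprime : P.IsPrime := (Ideal.prime_iff_isPrime hP0).mp
      (UniqueFactorizationMonoid.irreducible_iff_prime.mp hP)
    exact dvd_count_of_unramified p hp hunr n hn α υ h ⟨P, hPprime, hP0⟩)
  obtain ⟨I, rfl⟩ := Associates.mk_surjective b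
  rw [← Associates.mk_pow, Associates.mk_eq_mk_iff_associated, associated_iff_eq] at hb
  obtain ⟨m, rfl⟩ := IsPrincipalIdealRing.principal I
  rw [Ideal.submodule_span_eq, Ideal.span_singleton_pow, Ideal.span_singleton_eq_span_singleton]
    at hb
  obtain ⟨u, hu⟩ := hb.symm
  exact ⟨u, m, by rw [← hu]; ring⟩


/-- In a PID `A` with an everywhere unramified integral extension `B`: if `n ∈ A` is a unit times
`α ^ p` in `B`, then `α` is an element of `A` times a unit of `B`. -/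
lemma exists_eq_algebraMap_mul_unit_of_unramified [IsPrincipalIdealRing A] (p : ℕ) (hp : p ≠ 0)
    (hunr : ∀ (v : HeightOneSpectrum A) (w : HeightOneSpectrum B),
      w.asIdeal.LiesOver v.asIdeal → v.asIdeal.ramificationIdx' w.asIdeal = 1)
    (n : A) (hn : n ≠ 0) (α : B) (υ : Bˣ) (h : algebraMap A B n = υ * α ^ p) :
    ∃ (m : A) (ε : Bˣ), α = algebraMap A B m * ε := by
  obtain ⟨u, m, hnm⟩ := exists_eq_unit_mul_pow_of_unramified p hp hunr n hn α υ h
  set M := algebraMap A B m with hM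
  obtain ⟨U, hUe⟩ := (u.isUnit).map (algebraMap A B)
  have hrel : (U : B) * M ^ p = υ * α ^ p := by
    rw [← h, hnm, map_mul, map_pow, hUe]
  have h1 : M ^ p ∣ α ^ p := by
    refine ⟨((υ⁻¹ * U : Bˣ) : B), ?_⟩
    have : α ^ p = ((υ⁻¹ : Bˣ) : B) * ((υ : B) * α ^ p) := by
      rw [← mul_assoc, Units.inv_mul, one_mul]
    rw [this, ← hrel, Units.val_mul]; ring
  have h2 : α ^ p ∣ M ^ p := by
    refine ⟨((U⁻¹ * υ : Bˣ) : B), ?_⟩
    have : M ^ p = ((U⁻¹ : Bˣ) : B) * ((U : B) * M ^ p) := by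
      rw [← mul_assoc, Units.inv_mul, one_mul]
    rw [this, hrel, Units.val_mul]; ring
  have h1' : M ∣ α := (IsIntegrallyClosed.pow_dvd_pow_iff hp).mp h1
  have h2' : α ∣ M := (IsIntegrallyClosed.pow_dvd_pow_iff hp).mp h2
  obtain ⟨ε, hε⟩ := associated_of_dvd_dvd h1' h2'
  exact ⟨m, ε, hε.symm⟩

end generic


section numberfield

open NumberField

variable {k K : Type} [Field k] [Field K] [NumberField k] [NumberField K] [Algebra k K]
  [IsGalois k K]

/-- **Hilbert 94 over a PID** (positive form): in an everywhere unramified cyclic extension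
`K/k` of degree `p` with `𝓞 k` a PID, every unit of norm one is of the form `ε / σ ε`. -/
theorem hilbert94_pid (p : ℕ) (hp : p ≠ 0) (hdeg : Module.finrank k K = p)
    [IsPrincipalIdealRing (𝓞 k)]
    (hunr : ∀ (v : HeightOneSpectrum (𝓞 k)) (w : HeightOneSpectrum (𝓞 K)),
      w.asIdeal.LiesOver v.asIdeal → v.asIdeal.ramificationIdx' w.asIdeal = 1)
    (σ : K ≃ₐ[k] K) (hσ : ∀ τ : K ≃ₐ[k] K, τ ∈ Subgroup.zpowers σ)
    (η : (𝓞 K)ˣ) (hη : Algebra.norm k ((η : 𝓞 K) : K) = 1) :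
    ∃ ε : (𝓞 K)ˣ, ((η : 𝓞 K) : K) = ((ε : 𝓞 K) : K) / σ ((ε : 𝓞 K) : K) := by
  classical
  have : IsCyclic (K ≃ₐ[k] K) := ⟨σ, hσ⟩
  set σ' := galRestrict (𝓞 k) k K (𝓞 K) σ with hσ'
  obtain ⟨α, hα0, hα⟩ := groupCohomology.exists_mul_galRestrict_of_norm_eq_one
    (A := 𝓞 k) (B := 𝓞 K) hσ (η := (η : 𝓞 K)) hη
  -- every conjugate of `α` is a unit multiple of `α`
  have hα' : (η : 𝓞 K) * σ' α = α := hα
  have hσα : σ' α = ((η⁻¹ : (𝓞 K)ˣ) : 𝓞 K) * α := by
    calc σ' α = ((η⁻¹ : (𝓞 K)ˣ) : 𝓞 K) * ((η : 𝓞 K) * σ' α) := by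
          rw [← mul_assoc, Units.inv_mul, one_mul]
      _ = ((η⁻¹ : (𝓞 K)ˣ) : 𝓞 K) * α := by rw [hα']
  have hconj1 : ∀ j : ℕ, ∃ u : (𝓞 K)ˣ, (σ' ^ j) α = u * α := by
    intro j
    induction j with
    | zero => exact ⟨1, by simp⟩
    | succ j ih =>
      obtain ⟨u, hu⟩ := ih
      obtain ⟨u', hu'⟩ : IsUnit (σ' (u : 𝓞 K)) := u.isUnit.map σ'
      refine ⟨u' * η⁻¹, ?_⟩
      rw [pow_succ', AlgEquiv.mul_apply, hu, map_mul, hσα, Units.val_mul, hu']
      ring
  have hconj : ∀ g : K ≃ₐ[k] K, ∃ u : (𝓞 K)ˣ,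
      galRestrict (𝓞 k) k K (𝓞 K) g α = u * α := by
    intro g
    obtain ⟨j, hj⟩ := (mem_powers_iff_mem_zpowers.mpr (hσ g))
    obtain ⟨u, hu⟩ := hconj1 j
    refine ⟨u, ?_⟩
    rw [← hj, map_pow, ← hσ', hu]
  choose u hu using hconj
  -- the norm
  have hcard : Fintype.card (K ≃ₐ[k] K) = p := by
    rw [← Nat.card_eq_fintype_card, IsGalois.card_aut_eq_finrank, hdeg]
  have hnorm : algebraMap (𝓞 k) (𝓞 K) (RingOfIntegers.norm k α) =
      ((∏ g : K ≃ₐ[k] K, u g : (𝓞 K)ˣ) : 𝓞 K) * α ^ p := by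
    apply RingOfIntegers.coe_injective
    refine (RingOfIntegers.coe_algebraMap_norm k α).trans ?_
    rw [Algebra.norm_eq_prod_automorphisms]
    have : ∀ g : K ≃ₐ[k] K, g ((α : 𝓞 K) : K) = (((u g : 𝓞 K) * α : 𝓞 K) : K) := by
      intro g
      rw [← hu g]
      exact (algebraMap_galRestrict_apply (𝓞 k) g α).symm
    simp_rw [this]
    rw [← map_prod (algebraMap (𝓞 K) K), Finset.prod_mul_distrib, Finset.prod_const,
      Finset.card_univ, hcard, Units.coe_prod]
  obtain ⟨n, hn⟩ : ∃ n, n = RingOfIntegers.norm k α := ⟨_, rfl⟩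
  rw [← hn] at hnorm
  have hn0 : n ≠ 0 := by
    intro h0
    rw [h0, map_zero] at hnorm
    have := (mul_eq_zero.mp hnorm.symm).resolve_left (Units.ne_zero _)
    exact hα0 (pow_eq_zero_iff hp |>.mp this)
  obtain ⟨m, ε, hmε⟩ := exists_eq_algebraMap_mul_unit_of_unramified p hp hunr n hn0 α _ hnorm
  refine ⟨ε, ?_⟩
  have hm0 : algebraMap (𝓞 k) (𝓞 K) m ≠ 0 := by
    intro h0
    rw [h0, zero_mul] at hmε
    exact hα0 hmε
  have h1 : (η : 𝓞 K) * σ' (ε : 𝓞 K) = ε := by
    have h2 := hα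
    rw [hmε, map_mul, AlgEquiv.commutes] at h2
    have h3 : algebraMap (𝓞 k) (𝓞 K) m * ((η : 𝓞 K) * σ' (ε : 𝓞 K)) =
        algebraMap (𝓞 k) (𝓞 K) m * ε := by
      rw [← h2]; ring
    exact mul_left_cancel₀ hm0 h3
  have h4 : ((η : 𝓞 K) : K) * σ ((ε : 𝓞 K) : K) = ((ε : 𝓞 K) : K) := by
    have := congrArg (algebraMap (𝓞 K) K) h1
    rw [map_mul, hσ', algebraMap_galRestrict_apply] at this
    exact this
  have hne : σ ((ε : 𝓞 K) : K) ≠ 0 := by
    intro h0
    rw [h0, mul_zero] at h4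
    exact (RingOfIntegers.coe_ne_zero_iff.mpr (Units.ne_zero ε)) h4.symm
  rw [eq_div_iff hne, h4]


/-- trivial different ideal implies `ramificationIdx' = 1` at all height one primes -/
lemma ramificationIdx'_eq_one_of_differentIdeal_eq_top {k K : Type} [Field k] [Field K]
    [NumberField k] [NumberField K] [Algebra k K]
    (h : differentIdeal (𝓞 k) (𝓞 K) = ⊤)
    (v : HeightOneSpectrum (𝓞 k)) (w : HeightOneSpectrum (𝓞 K))
    (hvw : w.asIdeal.LiesOver v.asIdeal) : v.asIdeal.ramificationIdx' w.asIdeal = 1 := by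
  have hw : w.asIdeal.IsPrime := w.isPrime
  have hnd : ¬ w.asIdeal ∣ differentIdeal (𝓞 k) (𝓞 K) := by
    rw [h, Ideal.dvd_iff_le, top_le_iff]
    exact hw.ne_top
  have hunr : Algebra.IsUnramifiedAt (𝓞 k) w.asIdeal := not_dvd_differentIdeal_iff.mp hnd
  rw [Ideal.ramificationIdx'_eq_ramificationIdx v.asIdeal w.asIdeal v.ne_bot]
  exact Ideal.ramificationIdx_eq_one_of_isUnramifiedAt


/-- **K7 with Hilbert 92 as a hypothesis**: a number field whose ring of integers is a PID has no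
everywhere unramified cyclic extension of prime degree. -/
theorem not_unramified_of_pid_of_hilbert92 {p : ℕ} (hp : p.Prime)
    {K L : Type} [Field K] [Field L] [NumberField K] [NumberField L] [Algebra K L]
    [IsPrincipalIdealRing (𝓞 K)]
    [IsGalois K L] (hdeg : Module.finrank K L = p)
    (hunr : differentIdeal (𝓞 K) (𝓞 L) = ⊤)
    (H92 : ∀ σ : L ≃ₐ[K] L, (∀ τ : L ≃ₐ[K] L, τ ∈ Subgroup.zpowers σ) →
      ∃ η : (𝓞 L)ˣ, Algebra.norm K ((η : 𝓞 L) : L) = 1 ∧
        ∀ ε : (𝓞 L)ˣ, ((η : 𝓞 L) : L) ≠ ((ε : 𝓞 L) : L) / σ ((ε : 𝓞 L) : L)) : False := by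
  have hcard : Nat.card (L ≃ₐ[K] L) = p := by
    rw [IsGalois.card_aut_eq_finrank, hdeg]
  have : Fact p.Prime := ⟨hp⟩
  have hcyc : IsCyclic (L ≃ₐ[K] L) := isCyclic_of_prime_card hcard
  obtain ⟨σ, hσ⟩ := hcyc.exists_generator
  obtain ⟨η, hη, hne⟩ := H92 σ hσ
  obtain ⟨ε, hε⟩ := hilbert94_pid p hp.ne_zero hdeg
    (fun v w hvw => ramificationIdx'_eq_one_of_differentIdeal_eq_top hunr v w hvw) σ hσ η hη
  exact hne ε hε

end numberfield

end Fermat.Agent.Kummer
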