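import Mathlib
import Fermat.Agent.Kummer.Defs

set_option autoImplicit false
set_option linter.unusedSectionVars false

namespace Fermat.Agent.Kummer

open NumberField Polynomial

section cyclo

variable {p : ℕ} [hp : Fact p.Prime] {K : Type} [Field K] [NumberField K]
  [IsCyclotomicExtension {p} ℚ K] {ζ : K} (hζ : IsPrimitiveRoot ζ p)

/-- The norm of the square of a unit is `1`. -/
theorem kl_norm_sq_unit (v : (𝓞 K)ˣ) : Algebra.norm ℤ (((v ^ 2 : (𝓞 K)ˣ) : 𝓞 K)) = 1 := by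
  have h : IsUnit (Algebra.norm ℤ ((v : (𝓞 K)ˣ) : 𝓞 K)) := v.isUnit.map (Algebra.norm ℤ)
  rw [Units.val_pow_eq_pow_val, map_pow]
  rcases Int.isUnit_iff.mp h with h | h <;> rw [h] <;> norm_num

/-- First order expansion of the norm. -/
theorem kl_norm_one_add_mul (y : 𝓞 K) (m : ℤ) :
    ∃ c : ℤ, Algebra.norm ℤ (1 + (m : 𝓞 K) * y) =
      1 + Algebra.trace ℤ (𝓞 K) y * m + c * m ^ 2 := by
  classical
  let b := RingOfIntegers.basis K
  rw [Algebra.norm_eq_matrix_det b, Algebra.trace_eq_matrix_trace b]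
  have : Algebra.leftMulMatrix b (1 + (m : 𝓞 K) * y) = 1 + m • Algebra.leftMulMatrix b y := by
    rw [map_add, map_one, ← zsmul_eq_mul, map_zsmul]
  rw [this, Matrix.det_one_add_smul]
  exact ⟨_, rfl⟩

theorem kl_nextCoeff_cyclotomic (hodd : p ≠ 2) : (cyclotomic p ℚ).nextCoeff = 1 := by
  have hp2 : 2 ≤ p := hp.out.two_le
  have hp3 : 3 ≤ p := by omega
  have hdeg : (cyclotomic p ℚ).natDegree = p - 1 := by
    rw [natDegree_cyclotomic, Nat.totient_prime hp.out]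
  rw [nextCoeff, if_neg (by rw [hdeg]; omega), hdeg, cyclotomic_prime]
  simp only [finsetSum_coeff, coeff_X_pow]
  rw [Finset.sum_eq_single (p - 1 - 1)]
  · simp
  · intro b _ hb
    rw [if_neg (fun h => hb h.symm)]
  · intro h
    exact absurd (Finset.mem_range.mpr (by omega)) h

/-- trace of a primitive root -/
theorem kl_trace_primitive (hodd : p ≠ 2) {μ : K} (hμ : IsPrimitiveRoot μ p) :
    Algebra.trace ℚ K μ = -1 := by
  have h1 := PowerBasis.trace_gen_eq_nextCoeff_minpoly (IsPrimitiveRoot.powerBasis ℚ hμ)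
  rw [IsPrimitiveRoot.powerBasis_gen] at h1
  rw [h1, ← hμ.minpoly_eq_cyclotomic_of_irreducible (cyclotomic.irreducible_rat hp.out.pos),
    kl_nextCoeff_cyclotomic hodd]

/-- `Tr(ζ^i) + ζ^i ≡ 0 mod π`. -/
theorem kl_dvd_trace_zeta_pow_add (hodd : p ≠ 2) (i : ℕ) :
    (hζ.toInteger - 1) ∣
      ((Algebra.trace ℤ (𝓞 K) (hζ.toInteger ^ i) : ℤ) : 𝓞 K) + hζ.toInteger ^ i := by
  by_cases hi : p ∣ i
  · obtain ⟨k, rfl⟩ := hi
    have h1 : hζ.toInteger ^ (p * k) = 1 := by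
      rw [pow_mul, hζ.toInteger_isPrimitiveRoot.pow_eq_one, one_pow]
    have h2 : Algebra.trace ℤ (𝓞 K) (1 : 𝓞 K) = ((p - 1 : ℕ) : ℤ) := by
      have := Algebra.coe_trace_int (K := K) (1 : 𝓞 K)
      have h4 : ((1 : 𝓞 K) : K) = algebraMap ℚ K 1 := by simp
      rw [h4, Algebra.trace_algebraMap,
        IsCyclotomicExtension.Rat.finrank p K, Nat.totient_prime hp.out] at this
      have h3 : ((Algebra.trace ℤ (𝓞 K) (1 : 𝓞 K) : ℤ) : ℚ) = (((p - 1 : ℕ) : ℤ) : ℚ) := by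
        rw [this]; simp
      exact_mod_cast h3
    rw [h1, h2]
    have hp1 : 1 ≤ p := hp.out.one_le
    have : (((p - 1 : ℕ) : ℤ) : 𝓞 K) + 1 = (p : 𝓞 K) := by
      push_cast [Nat.cast_sub hp1]; ring
    rw [this]
    exact hζ.toInteger_sub_one_dvd_prime'
  · have hcop : i.Coprime p := ((Nat.Prime.coprime_iff_not_dvd hp.out).mpr hi).symm
    have hμ : IsPrimitiveRoot (ζ ^ i) p := hζ.pow_of_coprime i hcop
    have h2 : Algebra.trace ℤ (𝓞 K) (hζ.toInteger ^ i) = -1 := by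
      have := Algebra.coe_trace_int (K := K) (hζ.toInteger ^ i)
      have h3 : ((hζ.toInteger ^ i : 𝓞 K) : K) = ζ ^ i := by
        rw [RingOfIntegers.coe_eq_algebraMap, map_pow]; rfl
      rw [h3, kl_trace_primitive hodd hμ] at this
      exact_mod_cast this
    rw [h2]
    have : ((-1 : ℤ) : 𝓞 K) + hζ.toInteger ^ i = hζ.toInteger ^ i - 1 ^ i := by
      push_cast; ring
    rw [this]
    exact sub_dvd_pow_sub_pow _ _ _

/-- `Tr(x) + x ≡ 0 mod π` for every integer `x` of `K`. -/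
theorem kl_dvd_trace_add (hodd : p ≠ 2) (x : 𝓞 K) :
    (hζ.toInteger - 1) ∣ ((Algebra.trace ℤ (𝓞 K) x : ℤ) : 𝓞 K) + x := by
  have hx := hζ.integralPowerBasis.basis.sum_repr x
  rw [← hx]
  simp only [map_sum, map_zsmul, Int.cast_sum, ← Finset.sum_add_distrib]
  refine Finset.dvd_sum fun j _ => ?_
  rw [PowerBasis.basis_eq_pow, hζ.integralPowerBasis_gen]
  have := kl_dvd_trace_zeta_pow_add hζ hodd (j : ℕ)
  have h2 : ((((hζ.integralPowerBasis.basis.repr x) j • (Algebra.trace ℤ (𝓞 K))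
      (hζ.toInteger ^ (j : ℕ)) : ℤ) : 𝓞 K) + (hζ.integralPowerBasis.basis.repr x) j •
      hζ.toInteger ^ (j : ℕ)) = ((hζ.integralPowerBasis.basis.repr x) j : 𝓞 K) *
      ((((Algebra.trace ℤ (𝓞 K)) (hζ.toInteger ^ (j : ℕ)) : ℤ) : 𝓞 K) +
        hζ.toInteger ^ (j : ℕ)) := by
    simp only [zsmul_eq_mul, smul_eq_mul]; push_cast; ring
  rw [h2]
  exact Dvd.dvd.mul_left this _

/-- reduction step: a unit congruent to an integer mod `p` has `u^(p-1) ≡ 1 mod π^p`. -/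
theorem kl_primary_of_congr_int (hodd : p ≠ 2) (u : (𝓞 K)ˣ) (n : ℤ)
    (h : (p : 𝓞 K) ∣ (u : 𝓞 K) - (n : 𝓞 K)) :
    (hζ.toInteger - 1) ^ p ∣ ((u ^ (p - 1) : (𝓞 K)ˣ) : 𝓞 K) - 1 := by
  set π := hζ.toInteger - 1 with hπ
  have hπprime : Prime π := hζ.zeta_sub_one_prime'
  have hπp : π ∣ (p : 𝓞 K) := hζ.toInteger_sub_one_dvd_prime'
  have hp2 : 2 ≤ p := hp.out.two_le
  have hp3 : 3 ≤ p := by omega
  -- p does not divide n
  have hpn : ¬ (p : ℤ) ∣ n := by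
    intro hdvd
    have h1 : (p : 𝓞 K) ∣ (n : 𝓞 K) := by
      obtain ⟨k, rfl⟩ := hdvd
      exact ⟨(k : 𝓞 K), by push_cast; ring⟩
    have h2 : (p : 𝓞 K) ∣ (u : 𝓞 K) := by
      have := dvd_add h h1
      simpa using this
    exact hπprime.not_isUnit (isUnit_of_dvd_unit (hπp.trans h2) u.isUnit)
  -- n^(p-1) ≡ 1 mod p
  have hn1 : (p : ℤ) ∣ n ^ (p - 1) - 1 := by
    have hcop : IsCoprime n (p : ℤ) := by
      rw [isCoprime_comm, Prime.coprime_iff_not_dvd (Nat.prime_iff_prime_int.mp hp.out)]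
      exact hpn
    exact (Int.ModEq.pow_card_sub_one_eq_one hp.out hcop).symm.dvd
  -- w = u^(p-1) ≡ 1 mod p
  have hw : (p : 𝓞 K) ∣ ((u ^ (p - 1) : (𝓞 K)ˣ) : 𝓞 K) - 1 := by
    have h1 : (p : 𝓞 K) ∣ (u : 𝓞 K) ^ (p - 1) - (n : 𝓞 K) ^ (p - 1) :=
      h.trans (sub_dvd_pow_sub_pow _ _ _)
    have h2 : (p : 𝓞 K) ∣ (n : 𝓞 K) ^ (p - 1) - 1 := by
      obtain ⟨k, hk⟩ := hn1
      refine ⟨(k : 𝓞 K), ?_⟩
      have : ((n ^ (p - 1) - 1 : ℤ) : 𝓞 K) = (((p : ℤ) * k : ℤ) : 𝓞 K) := by rw [hk]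
      push_cast at this
      exact this
    have := dvd_add h1 h2
    rw [Units.val_pow_eq_pow_val]
    convert this using 1
    ring
  obtain ⟨y, hy⟩ := hw
  -- norm of w is 1
  have hN : Algebra.norm ℤ (((u ^ (p - 1) : (𝓞 K)ˣ) : 𝓞 K)) = 1 := by
    obtain ⟨k, hk⟩ : ∃ k, p - 1 = 2 * k := by
      rcases hp.out.eq_two_or_odd with h2 | h2
      · exact absurd h2 hodd
      · exact ⟨(p - 1) / 2, by omega⟩
    rw [hk, mul_comm, pow_mul]
    exact kl_norm_sq_unit (u ^ k)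
  have hwy : ((u ^ (p - 1) : (𝓞 K)ˣ) : 𝓞 K) = 1 + ((p : ℤ) : 𝓞 K) * y := by
    have : ((u ^ (p - 1) : (𝓞 K)ˣ) : 𝓞 K) = 1 + (p : 𝓞 K) * y := by rw [← hy]; ring
    rw [this]; push_cast; ring
  obtain ⟨c, hc⟩ := kl_norm_one_add_mul y (p : ℤ)
  rw [← hwy, hN] at hc
  -- p ∣ Tr y
  have hpne : (p : ℤ) ≠ 0 := by exact_mod_cast hp.out.ne_zero
  have htr : (p : ℤ) ∣ Algebra.trace ℤ (𝓞 K) y := by
    have h1 : (p : ℤ) * (Algebra.trace ℤ (𝓞 K) y + c * p) = 0 := by linarith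
    have h2 : Algebra.trace ℤ (𝓞 K) y + c * p = 0 := by
      rcases mul_eq_zero.mp h1 with h | h
      · exact absurd h hpne
      · exact h
    exact ⟨-c, by linarith⟩
  have htr' : π ∣ ((Algebra.trace ℤ (𝓞 K) y : ℤ) : 𝓞 K) :=
    (IsCyclotomicExtension.Rat.zeta_sub_one_dvd_intCast_iff' p hζ).mpr htr
  have hπy : π ∣ y := by
    have := kl_dvd_trace_add hζ hodd y
    exact (dvd_add_right htr').mp this
  obtain ⟨z, hz⟩ := hπy
  -- conclude
  obtain ⟨v, hv⟩ := (IsCyclotomicExtension.Rat.associated_zeta_sub_one_pow_prime p hζ)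
  rw [hy, hz, ← hv]
  refine ⟨(v : 𝓞 K) * z, ?_⟩
  have : p = (p - 1) + 1 := by omega
  conv_rhs => rw [this, pow_succ]
  ring

/-- If `u ^ (p - 1)` is a `p`-th power in `K` then `u` is a `p`-th power of a unit. -/
theorem kl_unit_pow_of_pow (u : (𝓞 K)ˣ) (v : K)
    (hv : v ^ p = (((u ^ (p - 1) : (𝓞 K)ˣ) : 𝓞 K) : K)) : ∃ v' : (𝓞 K)ˣ, u = v' ^ p := by
  have hp0 : p ≠ 0 := hp.out.ne_zero
  have hp1 : 1 ≤ p := hp.out.one_le
  have hvint : IsIntegral ℤ v := by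
    apply IsIntegral.of_pow hp.out.pos
    rw [hv]
    exact RingOfIntegers.isIntegral_coe _
  let v₀ : 𝓞 K := ⟨v, hvint⟩
  have hv₀ : v₀ ^ p = ((u ^ (p - 1) : (𝓞 K)ˣ) : 𝓞 K) := by
    apply RingOfIntegers.coe_injective
    show (algebraMap (𝓞 K) K) (v₀ ^ p) = (algebraMap (𝓞 K) K) ((u ^ (p - 1) : (𝓞 K)ˣ) : 𝓞 K)
    rw [map_pow]
    exact hv
  have hunit : IsUnit v₀ := by
    rw [← isUnit_pow_iff hp0, hv₀]
    exact Units.isUnit _
  obtain ⟨v₁, hv₁⟩ := hunit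
  have hv₁p : v₁ ^ p = u ^ (p - 1) := by
    apply Units.ext
    rw [Units.val_pow_eq_pow_val, hv₁, hv₀]
  refine ⟨u * v₁⁻¹, ?_⟩
  rw [mul_pow, inv_pow, hv₁p]
  have : u ^ p = u ^ (p - 1) * u := by
    conv_lhs => rw [show p = (p - 1) + 1 by omega, pow_succ]
  rw [this]
  simp

/-- Kummer's lemma, assuming the two inputs K5 and K7 as hypotheses. -/
theorem kummerLemma_of_inputs (hodd : p ≠ 2)
    (hK5 : ∀ (u : (𝓞 K)ˣ), (hζ.toInteger - 1) ^ p ∣ (u : 𝓞 K) - 1 →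
      (¬ ∃ v : K, v ^ p = ((u : 𝓞 K) : K)) →
      ∃ (L : Type) (_ : Field L) (_ : NumberField L) (_ : Algebra K L), IsGalois K L ∧
        Module.finrank K L = p ∧ differentIdeal (𝓞 K) (𝓞 L) = ⊤)
    (hK7 : ∀ (L : Type) [Field L] [NumberField L] [Algebra K L] [IsGalois K L],
      Module.finrank K L = p → differentIdeal (𝓞 K) (𝓞 L) = ⊤ → False) :
    KummerLemmaFor p K := by
  intro u n h
  by_contra hne
  have hw := kl_primary_of_congr_int hζ hodd u n h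
  have hnot : ¬ ∃ v : K, v ^ p = (((u ^ (p - 1) : (𝓞 K)ˣ) : 𝓞 K) : K) := by
    rintro ⟨v, hv⟩
    exact hne (kl_unit_pow_of_pow u v hv)
  obtain ⟨L, _, _, _, hgal, hdeg, hunr⟩ := hK5 (u ^ (p - 1)) hw hnot
  exact hK7 L hdeg hunr

end cyclo

end Fermat.Agent.Kummer
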