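import Mathlib

/-!
# K5: the Kummer extension `K(u^(1/p))` is unramified when `u ≡ 1 mod (ζ - 1)^p`
-/

namespace Fermat.Agent.Kummer

open NumberField Polynomial

section poly

variable {R : Type*} [CommRing R]

/-- If `p = w * π^(p-1)` and `u - 1 = π^p * t` then `π^p` divides `(πX+1)^p - u` in `R[X]`. -/
theorem ku_exists_poly (p : ℕ) (hp : p.Prime) (π w t u : R) (hw : (p : R) = w * π ^ (p - 1))
    (ht : u - 1 = π ^ p * t) :
    ∃ g : R[X], (C π * X + 1) ^ p - C u = C (π ^ p) * g := by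
  rw [← dvd_iff_exists_eq_mul_right, C_dvd_iff_dvd_coeff]
  intro k
  have h1 : ((C π * X + 1 : R[X]) ^ p).coeff k = π ^ k * (p.choose k : R) := by
    have : (C π * X + 1 : R[X]) = (X + 1 : R[X]).comp (C π * X) := by simp
    rw [this, ← pow_comp, comp_C_mul_X_coeff]
    have : (X + 1 : R[X]) = X + C 1 := by simp
    rw [this, coeff_X_add_C_pow]
    simp [mul_comm]
  rw [coeff_sub, h1, coeff_C]
  rcases Nat.eq_zero_or_pos k with rfl | hk
  · simp only [pow_zero, Nat.choose_zero_right, Nat.cast_one, mul_one, if_true]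
    refine ⟨-t, ?_⟩
    linear_combination -ht
  · simp only [hk.ne', if_false, sub_zero]
    rcases lt_or_ge k p with hkp | hkp
    · have hdvd : p ∣ p.choose k := hp.dvd_choose_self hk.ne' hkp
      obtain ⟨d, hd⟩ := hdvd
      refine ⟨π ^ (k - 1) * w * d, ?_⟩
      rw [hd, Nat.cast_mul, hw]
      have e1 : π ^ k = π ^ (k - 1) * π := by
        rw [← pow_succ]; congr 1; omega
      have e2 : π ^ p = π ^ (p - 1) * π := by
        rw [← pow_succ]; congr 1; have := hp.pos; omega
      rw [e1, e2]; ring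
    · rcases eq_or_lt_of_le hkp with rfl | hlt
      · simp
      · rw [Nat.choose_eq_zero_of_lt hlt]; simp

end poly

section main

variable {K L : Type*} [Field K] [NumberField K] [Field L] [NumberField L] [Algebra K L]
variable {p : ℕ} [hp : Fact p.Prime] [IsCyclotomicExtension {p} ℚ K]

/-- **K5.** Let `K = ℚ(ζ_p)`, `π = ζ - 1`, `u` a unit of `𝓞 K` with `u ≡ 1 mod π^p`, and
`L = K(α)` with `α^p = u` of degree `p` over `K`.  Then the different of `L/K` is trivial. -/
theorem differentIdeal_eq_top_of_kummer {ζ : K} (hζ : IsPrimitiveRoot ζ p)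
    (u : (𝓞 K)ˣ) (hu : (hζ.toInteger - 1) ^ p ∣ (u : 𝓞 K) - 1)
    (α : L) (hα : α ^ p = algebraMap K L ((u : 𝓞 K) : K))
    (hgen : Algebra.adjoin K {α} = ⊤) (hdeg : Module.finrank K L = p) :
    differentIdeal (𝓞 K) (𝓞 L) = ⊤ := by
  classical
  have hp0 : p ≠ 0 := hp.out.ne_zero
  set π : 𝓞 K := hζ.toInteger - 1 with hπdef
  have hπ0 : π ≠ 0 := (hζ.zeta_sub_one_prime').ne_zero
  obtain ⟨w, hw⟩ := IsCyclotomicExtension.Rat.associated_zeta_sub_one_pow_prime p hζ
  obtain ⟨t, ht⟩ := hu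
  obtain ⟨g, hg⟩ := ku_exists_poly p hp.out π (w : 𝓞 K) t (u : 𝓞 K)
    (by rw [← hw]; ring) ht
  have hπp0 : π ^ p ≠ 0 := pow_ne_zero _ hπ0
  -- `g` is monic of degree `p`
  have hcoeff : ∀ k, ((C π * X + 1 : (𝓞 K)[X]) ^ p).coeff k = π ^ k * (p.choose k : 𝓞 K) := by
    intro k
    have h1 : (C π * X + 1 : (𝓞 K)[X]) = (X + 1 : (𝓞 K)[X]).comp (C π * X) := by simp
    rw [h1, ← pow_comp, comp_C_mul_X_coeff]
    have h2 : (X + 1 : (𝓞 K)[X]) = X + C 1 := by simp
    rw [h2, coeff_X_add_C_pow]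
    simp [mul_comm]
  have hgcoeff : ∀ k, π ^ p * g.coeff k =
      π ^ k * (p.choose k : 𝓞 K) - (if k = 0 then (u : 𝓞 K) else 0) := by
    intro k
    have := congrArg (fun q => q.coeff k) hg
    simp only [coeff_sub, coeff_C_mul, hcoeff, coeff_C] at this
    exact this.symm
  have hgp : g.coeff p = 1 := by
    have := hgcoeff p
    simp only [Nat.choose_self, Nat.cast_one, mul_one, hp0, if_false, sub_zero] at this
    exact mul_left_cancel₀ hπp0 (by rw [this, mul_one])
  have hgdeg : g.natDegree ≤ p := by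
    rw [natDegree_le_iff_coeff_eq_zero]
    intro k hk
    have := hgcoeff k
    rw [Nat.choose_eq_zero_of_lt hk] at this
    have hk0 : k ≠ 0 := by omega
    simp only [Nat.cast_zero, mul_zero, hk0, if_false, sub_zero] at this
    exact (mul_eq_zero.mp this).resolve_left hπp0
  have hgmonic : g.Monic := monic_of_natDegree_le_of_coeff_eq_one p hgdeg hgp
  have hgnat : g.natDegree = p := by
    refine le_antisymm hgdeg (le_natDegree_of_ne_zero ?_)
    rw [hgp]; exact one_ne_zero
  -- the element `x = (α - 1)/π`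
  set πL : L := algebraMap (𝓞 K) L π with hπL
  have hπL0 : πL ≠ 0 := by
    rw [hπL, Ne, map_eq_zero_iff _ (FaithfulSMul.algebraMap_injective (𝓞 K) L)]
    exact hπ0
  set x : L := (α - 1) / πL with hx
  have hαx : πL * x + 1 = α := by
    rw [hx]; field_simp; ring
  have huL : algebraMap (𝓞 K) L (u : 𝓞 K) = algebraMap K L ((u : 𝓞 K) : K) := by
    rw [IsScalarTower.algebraMap_apply (𝓞 K) K L]
  have hgx : aeval x g = 0 := by
    have := congrArg (aeval x) hg
    simp only [map_sub, map_pow, map_add, map_mul, aeval_C, aeval_X, map_one] at this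
    rw [← hπL, hαx, hα, huL, sub_self] at this
    exact (mul_eq_zero.mp this.symm).resolve_left (pow_ne_zero _ hπL0)
  have hxint : IsIntegral (𝓞 K) x := ⟨g, hgmonic, hgx⟩
  have hxintZ : IsIntegral ℤ x := isIntegral_trans x hxint
  set x' : 𝓞 L := ⟨x, hxintZ⟩ with hx'
  have hx'coe : algebraMap (𝓞 L) L x' = x := rfl
  have hadj : Algebra.adjoin K {algebraMap (𝓞 L) L x'} = ⊤ := by
    rw [hx'coe, eq_top_iff, ← hgen]
    apply Algebra.adjoin_le
    rintro _ rfl
    rw [← hαx]
    refine Subalgebra.add_mem _ (Subalgebra.mul_mem _ ?_ (Algebra.subset_adjoin rfl))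
      (Subalgebra.one_mem _)
    rw [hπL, IsScalarTower.algebraMap_apply (𝓞 K) K L]
    exact Subalgebra.algebraMap_mem _ _
  -- the minimal polynomial of `x'` is `g`
  have hx'int : IsIntegral (𝓞 K) x' := IsIntegralClosure.isIntegral (𝓞 K) L x'
  have hgx' : aeval x' g = 0 := by
    apply FaithfulSMul.algebraMap_injective (𝓞 L) L
    rw [map_zero, ← aeval_algebraMap_apply, hx'coe, hgx]
  have hmin : minpoly (𝓞 K) x' = g := by
    have hdvd : minpoly (𝓞 K) x' ∣ g := minpoly.isIntegrallyClosed_dvd hx'int hgx'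
    have hdegmin : (minpoly (𝓞 K) x').natDegree = p := by
      have h1 : minpoly (𝓞 K) x = minpoly (𝓞 K) x' :=
        minpoly.algebraMap_eq (FaithfulSMul.algebraMap_injective (𝓞 L) L) x'
      have h2 : minpoly K x = (minpoly (𝓞 K) x).map (algebraMap (𝓞 K) K) :=
        minpoly.isIntegrallyClosed_eq_field_fractions' K hxint
      have h3 : (minpoly K x).natDegree = Module.finrank K L := by
        rw [← Field.primitive_element_iff_minpoly_natDegree_eq]
        exact IntermediateField.adjoin_eq_top_of_algebra K _ hadj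
      rw [← h1, ← (minpoly.monic hxint).natDegree_map (algebraMap (𝓞 K) K), ← h2, h3, hdeg]
    exact (eq_of_monic_of_dvd_of_natDegree_le (minpoly.monic hx'int) hgmonic hdvd
      (by rw [hdegmin, hgnat])).symm
  -- `α` is a unit of `𝓞 L`
  have hαint : IsIntegral ℤ α := by
    refine IsIntegral.of_pow hp.out.pos ?_
    rw [hα, ← huL]
    exact isIntegral_trans _ (isIntegral_algebraMap (R := 𝓞 K) (A := L))
  set α' : 𝓞 L := ⟨α, hαint⟩ with hα'
  have hα'coe : algebraMap (𝓞 L) L α' = α := rfl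
  have hα'pow : α' ^ p = algebraMap (𝓞 K) (𝓞 L) (u : 𝓞 K) := by
    apply FaithfulSMul.algebraMap_injective (𝓞 L) L
    rw [map_pow, hα'coe, hα, ← huL, ← IsScalarTower.algebraMap_apply (𝓞 K) (𝓞 L) L]
  have hα'unit : IsUnit α' := by
    have : IsUnit (α' ^ p) := by rw [hα'pow]; exact (u.isUnit).map _
    exact (isUnit_pow_iff hp0).mp this
  -- the derivative of `g` at `x'` is a unit
  have hder : aeval x' (derivative g) = algebraMap (𝓞 K) (𝓞 L) (w : 𝓞 K) * α' ^ (p - 1) := by
    apply FaithfulSMul.algebraMap_injective (𝓞 L) L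
    rw [← aeval_algebraMap_apply, hx'coe, map_mul, map_pow, hα'coe,
      ← IsScalarTower.algebraMap_apply (𝓞 K) (𝓞 L) L]
    have hd := congrArg (fun q => aeval x (derivative q)) hg
    simp only [derivative_pow, derivative_mul, derivative_C,
      derivative_X, derivative_one, map_sub, map_pow, map_add, map_mul, aeval_C, aeval_X, map_one,
      zero_mul, zero_add, add_zero, mul_one, sub_zero, map_natCast, mul_zero] at hd
    rw [← hπL, hαx] at hd
    have hpL : (p : L) = πL ^ (p - 1) * algebraMap (𝓞 K) L (w : 𝓞 K) := by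
      rw [hπL, ← map_pow, ← map_mul, hw, map_natCast]
    have e2 : πL ^ p = πL ^ (p - 1) * πL := by
      rw [← pow_succ]; congr 1; have := hp.out.pos; omega
    rw [hpL, e2] at hd
    have h3 : πL ^ (p - 1) * πL ≠ 0 := mul_ne_zero (pow_ne_zero _ hπL0) hπL0
    apply mul_left_cancel₀ h3
    rw [← hd]; ring
  have hderunit : IsUnit (aeval x' (derivative (minpoly (𝓞 K) x'))) := by
    rw [hmin, hder]
    exact ((w.isUnit).map _).mul (hα'unit.pow _)
  have hmem := aeval_derivative_mem_differentIdeal (𝓞 K) K L x' hadj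
  exact Ideal.eq_top_of_isUnit_mem _ hmem hderunit

/-- **K5, unramified form.** Under the hypotheses of `differentIdeal_eq_top_of_kummer`, every
prime of `𝓞 L` is unramified over `𝓞 K`. -/
theorem isUnramifiedAt_of_kummer {ζ : K} (hζ : IsPrimitiveRoot ζ p)
    (u : (𝓞 K)ˣ) (hu : (hζ.toInteger - 1) ^ p ∣ (u : 𝓞 K) - 1)
    (α : L) (hα : α ^ p = algebraMap K L ((u : 𝓞 K) : K))
    (hgen : Algebra.adjoin K {α} = ⊤) (hdeg : Module.finrank K L = p)
    (P : Ideal (𝓞 L)) [P.IsPrime] : Algebra.IsUnramifiedAt (𝓞 K) P := by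
  have hD := differentIdeal_eq_top_of_kummer hζ u hu α hα hgen hdeg
  rw [← not_dvd_differentIdeal_iff, hD]
  intro h
  exact (Ideal.IsPrime.ne_top ‹P.IsPrime›) (top_le_iff.mp (Ideal.le_of_dvd h))


end main

section existsL

variable {p : ℕ} [hp : Fact p.Prime] {K : Type} [Field K] [NumberField K]
  [IsCyclotomicExtension {p} ℚ K] {ζ : K} (hζ : IsPrimitiveRoot ζ p)

/-- **K5 (interface form).** If `u` is a primary unit (`u ≡ 1 mod (ζ-1)^p`) of `K = ℚ(ζ_p)` which
is not a `p`-th power in `K`, there is a Galois extension `L/K` of degree `p` with trivial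
different. -/
theorem exists_unramified_of_primary (hodd : p ≠ 2) (u : (𝓞 K)ˣ)
    (hu : (hζ.toInteger - 1) ^ p ∣ (u : 𝓞 K) - 1) (hnot : ¬ ∃ v : K, v ^ p = ((u : 𝓞 K) : K)) :
    ∃ (L : Type) (_ : Field L) (_ : NumberField L) (_ : Algebra K L), IsGalois K L ∧
      Module.finrank K L = p ∧ differentIdeal (𝓞 K) (𝓞 L) = ⊤ := by
  have _ := hodd
  have hirr : Irreducible (X ^ p - C ((u : 𝓞 K) : K)) :=
    X_pow_sub_C_irreducible_of_prime hp.out (fun b hb => hnot ⟨b, hb⟩)
  have : Fact (Irreducible (X ^ p - C ((u : 𝓞 K) : K))) := ⟨hirr⟩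
  have hprim : (primitiveRoots p K).Nonempty :=
    ⟨ζ, (mem_primitiveRoots hp.out.pos).mpr hζ⟩
  let L := AdjoinRoot (X ^ p - C ((u : 𝓞 K) : K))
  have : Module.Finite K L :=
    (AdjoinRoot.powerBasis hirr.ne_zero).finite
  have : NumberField L := NumberField.of_module_finite K L
  have : IsSplittingField K L (X ^ p - C ((u : 𝓞 K) : K)) :=
    isSplittingField_AdjoinRoot_X_pow_sub_C hprim hirr
  have hgal : IsGalois K L := isGalois_of_isSplittingField_X_pow_sub_C hprim hirr L
  have hfin : Module.finrank K L = p := finrank_of_isSplittingField_X_pow_sub_C hprim hirr L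
  refine ⟨L, inferInstance, inferInstance, inferInstance, hgal, hfin, ?_⟩
  have hroot : (AdjoinRoot.root (X ^ p - C ((u : 𝓞 K) : K))) ^ p
      = algebraMap K L ((u : 𝓞 K) : K) := by
    have h := AdjoinRoot.eval₂_root (X ^ p - C ((u : 𝓞 K) : K))
    simp only [eval₂_sub, eval₂_pow, eval₂_X, eval₂_C] at h
    rw [sub_eq_zero] at h
    rw [h]; rfl
  exact differentIdeal_eq_top_of_kummer hζ u hu _ hroot AdjoinRoot.adjoinRoot_eq_top hfin

end existsL

end Fermat.Agent.Kummer
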