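import Mathlib
import Fermat.Agent.Kummer.Defs
import Fermat.Agent.Kummer.CaseII
import Fermat.Agent.Kummer.KummerPrimary
import Fermat.Agent.Kummer.KummerUnramified
import Fermat.Agent.Kummer.Hilbert94
import Fermat.Agent.Kummer.Hilbert92

set_option autoImplicit false

namespace Fermat.Agent.Kummer

open NumberField

/-- Kummer's lemma for `ℚ(ζ_p)` when its ring of integers is a PID. -/
theorem fin_kummerLemma {p : ℕ} [hp : Fact p.Prime] {K : Type} [Field K] [NumberField K]
    [IsCyclotomicExtension {p} ℚ K] [IsPrincipalIdealRing (𝓞 K)] (hodd : p ≠ 2) :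
    KummerLemmaFor p K := by
  have hζ := IsCyclotomicExtension.zeta_spec p ℚ K
  refine kummerLemma_of_inputs hζ hodd
    (fun u hu hnot => exists_unramified_of_primary hζ hodd u hu hnot) ?_
  intro L _ _ _ _ hdeg hunr
  exact not_unramified_of_pid_of_hilbert92 hp.out hdeg hunr
    (fun σ hσ => hilbert92 p hodd hdeg σ hσ)

private lemma fin_isCoprime_of_eq {p : ℕ} (hp0 : p ≠ 0) {a b c : ℤ} (hab : IsCoprime a b)
    (h : a ^ p + b ^ p = c ^ p) : IsCoprime c b := by
  have h1 : IsCoprime (a ^ p) b := IsCoprime.pow_left hab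
  have h2 : IsCoprime (c ^ p) b := by
    have : c ^ p = a ^ p + b ^ (p - 1) * b := by
      rw [← h, ← pow_succ, Nat.sub_add_cancel (Nat.pos_of_ne_zero hp0)]
    rw [this]
    exact (IsCoprime.add_mul_right_left_iff).mpr h1
  exact (IsCoprime.pow_left_iff (Nat.pos_of_ne_zero hp0)).mp h2

set_option backward.isDefEq.respectTransparency false in
/-- Fermat's last theorem for an odd prime `p` such that `ℤ[ζ_p]` is a PID, given case I. -/
theorem no_solution_of_pid {p : ℕ} [hp : Fact p.Prime] (hodd : p ≠ 2)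
    (hpid : IsPrincipalIdealRing (𝓞 (CyclotomicField p ℚ)))
    (hI : ∀ a b c : ℤ, IsCoprime a b → a ^ p + b ^ p = c ^ p → (p : ℤ) ∣ a * b * c)
    {a b c : ℤ} (ha : a ≠ 0) (hb : b ≠ 0) (hc : c ≠ 0) (hab : IsCoprime a b)
    (h : a ^ p + b ^ p = c ^ p) : False := by
  have hp0 : p ≠ 0 := hp.out.ne_zero
  have hpodd : Odd p := hp.out.odd_of_ne_two hodd
  have : NeZero p := ⟨hp0⟩
  have hKL : KummerLemmaFor p (CyclotomicField p ℚ) := fin_kummerLemma hodd
  have hpprime : Prime (p : ℤ) := Nat.prime_iff_prime_int.mp hp.out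
  rcases (hpprime.dvd_mul.mp (hI a b c hab h)) with hab' | hpc
  · rcases hpprime.dvd_mul.mp hab' with hpa | hpb
    · have hcb : IsCoprime c b := fin_isCoprime_of_eq hp0 hab h
      have h' : c ^ p + (-b) ^ p = a ^ p := by
        rw [hpodd.neg_pow]; linarith
      exact caseII_int hodd hKL hcb.neg_right ha hpa h'
    · have h0 : b ^ p + a ^ p = c ^ p := by rw [add_comm]; exact h
      have hca : IsCoprime c a := fin_isCoprime_of_eq hp0 hab.symm h0
      have h' : c ^ p + (-a) ^ p = b ^ p := by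
        rw [hpodd.neg_pow]; linarith
      exact caseII_int hodd hKL hca.neg_right hb hpb h'
  · exact caseII_int hodd hKL hab hc hpc h

end Fermat.Agent.Kummer
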