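import Fermat.Agent.Kummer.PIDAux

/-!
# `ℤ[ζ₁₁]` is a PID
-/

namespace Fermat.Agent.Kummer

open NumberField Ideal Nat Real Polynomial

set_option maxHeartbeats 1000000 in
theorem prod_conj_11_23 {K : Type*} [Field K] (z : K) (hz : z^11 = 1)
    (h1 : 1 + z^1 + z^2 + z^3 + z^4 + z^5 + z^6 + z^7 + z^8 + z^9 + z^10 = 0) :
    ((1) * (z^1)^0 + (1) * (z^1)^1 + (1) * (z^1)^3) * ((1) * (z^2)^0 + (1) * (z^2)^1 + (1) * (z^2)^3) * ((1) * (z^3)^0 + (1) * (z^3)^1 + (1) * (z^3)^3) * ((1) * (z^4)^0 + (1) * (z^4)^1 + (1) * (z^4)^3) * ((1) * (z^5)^0 + (1) * (z^5)^1 + (1) * (z^5)^3) * ((1) * (z^6)^0 + (1) * (z^6)^1 + (1) * (z^6)^3) * ((1) * (z^7)^0 + (1) * (z^7)^1 + (1) * (z^7)^3) * ((1) * (z^8)^0 + (1) * (z^8)^1 + (1) * (z^8)^3) * ((1) * (z^9)^0 + (1) * (z^9)^1 + (1) * (z^9)^3) * ((1) * (z^10)^0 + (1) * (z^10)^1 + (1) * (z^10)^3) = (23) := by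
  have s1 : ((1) * (z^1)^0 + (1) * (z^1)^1 + (1) * (z^1)^3) = (1) + (1) * z^1 + (1) * z^3 := by ring
  have s2 : ((1) * (z^1)^0 + (1) * (z^1)^1 + (1) * (z^1)^3) * ((1) * (z^2)^0 + (1) * (z^2)^1 + (1) * (z^2)^3) = (1) + (1) * z^1 + (1) * z^2 + (2) * z^3 + (1) * z^5 + (1) * z^6 + (1) * z^7 + (1) * z^9 := by
    rw [s1]
    linear_combination (0) * hz
  have s3 : ((1) * (z^1)^0 + (1) * (z^1)^1 + (1) * (z^1)^3) * ((1) * (z^2)^0 + (1) * (z^2)^1 + (1) * (z^2)^3) * ((1) * (z^3)^0 + (1) * (z^3)^1 + (1) * (z^3)^3) = (2) + (4) * z^1 + (1) * z^2 + (4) * z^3 + (2) * z^4 + (3) * z^5 + (3) * z^6 + (2) * z^7 + (1) * z^8 + (3) * z^9 + (2) * z^10 := by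
    rw [s2]
    linear_combination ((1) + (3) * z^1 + (1) * z^3 + (1) * z^4 + (1) * z^5 + (1) * z^7) * hz
  have s4 : ((1) * (z^1)^0 + (1) * (z^1)^1 + (1) * (z^1)^3) * ((1) * (z^2)^0 + (1) * (z^2)^1 + (1) * (z^2)^3) * ((1) * (z^3)^0 + (1) * (z^3)^1 + (1) * (z^3)^3) * ((1) * (z^4)^0 + (1) * (z^4)^1 + (1) * (z^4)^3) = (6) + (7) * z^1 + (8) * z^2 + (7) * z^3 + (8) * z^4 + (9) * z^5 + (7) * z^6 + (9) * z^7 + (5) * z^8 + (7) * z^9 + (8) * z^10 := by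
    rw [s3]
    linear_combination ((4) + (3) * z^1 + (7) * z^2 + (3) * z^3 + (4) * z^4 + (2) * z^5 + (3) * z^6 + (3) * z^7 + (2) * z^8 + (1) * z^9 + (3) * z^10 + (2) * z^11) * hz
  have s5 : ((1) * (z^1)^0 + (1) * (z^1)^1 + (1) * (z^1)^3) * ((1) * (z^2)^0 + (1) * (z^2)^1 + (1) * (z^2)^3) * ((1) * (z^3)^0 + (1) * (z^3)^1 + (1) * (z^3)^3) * ((1) * (z^4)^0 + (1) * (z^4)^1 + (1) * (z^4)^3) * ((1) * (z^5)^0 + (1) * (z^5)^1 + (1) * (z^5)^3) = (22) + (21) * z^1 + (20) * z^2 + (22) * z^3 + (22) * z^4 + (22) * z^5 + (22) * z^6 + (24) * z^7 + (20) * z^8 + (24) * z^9 + (24) * z^10 := by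
    rw [s4]
    linear_combination ((16) + (14) * z^1 + (12) * z^2 + (15) * z^3 + (14) * z^4 + (7) * z^5 + (8) * z^6 + (7) * z^7 + (8) * z^8 + (9) * z^9 + (7) * z^10 + (9) * z^11 + (5) * z^12 + (7) * z^13 + (8) * z^14) * hz
  have s6 : ((1) * (z^1)^0 + (1) * (z^1)^1 + (1) * (z^1)^3) * ((1) * (z^2)^0 + (1) * (z^2)^1 + (1) * (z^2)^3) * ((1) * (z^3)^0 + (1) * (z^3)^1 + (1) * (z^3)^3) * ((1) * (z^4)^0 + (1) * (z^4)^1 + (1) * (z^4)^3) * ((1) * (z^5)^0 + (1) * (z^5)^1 + (1) * (z^5)^3) * ((1) * (z^6)^0 + (1) * (z^6)^1 + (1) * (z^6)^3) = (66) + (65) * z^1 + (66) * z^2 + (66) * z^3 + (66) * z^4 + (70) * z^5 + (68) * z^6 + (67) * z^7 + (61) * z^8 + (66) * z^9 + (68) * z^10 := by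
    rw [s5]
    linear_combination ((44) + (44) * z^1 + (46) * z^2 + (44) * z^3 + (44) * z^4 + (48) * z^5 + (24) * z^6 + (22) * z^7 + (21) * z^8 + (20) * z^9 + (22) * z^10 + (22) * z^11 + (22) * z^12 + (22) * z^13 + (24) * z^14 + (20) * z^15 + (24) * z^16 + (24) * z^17) * hz
  have s7 : ((1) * (z^1)^0 + (1) * (z^1)^1 + (1) * (z^1)^3) * ((1) * (z^2)^0 + (1) * (z^2)^1 + (1) * (z^2)^3) * ((1) * (z^3)^0 + (1) * (z^3)^1 + (1) * (z^3)^3) * ((1) * (z^4)^0 + (1) * (z^4)^1 + (1) * (z^4)^3) * ((1) * (z^5)^0 + (1) * (z^5)^1 + (1) * (z^5)^3) * ((1) * (z^6)^0 + (1) * (z^6)^1 + (1) * (z^6)^3) * ((1) * (z^7)^0 + (1) * (z^7)^1 + (1) * (z^7)^3) = (197) + (201) * z^1 + (200) * z^2 + (199) * z^3 + (197) * z^4 + (204) * z^5 + (203) * z^6 + (194) * z^7 + (192) * z^8 + (200) * z^9 + (200) * z^10 := by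
    rw [s6]
    linear_combination ((131) + (136) * z^1 + (134) * z^2 + (133) * z^3 + (131) * z^4 + (134) * z^5 + (135) * z^6 + (61) * z^7 + (66) * z^8 + (68) * z^9 + (66) * z^10 + (65) * z^11 + (66) * z^12 + (66) * z^13 + (66) * z^14 + (70) * z^15 + (68) * z^16 + (67) * z^17 + (61) * z^18 + (66) * z^19 + (68) * z^20) * hz
  have s8 : ((1) * (z^1)^0 + (1) * (z^1)^1 + (1) * (z^1)^3) * ((1) * (z^2)^0 + (1) * (z^2)^1 + (1) * (z^2)^3) * ((1) * (z^3)^0 + (1) * (z^3)^1 + (1) * (z^3)^3) * ((1) * (z^4)^0 + (1) * (z^4)^1 + (1) * (z^4)^3) * ((1) * (z^5)^0 + (1) * (z^5)^1 + (1) * (z^5)^3) * ((1) * (z^6)^0 + (1) * (z^6)^1 + (1) * (z^6)^3) * ((1) * (z^7)^0 + (1) * (z^7)^1 + (1) * (z^7)^3) * ((1) * (z^8)^0 + (1) * (z^8)^1 + (1) * (z^8)^3) = (596) + (598) * z^1 + (601) * z^2 + (603) * z^3 + (591) * z^4 + (595) * z^5 + (600) * z^6 + (598) * z^7 + (592) * z^8 + (595) * z^9 + (592) * z^10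 := by
    rw [s7]
    linear_combination ((399) + (397) * z^1 + (401) * z^2 + (404) * z^3 + (394) * z^4 + (391) * z^5 + (397) * z^6 + (404) * z^7 + (203) * z^8 + (194) * z^9 + (192) * z^10 + (200) * z^11 + (200) * z^12 + (197) * z^13 + (201) * z^14 + (200) * z^15 + (199) * z^16 + (197) * z^17 + (204) * z^18 + (203) * z^19 + (194) * z^20 + (192) * z^21 + (200) * z^22 + (200) * z^23) * hz
  have s9 : ((1) * (z^1)^0 + (1) * (z^1)^1 + (1) * (z^1)^3) * ((1) * (z^2)^0 + (1) * (z^2)^1 + (1) * (z^2)^3) * ((1) * (z^3)^0 + (1) * (z^3)^1 + (1) * (z^3)^3) * ((1) * (z^4)^0 + (1) * (z^4)^1 + (1) * (z^4)^3) * ((1) * (z^5)^0 + (1) * (z^5)^1 + (1) * (z^5)^3) * ((1) * (z^6)^0 + (1) * (z^6)^1 + (1) * (z^6)^3) * ((1) * (z^7)^0 + (1) * (z^7)^1 + (1) * (z^7)^3) * ((1) * (z^8)^0 + (1) * (z^8)^1 + (1) * (z^8)^3) * ((1) * (z^9)^0 + (1) * (z^9)^1 + (1) * (z^9)^3) = (1797) + (1799) * z^1 + (1784)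 * z^2 + (1793) * z^3 + (1783) * z^4 + (1789) * z^5 + (1790) * z^6 + (1794) * z^7 + (1787) * z^8 + (1782) * z^9 + (1785) * z^10 := by
    rw [s8]
    linear_combination ((1201) + (1201) * z^1 + (1183) * z^2 + (1190) * z^3 + (1192) * z^4 + (1194) * z^5 + (1190) * z^6 + (1196) * z^7 + (1195) * z^8 + (591) * z^9 + (595) * z^10 + (600) * z^11 + (598) * z^12 + (592) * z^13 + (595) * z^14 + (592) * z^15 + (596) * z^16 + (598) * z^17 + (601) * z^18 + (603) * z^19 + (591) * z^20 + (595) * z^21 + (600) * z^22 + (598) * z^23 + (592) * z^24 + (595) * z^25 + (592) * z^26) * hz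
  have s10 : ((1) * (z^1)^0 + (1) * (z^1)^1 + (1) * (z^1)^3) * ((1) * (z^2)^0 + (1) * (z^2)^1 + (1) * (z^2)^3) * ((1) * (z^3)^0 + (1) * (z^3)^1 + (1) * (z^3)^3) * ((1) * (z^4)^0 + (1) * (z^4)^1 + (1) * (z^4)^3) * ((1) * (z^5)^0 + (1) * (z^5)^1 + (1) * (z^5)^3) * ((1) * (z^6)^0 + (1) * (z^6)^1 + (1) * (z^6)^3) * ((1) * (z^7)^0 + (1) * (z^7)^1 + (1) * (z^7)^3) * ((1) * (z^8)^0 + (1) * (z^8)^1 + (1) * (z^8)^3) * ((1) * (z^9)^0 + (1) * (z^9)^1 + (1) * (z^9)^3) * ((1) * (z^10)^0 + (1) * (z^10)^1 + (1) * (z^10)^3) = (5389) + (5366) * z^1 + (5366) * z^2 + (5366) * z^3 + (5366) * z^4 + (5366) * z^5 + (5366) * z^6 + (5366) * z^7 + (5366) * z^8 + (5366) * z^9 + (5366) * z^10 := by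
    rw [s9]
    linear_combination ((3592) + (3567) * z^1 + (3582) * z^2 + (3573) * z^3 + (3583) * z^4 + (3577) * z^5 + (3576) * z^6 + (3572) * z^7 + (3579) * z^8 + (3584) * z^9 + (1784) * z^10 + (1793) * z^11 + (1783) * z^12 + (1789) * z^13 + (1790) * z^14 + (1794) * z^15 + (1787) * z^16 + (1782) * z^17 + (1785) * z^18 + (1797) * z^19 + (1799) * z^20 + (1784) * z^21 + (1793) * z^22 + (1783) * z^23 + (1789) * z^24 + (1790) * z^25 + (1794) * z^26 + (1787) * z^27 + (1782) * z^28 + (1785) * z^29) * hz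
  rw [s10]
  linear_combination (5366) * h1

theorem cast_23_zmod_11 : ((23 : ℕ) : ZMod 11) = 1 := by decide

/-- If `IsCyclotomicExtension {11} ℚ K` then `𝓞 K` is a principal ideal domain. -/
theorem eleven_pid (K : Type*) [Field K] [NumberField K] [IsCyclotomicExtension {11} ℚ K] :
    IsPrincipalIdealRing (𝓞 K) := by
  have : Fact (Nat.Prime 11) := ⟨by norm_num⟩
  refine pid_of_principal_primes' 11 K 66 6 ?_ (by norm_num) ?_
  · -- Minkowski bound `< 67`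
    have hπ : (4 / π) ^ ((11 - 1) / 2) ≤ (4 / 3.14 : ℝ) ^ 5 := by
      have h3 : (3.14 : ℝ) < π := pi_gt_d2
      have : (4 / π : ℝ) ≤ 4 / 3.14 := by gcongr
      have h0 : (0 : ℝ) ≤ 4 / π := by positivity
      simpa using pow_le_pow_left₀ h0 this 5
    have hsq : √((11 : ℝ) ^ (11 - 2)) < 48608 := by
      rw [Real.sqrt_lt' (by norm_num)]; norm_num
    have hfac : (((11 - 1)! : ℕ) : ℝ) / (((11 - 1 : ℕ) : ℕ) : ℝ) ^ (11 - 1) =
        3628800 / 10000000000 := by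
      norm_num [Nat.factorial]
    calc (4 / π) ^ ((11 - 1) / 2) *
          ((((11 - 1)! : ℕ) : ℝ) / (((11 - 1 : ℕ) : ℕ) : ℝ) ^ (11 - 1) * √((11 : ℝ) ^ (11 - 2)))
        ≤ (4 / 3.14 : ℝ) ^ 5 * (3628800 / 10000000000 * 48608) := by
          rw [hfac]
          gcongr
      _ < ((66 : ℕ) : ℝ) + 1 := by norm_num
  · rintro q hq hq11 ⟨f, hf, hle, hmod⟩
    have hf1 := (Finset.mem_Icc.mp hf).1
    have hf2 := (Finset.mem_Icc.mp hf).2
    have hqB : q ≤ 66 := (Nat.le_self_pow (Nat.one_le_iff_ne_zero.mp hf1) q).trans hle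
    have hq2 := hq.two_le
    have key : ∀ q ∈ Finset.Icc 2 66, ∀ f ∈ Finset.Icc 1 6, q ^ f ≤ 66 → q ^ f % 11 = 1 →
        q ∈ ({12, 23, 34, 45, 56} : Finset ℕ) := by decide
    have hqS := key q (Finset.mem_Icc.mpr ⟨hq2, hqB⟩) f hf hle hmod
    simp only [Finset.mem_insert, Finset.mem_singleton] at hqS
    rcases hqS with rfl | rfl | rfl | rfl | rfl
    · exact absurd hq (by norm_num)
    · -- `q = 23`, generator `1 + ζ + ζ ^ 3`
      have : Fact (Nat.Prime 23) := ⟨hq⟩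
      set z := IsCyclotomicExtension.zeta 11 ℚ K with hz
      have hzs : IsPrimitiveRoot z 11 := IsCyclotomicExtension.zeta_spec 11 ℚ K
      have hz11 : z ^ 11 = 1 := hzs.pow_eq_one
      have h1 : 1 + z^1 + z^2 + z^3 + z^4 + z^5 + z^6 + z^7 + z^8 + z^9 + z^10 = 0 := by
        have := hzs.geom_sum_eq_zero (by norm_num)
        simpa [Finset.sum_range_succ] using this
      refine exists_principal_prime_of_prod_conj 11 K 23 (by norm_num) (1 + X + X ^ 3) 23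
        [1, 2, 3, 4, 5, 6, 7, 8, 9, 10] (by decide) rfl ?_ ?_
      · have hg : ∀ y : K, aeval y (1 + X + X ^ 3 : ℤ[X]) = 1 + y + y ^ 3 := by
          intro y; simp
        simp only [List.map_cons, List.map_nil, List.prod_cons, List.prod_nil, hg, ← hz]
        have := prod_conj_11_23 z hz11 h1
        push_cast
        linear_combination this
      · rw [cast_23_zmod_11, orderOf_one]
        norm_num
    · exact absurd hq (by norm_num)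
    · exact absurd hq (by norm_num)
    · exact absurd hq (by norm_num)

end Fermat.Agent.Kummer
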