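/-
Sophie Germain's theorem (in Legendre's generalised form) and the first case of Fermat's Last
Theorem for the exponents `5, 7, 11, 13`.  No cyclotomic theory is used.
-/
import Mathlib

set_option autoImplicit false

namespace Fermat.Agent.Kummer.SG

open Finset

/-- The cofactor `φ(y,z) = ∑_{i<p} y^i (-z)^(p-1-i)` of `y + z` in `y^p + z^p` (`p` odd). -/
def cof (p : ℕ) (y z : ℤ) : ℤ := ∑ i ∈ range p, y ^ i * (-z) ^ (p - 1 - i)

lemma cof_mul {p : ℕ} (hp : Odd p) (y z : ℤ) : cof p y z * (y + z) = y ^ p + z ^ p := by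
  have := geom_sum₂_mul y (-z) p
  rw [hp.neg_pow] at this
  simpa [cof, sub_neg_eq_add] using this

lemma add_dvd_cof_sub (p : ℕ) (y z : ℤ) : y + z ∣ cof p y z - p * y ^ (p - 1) := by
  have h : cof p y z - p * y ^ (p - 1) =
      ∑ i ∈ range p, y ^ i * ((-z) ^ (p - 1 - i) - y ^ (p - 1 - i)) := by
    have h1 : ∑ i ∈ range p, y ^ i * y ^ (p - 1 - i) = p * y ^ (p - 1) := by
      rw [Finset.sum_congr rfl (g := fun _ => y ^ (p - 1))]
      · simp
      · intro i hi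
        rw [← pow_add]
        congr 1
        have := Finset.mem_range.mp hi
        omega
    rw [cof, ← h1, ← Finset.sum_sub_distrib]
    refine Finset.sum_congr rfl fun i _ => ?_
    ring
  rw [h]
  apply Finset.dvd_sum
  intro i _
  apply Dvd.dvd.mul_left
  have h1 := sub_dvd_pow_sub_pow (-z) y (p - 1 - i)
  have h2 : y + z ∣ -z - y := ⟨-1, by ring⟩
  exact h2.trans h1

variable {p q : ℕ} [hpF : Fact p.Prime] [hqF : Fact q.Prime]

lemma odd_of_ne_two (hp2 : p ≠ 2) : Odd p := hpF.out.odd_of_ne_two hp2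

/-- If `x^p + y^p + z^p = 0` with `y, z` coprime and `p ∤ x`, then `y + z` and the cofactor are
both `p`-th powers. -/
lemma exists_pow_of_sum_eq_zero (hp2 : p ≠ 2) {x y z : ℤ} (hyz : IsCoprime y z)
    (h : x ^ p + y ^ p + z ^ p = 0) (hpx : ¬ (p : ℤ) ∣ x) :
    ∃ a α : ℤ, y + z = a ^ p ∧ cof p y z = α ^ p := by
  have hodd : Odd p := odd_of_ne_two hp2
  have hp0 : p ≠ 0 := hpF.out.ne_zero
  have hpZ : Prime (p : ℤ) := Nat.prime_iff_prime_int.mp hpF.out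
  have hmul : (y + z) * cof p y z = (-x) ^ p := by
    rw [mul_comm, cof_mul hodd, hodd.neg_pow]; linarith
  have hcop : IsCoprime (y + z) (cof p y z) := by
    apply isCoprime_of_prime_dvd
    · rintro ⟨h1, -⟩
      rw [h1, zero_mul] at hmul
      have : x = 0 := by
        have := pow_eq_zero_iff hp0 |>.mp hmul.symm
        simpa using this
      exact hpx (this ▸ dvd_zero _)
    · intro r hr h1 h2
      have h3 : r ∣ (p : ℤ) * y ^ (p - 1) := by
        have := h1.trans (add_dvd_cof_sub p y z)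
        have h4 := dvd_sub h2 this
        simpa using h4
      rcases hr.dvd_or_dvd h3 with h4 | h4
      · -- `r ∣ p`
        have h5 : (p : ℤ) ∣ r := (hr.associated_of_dvd hpZ h4).symm.dvd
        have h6 : (p : ℤ) ∣ (-x) ^ p := hmul ▸ Dvd.dvd.mul_right (h5.trans h1) _
        exact hpx ((dvd_neg).mp (hpZ.dvd_of_dvd_pow h6))
      · -- `r ∣ y`
        have h5 : r ∣ y := hr.dvd_of_dvd_pow h4
        have h6 : r ∣ z := by
          have := dvd_sub h1 h5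
          simpa using this
        exact hr.not_isUnit (hyz.isUnit_of_dvd' h5 h6)
  obtain ⟨⟨a, ha⟩, ⟨α, hα⟩⟩ := Int.eq_pow_of_mul_eq_pow_odd hcop hodd hmul
  exact ⟨a, α, ha, hα⟩

/-- The key step of Sophie Germain's theorem: the auxiliary prime `q` cannot divide `x`. -/
lemma key (hp2 : p ≠ 2)
    (hI : ∀ x y z : ZMod q, x ^ p + y ^ p + z ^ p = 0 → x = 0 ∨ y = 0 ∨ z = 0)
    (hII : ∀ t : ZMod q, t ^ p ≠ (p : ZMod q))
    {x y z : ℤ} (hxy : IsCoprime x y) (hyz : IsCoprime y z) (hxz : IsCoprime x z)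
    (h : x ^ p + y ^ p + z ^ p = 0) (hpx : ¬ (p : ℤ) ∣ x) (hpy : ¬ (p : ℤ) ∣ y)
    (hpz : ¬ (p : ℤ) ∣ z) (hqx : (q : ℤ) ∣ x) : False := by
  have hodd : Odd p := odd_of_ne_two hp2
  have hp0 : p ≠ 0 := hpF.out.ne_zero
  have hqZ : Prime (q : ℤ) := Nat.prime_iff_prime_int.mp hqF.out
  obtain ⟨a, α, ha, hα⟩ := exists_pow_of_sum_eq_zero hp2 hyz h hpx
  obtain ⟨b, β, hb, -⟩ := exists_pow_of_sum_eq_zero (x := y) (y := z) (z := x) hp2 hxz.symm
    (by linarith) hpy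
  obtain ⟨c, γ, hc, -⟩ := exists_pow_of_sum_eq_zero (x := z) (y := x) (z := y) hp2 hxy
    (by linarith) hpz
  have hx0 : (x : ZMod q) = 0 := (ZMod.intCast_zmod_eq_zero_iff_dvd x q).mpr hqx
  have ha' : (y : ZMod q) + z = (a : ZMod q) ^ p := by exact_mod_cast congrArg (Int.cast : ℤ → ZMod q) ha
  have hb' : (z : ZMod q) + x = (b : ZMod q) ^ p := by exact_mod_cast congrArg (Int.cast : ℤ → ZMod q) hb
  have hc' : (x : ZMod q) + y = (c : ZMod q) ^ p := by exact_mod_cast congrArg (Int.cast : ℤ → ZMod q) hc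
  rw [hx0] at hb' hc'
  rw [add_zero] at hb'
  rw [zero_add] at hc'
  have e1 : (b : ZMod q) ^ p + (c : ZMod q) ^ p + (-(a : ZMod q)) ^ p = 0 := by
    rw [hodd.neg_pow, ← ha', ← hb', ← hc']; ring
  -- `q ∤ y` and `q ∤ z`
  have hy0 : (y : ZMod q) ≠ 0 := by
    intro hy0
    have hqy : (q : ℤ) ∣ y := (ZMod.intCast_zmod_eq_zero_iff_dvd y q).mp hy0
    exact hqZ.not_isUnit (hxy.isUnit_of_dvd' hqx hqy)
  have hz0 : (z : ZMod q) ≠ 0 := by
    intro hz0
    have hqz : (q : ℤ) ∣ z := (ZMod.intCast_zmod_eq_zero_iff_dvd z q).mp hz0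
    exact hqZ.not_isUnit (hxz.isUnit_of_dvd' hqx hqz)
  rcases hI _ _ _ e1 with hb0 | hc0 | ha0
  · apply hz0
    rw [hb', hb0, zero_pow hp0]
  · apply hy0
    rw [hc', hc0, zero_pow hp0]
  · have ha0' : (a : ZMod q) = 0 := neg_eq_zero.mp ha0
    have hyz0 : (y : ZMod q) + z = 0 := by rw [ha', ha0', zero_pow hp0]
    have hqyz : (q : ℤ) ∣ y + z := by
      apply (ZMod.intCast_zmod_eq_zero_iff_dvd (y + z) q).mp
      push_cast
      exact hyz0
    have hcof : ((cof p y z : ℤ) : ZMod q) = (p : ZMod q) * (y : ZMod q) ^ (p - 1) := by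
      have := hqyz.trans (add_dvd_cof_sub p y z)
      have h2 := (ZMod.intCast_zmod_eq_zero_iff_dvd _ q).mpr this
      push_cast at h2
      exact sub_eq_zero.mp h2
    have hc0 : (c : ZMod q) ≠ 0 := by
      intro hc0
      apply hy0
      rw [hc', hc0, zero_pow hp0]
    have hα' : ((cof p y z : ℤ) : ZMod q) = (α : ZMod q) ^ p := by
      exact_mod_cast congrArg (Int.cast : ℤ → ZMod q) hα
    apply hII ((α : ZMod q) * ((c : ZMod q) ^ (p - 1))⁻¹)
    rw [mul_pow, ← hα', hcof, hc', inv_pow, ← pow_mul, ← pow_mul, mul_comm (p - 1) p]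
    have : (c : ZMod q) ^ (p * (p - 1)) ≠ 0 := pow_ne_zero _ hc0
    field_simp

/-- **Sophie Germain's theorem** (Legendre's form): if `q` is an auxiliary prime such that
`x^p + y^p + z^p ≡ 0 (mod q)` forces `q ∣ xyz`, and `p` is not a `p`-th power modulo `q`, then
the first case of Fermat's Last Theorem holds for the odd prime exponent `p`. -/
theorem sophie_germain (hp2 : p ≠ 2)
    (hI : ∀ x y z : ZMod q, x ^ p + y ^ p + z ^ p = 0 → x = 0 ∨ y = 0 ∨ z = 0)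
    (hII : ∀ t : ZMod q, t ^ p ≠ (p : ZMod q))
    (x y z : ℤ) (hxy : IsCoprime x y) (hyz : IsCoprime y z) (hxz : IsCoprime x z)
    (h : x ^ p + y ^ p + z ^ p = 0) : (p : ℤ) ∣ x * y * z := by
  have hpZ : Prime (p : ℤ) := Nat.prime_iff_prime_int.mp hpF.out
  by_contra hdvd
  have hpx : ¬ (p : ℤ) ∣ x := fun h' => hdvd (Dvd.dvd.mul_right (Dvd.dvd.mul_right h' _) _)
  have hpy : ¬ (p : ℤ) ∣ y := fun h' => hdvd (Dvd.dvd.mul_right (Dvd.dvd.mul_left h' _) _)
  have hpz : ¬ (p : ℤ) ∣ z := fun h' => hdvd (Dvd.dvd.mul_left h' _)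
  have e : (x : ZMod q) ^ p + (y : ZMod q) ^ p + (z : ZMod q) ^ p = 0 := by
    exact_mod_cast congrArg (Int.cast : ℤ → ZMod q) h
  rcases hI _ _ _ e with h0 | h0 | h0
  · exact key hp2 hI hII hxy hyz hxz h hpx hpy hpz
      ((ZMod.intCast_zmod_eq_zero_iff_dvd x q).mp h0)
  · exact key (x := y) (y := z) (z := x) hp2 hI hII hyz hxz.symm hxy.symm (by linarith)
      hpy hpz hpx ((ZMod.intCast_zmod_eq_zero_iff_dvd y q).mp h0)
  · exact key (x := z) (y := x) (z := y) hp2 hI hII hxz.symm hxy hyz.symm (by linarith)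
      hpz hpx hpy ((ZMod.intCast_zmod_eq_zero_iff_dvd z q).mp h0)

/-! ### The auxiliary primes `11, 29, 23, 53` for `p = 5, 7, 11, 13` -/

section Instances

instance fact_prime_five : Fact (Nat.Prime 5) := ⟨by norm_num⟩
instance fact_prime_seven : Fact (Nat.Prime 7) := ⟨by norm_num⟩
instance fact_prime_eleven : Fact (Nat.Prime 11) := ⟨by norm_num⟩
instance fact_prime_thirteen : Fact (Nat.Prime 13) := ⟨by norm_num⟩
instance fact_prime_twentythree : Fact (Nat.Prime 23) := ⟨by norm_num⟩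
instance fact_prime_twentynine : Fact (Nat.Prime 29) := ⟨by norm_num⟩
instance fact_prime_fiftythree : Fact (Nat.Prime 53) := ⟨by norm_num⟩

/-- `q = 2p + 1`: the `p`-th powers are `0, ±1`. -/
lemma cond_I_two {p q : ℕ} [Fact q.Prime]
    (hpow : ∀ x : ZMod q, x ^ p = 0 ∨ x ^ p = 1 ∨ x ^ p = -1)
    (hsum : ∀ s₁ s₂ s₃ : ZMod q, (s₁ = 1 ∨ s₁ = -1) → (s₂ = 1 ∨ s₂ = -1) → (s₃ = 1 ∨ s₃ = -1) →
      s₁ + s₂ + s₃ ≠ 0) :
    ∀ x y z : ZMod q, x ^ p + y ^ p + z ^ p = 0 → x = 0 ∨ y = 0 ∨ z = 0 := by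
  intro x y z h
  by_contra hcon
  push Not at hcon
  obtain ⟨hx, hy, hz⟩ := hcon
  have hx' := (hpow x).resolve_left (pow_ne_zero p hx)
  have hy' := (hpow y).resolve_left (pow_ne_zero p hy)
  have hz' := (hpow z).resolve_left (pow_ne_zero p hz)
  exact hsum _ _ _ hx' hy' hz' h

/-- `q = 4p + 1`: the `p`-th powers are `0, ±1, ±i`. -/
lemma cond_I_four {p q : ℕ} [Fact q.Prime] (i : ZMod q)
    (hpow : ∀ x : ZMod q, x ^ p = 0 ∨ x ^ p = 1 ∨ x ^ p = -1 ∨ x ^ p = i ∨ x ^ p = -i)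
    (hsum : ∀ s₁ s₂ s₃ : ZMod q, (s₁ = 1 ∨ s₁ = -1 ∨ s₁ = i ∨ s₁ = -i) →
      (s₂ = 1 ∨ s₂ = -1 ∨ s₂ = i ∨ s₂ = -i) → (s₃ = 1 ∨ s₃ = -1 ∨ s₃ = i ∨ s₃ = -i) →
      s₁ + s₂ + s₃ ≠ 0) :
    ∀ x y z : ZMod q, x ^ p + y ^ p + z ^ p = 0 → x = 0 ∨ y = 0 ∨ z = 0 := by
  intro x y z h
  by_contra hcon
  push Not at hcon
  obtain ⟨hx, hy, hz⟩ := hcon
  have hx' := (hpow x).resolve_left (pow_ne_zero p hx)
  have hy' := (hpow y).resolve_left (pow_ne_zero p hy)
  have hz' := (hpow z).resolve_left (pow_ne_zero p hz)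
  exact hsum _ _ _ hx' hy' hz' h

lemma cond_I_5_11 : ∀ x y z : ZMod 11, x ^ 5 + y ^ 5 + z ^ 5 = 0 → x = 0 ∨ y = 0 ∨ z = 0 := by
  apply cond_I_two
  · decide
  · rintro s₁ s₂ s₃ (rfl | rfl) (rfl | rfl) (rfl | rfl) <;> decide

lemma cond_II_5_11 : ∀ t : ZMod 11, t ^ 5 ≠ ((5 : ℕ) : ZMod 11) := by decide

lemma cond_I_11_23 : ∀ x y z : ZMod 23, x ^ 11 + y ^ 11 + z ^ 11 = 0 → x = 0 ∨ y = 0 ∨ z = 0 := by
  apply cond_I_two
  · decide
  · rintro s₁ s₂ s₃ (rfl | rfl) (rfl | rfl) (rfl | rfl) <;> decide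

lemma cond_II_11_23 : ∀ t : ZMod 23, t ^ 11 ≠ ((11 : ℕ) : ZMod 23) := by decide

lemma cond_I_7_29 : ∀ x y z : ZMod 29, x ^ 7 + y ^ 7 + z ^ 7 = 0 → x = 0 ∨ y = 0 ∨ z = 0 := by
  apply cond_I_four 12
  · decide
  · rintro s₁ s₂ s₃ (rfl | rfl | rfl | rfl) (rfl | rfl | rfl | rfl) (rfl | rfl | rfl | rfl) <;>
      decide

lemma cond_II_7_29 : ∀ t : ZMod 29, t ^ 7 ≠ ((7 : ℕ) : ZMod 29) := by decide

lemma cond_I_13_53 : ∀ x y z : ZMod 53, x ^ 13 + y ^ 13 + z ^ 13 = 0 → x = 0 ∨ y = 0 ∨ z = 0 := by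
  apply cond_I_four 23
  · decide
  · rintro s₁ s₂ s₃ (rfl | rfl | rfl | rfl) (rfl | rfl | rfl | rfl) (rfl | rfl | rfl | rfl) <;>
      decide

lemma cond_II_13_53 : ∀ t : ZMod 53, t ^ 13 ≠ ((13 : ℕ) : ZMod 53) := by decide

end Instances

/-- First case of Fermat's Last Theorem for `p ∈ {5, 7, 11, 13}`, symmetric form. -/
theorem caseI_symm (p : ℕ) (hp : p = 5 ∨ p = 7 ∨ p = 11 ∨ p = 13) (x y z : ℤ)
    (hxy : IsCoprime x y) (hyz : IsCoprime y z) (hxz : IsCoprime x z)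
    (h : x ^ p + y ^ p + z ^ p = 0) : (p : ℤ) ∣ x * y * z := by
  rcases hp with rfl | rfl | rfl | rfl
  · exact sophie_germain (q := 11) (by norm_num) cond_I_5_11 cond_II_5_11 x y z hxy hyz hxz h
  · exact sophie_germain (q := 29) (by norm_num) cond_I_7_29 cond_II_7_29 x y z hxy hyz hxz h
  · exact sophie_germain (q := 23) (by norm_num) cond_I_11_23 cond_II_11_23 x y z hxy hyz hxz h
  · exact sophie_germain (q := 53) (by norm_num) cond_I_13_53 cond_II_13_53 x y z hxy hyz hxz h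

/-- Passage from the symmetric form `x^p + y^p + z^p = 0` (pairwise coprime) to the form
`a^p + b^p = c^p` with `a, b` coprime, for odd `p`. -/
theorem of_symm {p : ℕ} (hodd : Odd p)
    (H : ∀ x y z : ℤ, IsCoprime x y → IsCoprime y z → IsCoprime x z →
      x ^ p + y ^ p + z ^ p = 0 → (p : ℤ) ∣ x * y * z)
    {a b c : ℤ} (hab : IsCoprime a b) (h : a ^ p + b ^ p = c ^ p) : (p : ℤ) ∣ a * b * c := by
  have hp0 : p ≠ 0 := by
    rintro rfl
    simp at hodd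
  -- `a, c` coprime and `b, c` coprime
  have hac : IsCoprime a c := by
    apply isCoprime_of_prime_dvd
    · rintro ⟨rfl, rfl⟩
      simp only [zero_pow hp0, zero_add] at h
      have hb : b = 0 := pow_eq_zero_iff hp0 |>.mp h
      rw [hb] at hab
      exact not_isCoprime_zero_zero hab
    · intro r hr h1 h2
      have h3 : r ∣ b ^ p := by
        have h4 : b ^ p = c ^ p - a ^ p := by linarith
        rw [h4]
        exact dvd_sub (Dvd.dvd.pow h2 hp0) (Dvd.dvd.pow h1 hp0)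
      exact hr.not_isUnit (hab.isUnit_of_dvd' h1 (hr.dvd_of_dvd_pow h3))
  have hbc : IsCoprime b c := by
    apply isCoprime_of_prime_dvd
    · rintro ⟨rfl, rfl⟩
      simp only [zero_pow hp0, add_zero] at h
      have ha : a = 0 := pow_eq_zero_iff hp0 |>.mp h
      rw [ha] at hab
      exact not_isCoprime_zero_zero hab
    · intro r hr h1 h2
      have h3 : r ∣ a ^ p := by
        have h4 : a ^ p = c ^ p - b ^ p := by linarith
        rw [h4]
        exact dvd_sub (Dvd.dvd.pow h2 hp0) (Dvd.dvd.pow h1 hp0)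
      exact hr.not_isUnit (hab.isUnit_of_dvd' (hr.dvd_of_dvd_pow h3) h1)
  have h' : a ^ p + b ^ p + (-c) ^ p = 0 := by rw [hodd.neg_pow]; linarith
  have := H a b (-c) hab hbc.neg_right hac.neg_right h'
  have h2 : a * b * -c = -(a * b * c) := by ring
  rw [h2] at this
  exact (dvd_neg).mp this

/-- First case of Fermat's Last Theorem for `p ∈ {5, 7, 11, 13}`: if `a^p + b^p = c^p` with
`a, b` coprime, then `p ∣ abc`. -/
theorem caseI (p : ℕ) (hp : p = 5 ∨ p = 7 ∨ p = 11 ∨ p = 13) (a b c : ℤ) (hab : IsCoprime a b)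
    (h : a ^ p + b ^ p = c ^ p) : (p : ℤ) ∣ a * b * c := by
  have hodd : Odd p := by
    rcases hp with rfl | rfl | rfl | rfl <;> decide
  exact of_symm hodd (caseI_symm p hp) hab h

end Fermat.Agent.Kummer.SG

namespace Fermat.Agent.Kummer

/-! ### The interface statements of the Kummer blueprint (K2) -/

theorem caseI_of_sophieGermain {p q : ℕ} (hp : p.Prime) (hq : q.Prime) (hodd : p ≠ 2)
    (h1 : ∀ x y z : ZMod q, x ^ p + y ^ p + z ^ p = 0 → x = 0 ∨ y = 0 ∨ z = 0)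
    (h2 : ∀ x : ZMod q, x ^ p ≠ (p : ZMod q))
    {a b c : ℤ} (hab : IsCoprime a b) (h : a ^ p + b ^ p = c ^ p) : (p : ℤ) ∣ a * b * c := by
  have : Fact p.Prime := ⟨hp⟩
  have : Fact q.Prime := ⟨hq⟩
  exact SG.of_symm (hp.odd_of_ne_two hodd) (SG.sophie_germain hodd h1 h2) hab h

theorem caseI_five {a b c : ℤ} (hab : IsCoprime a b) (h : a ^ 5 + b ^ 5 = c ^ 5) :
    (5 : ℤ) ∣ a * b * c := by
  simpa using SG.caseI 5 (Or.inl rfl) a b c hab h

theorem caseI_seven {a b c : ℤ} (hab : IsCoprime a b) (h : a ^ 7 + b ^ 7 = c ^ 7) :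
    (7 : ℤ) ∣ a * b * c := by
  simpa using SG.caseI 7 (Or.inr (Or.inl rfl)) a b c hab h

theorem caseI_eleven {a b c : ℤ} (hab : IsCoprime a b) (h : a ^ 11 + b ^ 11 = c ^ 11) :
    (11 : ℤ) ∣ a * b * c := by
  simpa using SG.caseI 11 (Or.inr (Or.inr (Or.inl rfl))) a b c hab h

theorem caseI_thirteen {a b c : ℤ} (hab : IsCoprime a b) (h : a ^ 13 + b ^ 13 = c ^ 13) :
    (13 : ℤ) ∣ a * b * c := by
  simpa using SG.caseI 13 (Or.inr (Or.inr (Or.inr rfl))) a b c hab h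

end Fermat.Agent.Kummer
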