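import Mathlib
import Fermat.Agent.Kummer.Final
import Fermat.Agent.Kummer.SophieGermain
import Fermat.Agent.Kummer.PID11

set_option autoImplicit false

namespace Fermat.Agent.Kummer

open NumberField

set_option backward.isDefEq.respectTransparency false in
/-- Fermat's last theorem for exponent `11` (integer form, coprime `a`, `b`). -/
theorem no_solution_eleven {a b c : ℤ} (ha : a ≠ 0) (hb : b ≠ 0) (hc : c ≠ 0) (hab : IsCoprime a b)
    (h : a ^ 11 + b ^ 11 = c ^ 11) : False := by
  have : Fact (Nat.Prime 11) := ⟨by norm_num⟩
  exact no_solution_of_pid (p := 11) (by norm_num) (eleven_pid (CyclotomicField 11 ℚ))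
    (fun a b c hab h => by exact_mod_cast caseI_eleven hab h) ha hb hc hab h

end Fermat.Agent.Kummer
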