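import Mathlib
import Fermat.Agent.Kummer.Final
import Fermat.Agent.Kummer.SophieGermain

set_option autoImplicit false

namespace Fermat.Agent.Kummer

open NumberField

set_option backward.isDefEq.respectTransparency false in
/-- Fermat's last theorem for exponent `5` (integer form, coprime `a`, `b`). -/
theorem no_solution_five {a b c : ℤ} (ha : a ≠ 0) (hb : b ≠ 0) (hc : c ≠ 0) (hab : IsCoprime a b)
    (h : a ^ 5 + b ^ 5 = c ^ 5) : False := by
  have : Fact (Nat.Prime 5) := ⟨by norm_num⟩
  exact no_solution_of_pid (p := 5) (by norm_num) (IsCyclotomicExtension.Rat.five_pid (CyclotomicField 5 ℚ))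
    (fun a b c hab h => by exact_mod_cast caseI_five hab h) ha hb hc hab h

end Fermat.Agent.Kummer
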