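import Fermat.Agent.Kummer.H92Cyc

/-!
# Hilbert 92, abstract form

Let `M` be a finitely generated abelian group with an automorphism `σ` of prime order `p`,
such that `rank M = p * s - 1` and `rank M^σ = s - 1`.  Then `ker (1 + σ + ⋯ + σ^(p-1))` is strictly
bigger than `range (1 - σ)`.
-/

namespace Fermat.Agent.Kummer
open Module Polynomial

section Main

variable {M : Type*} [AddCommGroup M]

theorem finrank_eq_zero_of_forall_torsion' {Q : Type*} [AddCommGroup Q]
    (h : ∀ x : Q, ∃ a : ℤ, a ≠ 0 ∧ a • x = 0) : Module.finrank ℤ Q = 0 := by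
  apply Module.finrank_eq_zero_of_rank_eq_zero
  rw [rank_eq_zero_iff]
  exact h

/-- rank of the range of a map into a submodule whose image contains `p • _`. -/
theorem finrank_range_eq_of_smul_le [Module.Finite ℤ M] (f : Module.End ℤ M) (E : Submodule ℤ M)
    (hfE : ∀ v, f v ∈ E) (n : ℤ) (hn : n ≠ 0) (hE : ∀ e ∈ E, n • e ∈ LinearMap.range f) :
    Module.finrank ℤ (LinearMap.range f) = Module.finrank ℤ E := by
  -- view range f as a submodule of E
  let f' : M →ₗ[ℤ] E := f.codRestrict E hfE
  have h1 : Module.finrank ℤ (LinearMap.range f') = Module.finrank ℤ (LinearMap.range f) := by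
    have e : LinearMap.range f' ≃ₗ[ℤ] LinearMap.range f := by
      refine LinearEquiv.ofBijective
        ((E.subtype.restrict (p := LinearMap.range f') (q := LinearMap.range f) ?_)) ⟨?_, ?_⟩
      · rintro _ ⟨v, rfl⟩
        exact ⟨v, rfl⟩
      · intro x y hxy
        have := congrArg Subtype.val hxy
        exact Subtype.ext (Subtype.ext this)
      · rintro ⟨_, ⟨v, rfl⟩⟩
        exact ⟨⟨f' v, ⟨v, rfl⟩⟩, rfl⟩
    exact e.finrank_eq
  rw [← h1]
  have h2 := (LinearMap.range f').finrank_quotient_add_finrank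
  have h3 : Module.finrank ℤ (E ⧸ LinearMap.range f') = 0 := by
    apply finrank_eq_zero_of_forall_torsion'
    intro x
    obtain ⟨e, rfl⟩ := Submodule.Quotient.mk_surjective _ x
    refine ⟨n, hn, ?_⟩
    rw [← Submodule.Quotient.mk_smul, Submodule.Quotient.mk_eq_zero]
    obtain ⟨v, hv⟩ := hE e.1 e.2
    exact ⟨v, Subtype.ext hv⟩
  omega


theorem hilbert92_abstract [Module.Finite ℤ M] (p : ℕ) [hp : Fact p.Prime]
    (σ : Module.End ℤ M) (hσ : σ ^ p = 1) (s : ℕ)
    (hM : Module.finrank ℤ M + 1 = p * s)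
    (hK : Module.finrank ℤ (LinearMap.ker (1 - σ)) + 1 = s) :
    ∃ η : M, (∑ j ∈ Finset.range p, σ ^ j) η = 0 ∧ ∀ ε : M, η ≠ (1 - σ) ε := by
  by_contra hcon
  push Not at hcon
  set Nm : Module.End ℤ M := ∑ j ∈ Finset.range p, σ ^ j with hNm
  set D : Module.End ℤ M := 1 - σ with hD
  set EK : Submodule ℤ M := LinearMap.ker D with hEK
  set EN : Submodule ℤ M := LinearMap.ker Nm with hEN
  have hpne : (p : ℤ) ≠ 0 := by exact_mod_cast hp.out.ne_zero
  have hp2 : 2 ≤ p := hp.out.two_le
  -- basic identities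
  have hDN : D * Nm = 0 := by
    rw [hD, hNm, mul_neg_geom_sum, hσ, sub_self]
  have hND : Nm * D = 0 := by
    rw [hD, hNm, geom_sum_mul_neg, hσ, sub_self]
  have hNmK : ∀ v, Nm v ∈ EK := by
    intro v
    rw [hEK, LinearMap.mem_ker, ← Module.End.mul_apply, hDN]; rfl
  have hDEN : ∀ v, D v ∈ EN := by
    intro v
    rw [hEN, LinearMap.mem_ker, ← Module.End.mul_apply, hND]; rfl
  have hσK : ∀ e ∈ EK, σ e = e := by
    intro e he
    rw [hEK, LinearMap.mem_ker, hD] at he
    have : e - σ e = 0 := by simpa using he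
    exact (sub_eq_zero.mp this).symm
  have hσjK : ∀ (j : ℕ), ∀ e ∈ EK, (σ ^ j) e = e := by
    intro j e he
    induction j with
    | zero => simp
    | succ j ih => rw [pow_succ, Module.End.mul_apply, hσK e he, ih]
  have hNmK' : ∀ e ∈ EK, Nm e = (p : ℤ) • e := by
    intro e he
    rw [hNm, LinearMap.sum_apply, Finset.sum_congr rfl (fun j _ => hσjK j e he), Finset.sum_const,
      Finset.card_range]
    simp
  have hcomm : Commute σ Nm := by
    rw [hNm]
    exact Commute.sum_right _ _ _ (fun j _ => (Commute.refl σ).pow_right j)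
  have hσN : ∀ u ∈ EN, σ u ∈ EN := by
    intro u hu
    rw [hEN, LinearMap.mem_ker] at hu ⊢
    rw [← Module.End.mul_apply, ← hcomm.eq, Module.End.mul_apply, hu, map_zero]
  -- restriction of σ to EN
  set τ : Module.End ℤ EN := σ.restrict hσN with hτ
  have hτpow : ∀ (j : ℕ) (u : EN), (((τ ^ j) u : EN) : M) = (σ ^ j) (u : M) := by
    intro j
    induction j with
    | zero => intro u; simp
    | succ j ih =>
      intro u
      rw [pow_succ, Module.End.mul_apply, ih, pow_succ, Module.End.mul_apply]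
      rfl
  have hτsum : ∑ j ∈ Finset.range p, τ ^ j = 0 := by
    ext u
    rw [LinearMap.sum_apply]
    simp only [LinearMap.zero_apply, Submodule.coe_zero]
    rw [Submodule.coe_sum, Finset.sum_congr rfl (fun j _ => hτpow j u)]
    have h0 : Nm (u : M) = 0 := LinearMap.mem_ker.mp u.2
    rw [hNm, LinearMap.sum_apply] at h0
    exact h0
  have h1τ : ∀ u : EN, (((1 - τ) u : EN) : M) = D (u : M) := by
    intro u
    rw [hD]
    simp [hτ, LinearMap.restrict_apply]
  -- ranks
  have hrkN : Module.finrank ℤ EN = (p - 1) * s := by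
    have h1 := EN.finrank_quotient_add_finrank
    have h2 : Module.finrank ℤ (M ⧸ EN) = Module.finrank ℤ (LinearMap.range Nm) :=
      (LinearMap.quotKerEquivRange Nm).finrank_eq
    have h3 : Module.finrank ℤ (LinearMap.range Nm) = Module.finrank ℤ EK := by
      apply finrank_range_eq_of_smul_le Nm EK hNmK (p : ℤ) hpne
      intro e he
      exact ⟨e, hNmK' e he⟩
    have hs : 1 ≤ s := by omega
    obtain ⟨s', rfl⟩ : ∃ s', s = s' + 1 := ⟨s - 1, by omega⟩
    obtain ⟨p', rfl⟩ : ∃ p', p = p' + 1 := ⟨p - 1, by omega⟩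
    have : Module.finrank ℤ EN + Module.finrank ℤ EK = Module.finrank ℤ M := by omega
    have e1 : (p' + 1) * (s' + 1) = p' * s' + p' + s' + 1 := by ring
    have e2 : (p' + 1 - 1) * (s' + 1) = p' * s' + p' := by
      rw [Nat.add_sub_cancel]; ring
    omega
  -- Lemma C on EN
  have YC := index_range_one_sub p τ hτsum s hrkN
  -- Lemma A on EK with multiplication by p
  set pK : Module.End ℤ EK := (p : ℤ) • (1 : Module.End ℤ EK) with hpK
  have hpKapp : ∀ e : EK, pK e = (p : ℤ) • e := fun e => rfl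
  have hφK : ∀ a : EK, pK a ∈ Submodule.torsion ℤ EK → a ∈ Submodule.torsion ℤ EK := by
    intro a ha
    rw [Submodule.mem_torsion_iff] at ha ⊢
    obtain ⟨r, hr⟩ := ha
    refine ⟨⟨(r : ℤ) * (p : ℤ), mul_mem r.2 (mem_nonZeroDivisors_of_ne_zero hpne)⟩, ?_⟩
    show ((r : ℤ) * (p : ℤ)) • a = 0
    rw [mul_smul]
    exact hr
  have XA := index_range_eq pK hφK
  have hdetK : (LinearMap.det (tfMap pK)).natAbs = p ^ (s - 1) := by
    have : tfMap pK = (p : ℤ) • (1 : Module.End ℤ (EK ⧸ Submodule.torsion ℤ EK)) := by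
      ext a; rfl
    rw [this, LinearMap.det_smul, finrank_quot_torsion]
    have : Module.finrank ℤ EK = s - 1 := by omega
    rw [this]
    simp [Int.natAbs_pow]
  rw [hdetK] at XA
  -- the two kernels have the same cardinality
  have hker : Nat.card (LinearMap.ker (1 - τ)) = Nat.card (LinearMap.ker pK) := by
    refine Nat.card_congr ?_
    refine
      { toFun := fun u => ⟨⟨(u.1 : M), ?_⟩, ?_⟩
        invFun := fun e => ⟨⟨(e.1 : M), ?_⟩, ?_⟩
        left_inv := fun u => rfl
        right_inv := fun e => rfl }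
    · -- u ∈ EK
      have h := u.2
      rw [LinearMap.mem_ker] at h
      have h' := congrArg Subtype.val h
      rw [h1τ] at h'
      exact LinearMap.mem_ker.mpr h'
    · rw [LinearMap.mem_ker]
      apply Subtype.ext
      rw [hpKapp]
      show (p : ℤ) • (u.1 : M) = 0
      have hK' : (u.1 : M) ∈ EK := by
        have h := u.2
        rw [LinearMap.mem_ker] at h
        have h' := congrArg Subtype.val h
        rw [h1τ] at h'
        exact LinearMap.mem_ker.mpr h'
      rw [← hNmK' _ hK']
      exact LinearMap.mem_ker.mp u.1.2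
    · -- e ∈ EN
      have h := e.2
      rw [LinearMap.mem_ker, hpKapp] at h
      have h' : (p : ℤ) • (e.1 : M) = 0 := congrArg Subtype.val h
      rw [hEN, LinearMap.mem_ker, hNmK' _ e.1.2]
      exact h'
    · rw [LinearMap.mem_ker]
      apply Subtype.ext
      rw [h1τ]
      exact LinearMap.mem_ker.mp e.1.2
  -- positivity / finiteness
  have hfinK : Finite (LinearMap.ker pK) := by
    apply Module.finite_of_fg_torsion
    intro x
    refine ⟨⟨(p : ℤ), mem_nonZeroDivisors_of_ne_zero hpne⟩, ?_⟩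
    show (p : ℤ) • x = 0
    apply Subtype.ext
    have := LinearMap.mem_ker.mp x.2
    rw [hpKapp] at this
    exact this
  have hposK : 0 < Nat.card (LinearMap.ker pK) := Nat.card_pos
  have hXpos : (LinearMap.range pK).toAddSubgroup.index ≠ 0 := by
    rw [XA]
    exact (Nat.mul_pos hposK (pow_pos hp.out.pos _)).ne'
  have hfinQ : Finite (EK ⧸ LinearMap.range pK) := by
    have := AddSubgroup.index_ne_zero_iff_finite.mp hXpos
    exact this
  -- the two maps
  let g : M →ₗ[ℤ] (EK ⧸ LinearMap.range pK) :=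
    (LinearMap.range pK).mkQ ∘ₗ (Nm.codRestrict EK hNmK)
  let h : M →ₗ[ℤ] (EN ⧸ LinearMap.range (1 - τ)) :=
    (LinearMap.range (1 - τ)).mkQ ∘ₗ (D.codRestrict EN hDEN)
  have hsurj : Function.Surjective h := by
    intro x
    obtain ⟨u, rfl⟩ := Submodule.Quotient.mk_surjective _ x
    obtain ⟨ε, hε⟩ := hcon (u : M) (LinearMap.mem_ker.mp u.2)
    refine ⟨ε, ?_⟩
    show Submodule.Quotient.mk (D.codRestrict EN hDEN ε) = Submodule.Quotient.mk u
    congr 1
    exact Subtype.ext hε.symm
  have hkerle : g.toAddMonoidHom.ker ≤ h.toAddMonoidHom.ker := by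
    intro v hv
    rw [AddMonoidHom.mem_ker] at hv ⊢
    have hv' : Submodule.Quotient.mk (Nm.codRestrict EK hNmK v) = (0 : EK ⧸ LinearMap.range pK) := hv
    rw [Submodule.Quotient.mk_eq_zero] at hv'
    obtain ⟨e, he⟩ := hv'
    have he' : (p : ℤ) • (e : M) = Nm v := by
      have := congrArg Subtype.val he
      exact this
    have hve : v - (e : M) ∈ EN := by
      rw [hEN, LinearMap.mem_ker, map_sub, hNmK' _ e.2, he', sub_self]
    show Submodule.Quotient.mk (D.codRestrict EN hDEN v) = (0 : EN ⧸ LinearMap.range (1 - τ))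
    rw [Submodule.Quotient.mk_eq_zero]
    refine ⟨⟨v - (e : M), hve⟩, ?_⟩
    apply Subtype.ext
    rw [h1τ]
    show D (v - (e : M)) = D v
    rw [map_sub, LinearMap.mem_ker.mp e.2, sub_zero]
  have hY : (LinearMap.range (1 - τ)).toAddSubgroup.index = h.toAddMonoidHom.ker.index := by
    rw [AddSubgroup.index_ker, AddSubgroup.index_eq_card]
    have : h.toAddMonoidHom.range = ⊤ := AddMonoidHom.range_eq_top.mpr hsurj
    rw [this]
    exact (Nat.card_congr (Equiv.Set.univ _)).symm
  have hgle : g.toAddMonoidHom.ker.index ≤ (LinearMap.range pK).toAddSubgroup.index := by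
    rw [AddSubgroup.index_ker, AddSubgroup.index_eq_card]
    have : Finite (EK ⧸ (LinearMap.range pK).toAddSubgroup) := hfinQ
    exact Nat.card_le_card_of_injective _ Subtype.val_injective
  have hgpos : g.toAddMonoidHom.ker.index ≠ 0 := by
    rw [AddSubgroup.index_ker]
    have : Finite g.toAddMonoidHom.range := Finite.of_injective _ Subtype.val_injective
    exact Nat.card_pos.ne'
  have hYX : (LinearMap.range (1 - τ)).toAddSubgroup.index ≤ (LinearMap.range pK).toAddSubgroup.index := by
    rw [hY]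
    exact (Nat.le_of_dvd (Nat.pos_of_ne_zero hgpos) (AddSubgroup.index_dvd_of_le hkerle)).trans hgle
  rw [YC, XA, hker] at hYX
  have hs : 1 ≤ s := by omega
  have : p ^ s = p * p ^ (s - 1) := by
    rw [← pow_succ']; congr 1; omega
  rw [this] at hYX
  have h1 : Nat.card (LinearMap.ker pK) * p ^ (s - 1) * 2 ≤ Nat.card (LinearMap.ker pK) * p ^ (s - 1) := by
    calc Nat.card (LinearMap.ker pK) * p ^ (s - 1) * 2
        ≤ Nat.card (LinearMap.ker pK) * p ^ (s - 1) * p := Nat.mul_le_mul_left _ hp2
      _ = Nat.card (LinearMap.ker pK) * (p * p ^ (s - 1)) := by ring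
      _ ≤ _ := hYX
  have h2 : 0 < Nat.card (LinearMap.ker pK) * p ^ (s - 1) := Nat.mul_pos hposK (pow_pos hp.out.pos _)
  omega


end Main

end Fermat.Agent.Kummer
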