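import Fermat.Agent.Kummer.H92Det

/-!
# Index of the range of `1 - τ` (Lemma C)
-/

namespace Fermat.Agent.Kummer
open Module Polynomial

section LemmaC

variable {A : Type*} [AddCommGroup A]

theorem finrank_eq_zero_of_forall_torsion (S : Submodule ℤ A)
    (h : ∀ x ∈ S, ∃ a : ℤ, a ≠ 0 ∧ a • x = 0) : Module.finrank ℤ S = 0 := by
  apply Module.finrank_eq_zero_of_rank_eq_zero
  rw [rank_eq_zero_iff]
  rintro ⟨x, hx⟩
  obtain ⟨a, ha, hax⟩ := h x hx
  exact ⟨a, ha, Subtype.ext hax⟩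

theorem finrank_quot_torsion [Module.Finite ℤ A] :
    Module.finrank ℤ (A ⧸ Submodule.torsion ℤ A) = Module.finrank ℤ A := by
  have h := (Submodule.torsion ℤ A).finrank_quotient_add_finrank
  have h0 : Module.finrank ℤ (Submodule.torsion ℤ A) = 0 := by
    apply finrank_eq_zero_of_forall_torsion
    intro x hx
    rw [Submodule.mem_torsion_iff] at hx
    obtain ⟨r, hr⟩ := hx
    exact ⟨(r : ℤ), nonZeroDivisors.coe_ne_zero r, hr⟩
  omega

/-- Lemma C. -/
theorem index_range_one_sub [Module.Finite ℤ A] (p : ℕ) [hp : Fact p.Prime] (τ : Module.End ℤ A)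
    (hτ : ∑ j ∈ Finset.range p, τ ^ j = 0) (s : ℕ) (hs : Module.finrank ℤ A = (p - 1) * s) :
    (LinearMap.range (1 - τ)).toAddSubgroup.index = Nat.card (LinearMap.ker (1 - τ)) * p ^ s := by
  have hφ : ∀ a, (1 - τ) a ∈ Submodule.torsion ℤ A → a ∈ Submodule.torsion ℤ A := by
    intro a ha
    rw [Submodule.mem_torsion_iff] at ha ⊢
    obtain ⟨r, hr⟩ := ha
    have hr' : (r : ℤ) • ((1 - τ) a) = 0 := hr
    have h1 : τ ((r : ℤ) • a) = (r : ℤ) • a := by
      have : (r : ℤ) • a - τ ((r : ℤ) • a) = 0 := by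
        rw [map_smul, ← smul_sub]
        simpa using hr'
      exact (sub_eq_zero.mp this).symm
    have h2 : ∀ j : ℕ, (τ ^ j) ((r : ℤ) • a) = (r : ℤ) • a := by
      intro j
      induction j with
      | zero => simp
      | succ j ih => rw [pow_succ, Module.End.mul_apply, h1, ih]
    have h3 : (p : ℤ) • ((r : ℤ) • a) = 0 := by
      have := congrArg (fun f : Module.End ℤ A => f ((r : ℤ) • a)) hτ
      simp only [LinearMap.sum_apply, h2, Finset.sum_const, Finset.card_range,
        LinearMap.zero_apply] at this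
      rw [← this]
      simp
    have hpne : (p : ℤ) ≠ 0 := by exact_mod_cast hp.out.ne_zero
    refine ⟨⟨(p : ℤ) * r, mul_mem (mem_nonZeroDivisors_of_ne_zero hpne) r.2⟩, ?_⟩
    show ((p : ℤ) * (r : ℤ)) • a = 0
    rw [mul_smul]; exact h3
  rw [index_range_eq (1 - τ) hφ]
  congr 1
  have hdet : tfMap (1 - τ) = 1 - tfMap τ := by
    rw [show (1 : Module.End ℤ A) - τ = (LinearMap.id : A →ₗ[ℤ] A) - τ from rfl, tfMap_sub, tfMap_id]
    rfl
  rw [hdet]
  have hτ' : ∑ j ∈ Finset.range p, (tfMap τ) ^ j = 0 := by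
    have := congrArg tfMap hτ
    rw [tfMap_sum, tfMap_zero] at this
    simpa [tfMap_pow] using this
  have hB := natAbs_det_one_sub_pow_eq p (tfMap τ) hτ'
  rw [finrank_quot_torsion, hs, mul_comm, pow_mul] at hB
  have hp1 : p - 1 ≠ 0 := by have := hp.out.two_le; omega
  exact Nat.pow_left_injective hp1 hB

end LemmaC


end Fermat.Agent.Kummer
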