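import Fermat.Agent.Kummer.H92Index

/-!
# The determinant of `1 - τ` when `1 + τ + ⋯ + τ^(p-1) = 0` (Lemma B)
-/

namespace Fermat.Agent.Kummer
open Module Polynomial

/-- B1: the cyclotomic polynomial divides `∏ (1 - X^(k+1)) - p`. -/
theorem cyclotomic_dvd_prod_sub (p : ℕ) [hp : Fact p.Prime] :
    cyclotomic p ℤ ∣ (∏ k ∈ Finset.range (p - 1), (1 - (X : ℤ[X]) ^ (k + 1))) - C (p : ℤ) := by
  have hp0 : p ≠ 0 := hp.out.ne_zero
  have hζ : IsPrimitiveRoot (Complex.exp (2 * Real.pi * Complex.I / p)) p :=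
    Complex.isPrimitiveRoot_exp p hp0
  rw [cyclotomic_eq_minpoly hζ hp.out.pos]
  apply minpoly.isIntegrallyClosed_dvd (hζ.isIntegral hp.out.pos)
  have hp1 : p - 1 + 1 = p := Nat.sub_add_cancel hp.out.one_le
  have h := IsPrimitiveRoot.prod_one_sub_pow_eq_order (n := p - 1) (μ := Complex.exp (2 * Real.pi * Complex.I / p))
    (by rw [hp1]; exact hζ)
  simp only [map_sub, map_prod, map_one, map_pow, aeval_X, aeval_C]
  rw [h]
  have : ((p - 1 : ℕ) : ℂ) + 1 = (p : ℂ) := by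
    rw [← Nat.cast_one (R := ℂ), ← Nat.cast_add, hp1]
  rw [this]
  simp


section LemmaB

variable {V : Type*} [AddCommGroup V]

theorem pow_prime_eq_one_of_geom_sum_eq_zero {S : Type*} [Ring S] (p : ℕ)
    (τ : S) (hτ : ∑ j ∈ Finset.range p, τ ^ j = 0) : τ ^ p = 1 := by
  have := mul_geom_sum τ p
  rw [hτ, mul_zero] at this
  exact (sub_eq_zero.mp this.symm)

/-- the determinant as a monoid hom on polynomials -/
noncomputable def detAeval (τ : Module.End ℤ V) : ℤ[X] →* ℤ :=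
  (LinearMap.det : Module.End ℤ V →* ℤ).comp (Polynomial.aeval τ : ℤ[X] →ₐ[ℤ] Module.End ℤ V).toRingHom.toMonoidHom

theorem detAeval_apply (τ : Module.End ℤ V) (f : ℤ[X]) :
    detAeval τ f = LinearMap.det (Polynomial.aeval τ f) := rfl

theorem natAbs_detAeval_one_sub_pow (p : ℕ) [hp : Fact p.Prime] (τ : Module.End ℤ V)
    (hτ : ∑ j ∈ Finset.range p, τ ^ j = 0) (j : ℕ) (hj0 : 0 < j) (hjp : j < p) :
    (detAeval τ (1 - X ^ j)).natAbs = (detAeval τ (1 - X)).natAbs := by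
  have hτp : τ ^ p = 1 := pow_prime_eq_one_of_geom_sum_eq_zero p τ hτ
  apply Nat.dvd_antisymm
  · -- det(1 - τ^j) ∣ det (1 - τ)
    rw [Int.natAbs_dvd_natAbs]
    have hcop : Nat.Coprime j p :=
      (Nat.coprime_comm.mp ((Nat.Prime.coprime_iff_not_dvd hp.out).mpr
        (Nat.not_dvd_of_pos_of_lt hj0 hjp)))
    obtain ⟨m, -, hm⟩ := Nat.exists_mul_mod_eq_one_of_coprime hcop hp.out.one_lt
    have key : detAeval τ (1 - X) = detAeval τ ((1 - X ^ j) * ∑ i ∈ Finset.range m, (X ^ j) ^ i) := by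
      rw [mul_neg_geom_sum, detAeval_apply, detAeval_apply]
      congr 1
      simp only [map_sub, map_one, map_pow, aeval_X]
      congr 1
      rw [← pow_mul]
      conv_rhs => rw [← Nat.div_add_mod (j * m) p, hm, pow_add, pow_mul, hτp, one_pow, one_mul,
        pow_one]
    rw [key, map_mul]
    exact dvd_mul_right _ _
  · rw [Int.natAbs_dvd_natAbs]
    have : (1 - X ^ j : ℤ[X]) = (1 - X) * ∑ i ∈ Finset.range j, X ^ i := (mul_neg_geom_sum X j).symm
    rw [this, map_mul]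
    exact dvd_mul_right _ _

theorem natAbs_det_one_sub_pow_eq [Module.Free ℤ V] [Module.Finite ℤ V] (p : ℕ) [hp : Fact p.Prime]
    (τ : Module.End ℤ V) (hτ : ∑ j ∈ Finset.range p, τ ^ j = 0) :
    (LinearMap.det (1 - τ)).natAbs ^ (p - 1) = p ^ (Module.finrank ℤ V) := by
  have h1 : detAeval τ (1 - X) = LinearMap.det (1 - τ) := by
    rw [detAeval_apply]; simp
  obtain ⟨Q, hQ⟩ := cyclotomic_dvd_prod_sub p
  have h2 : detAeval τ (∏ k ∈ Finset.range (p - 1), (1 - (X : ℤ[X]) ^ (k + 1)))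
      = (p : ℤ) ^ (Module.finrank ℤ V) := by
    have : (∏ k ∈ Finset.range (p - 1), (1 - (X : ℤ[X]) ^ (k + 1))) = C (p : ℤ) + cyclotomic p ℤ * Q := by
      rw [← hQ]; ring
    rw [this, detAeval_apply]
    have hcyc : Polynomial.aeval τ (cyclotomic p ℤ) = 0 := by
      rw [cyclotomic_prime]
      simpa using hτ
    rw [map_add, map_mul, hcyc, zero_mul, add_zero, aeval_C]
    have : (algebraMap ℤ (Module.End ℤ V)) (p : ℤ) = (p : ℤ) • (1 : Module.End ℤ V) := by
      rw [Algebra.algebraMap_eq_smul_one]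
    rw [this, LinearMap.det_smul]
    simp
  rw [map_prod] at h2
  have h3 := congrArg Int.natAbs h2
  rw [Int.natAbs_pow, Int.natAbs_natCast] at h3
  rw [← h3, ← h1]
  have : ∀ k ∈ Finset.range (p - 1), (detAeval τ (1 - X ^ (k + 1))).natAbs = (detAeval τ (1 - X)).natAbs := by
    intro k hk
    rw [Finset.mem_range] at hk
    exact natAbs_detAeval_one_sub_pow p τ hτ (k + 1) (Nat.succ_pos k) (by omega)
  have h4 : (∏ k ∈ Finset.range (p - 1), detAeval τ (1 - X ^ (k + 1))).natAbs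
      = ∏ k ∈ Finset.range (p - 1), (detAeval τ (1 - X ^ (k + 1))).natAbs :=
    map_prod Int.natAbsHom _ _
  rw [h4, Finset.prod_congr rfl this, Finset.prod_const, Finset.card_range]

end LemmaB


end Fermat.Agent.Kummer
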