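import Mathlib

/-!
# Index of the range of an endomorphism of a finitely generated abelian group (Lemma A)
-/

namespace Fermat.Agent.Kummer

open Module

section LemmaA

variable {A : Type*} [AddCommGroup A]

/-- An endomorphism maps the torsion submodule to itself. -/
theorem torsion_le_comap_torsion (φ : A →ₗ[ℤ] A) :
    Submodule.torsion ℤ A ≤ (Submodule.torsion ℤ A).comap φ := by
  intro a ha
  rw [Submodule.mem_comap]
  rw [Submodule.mem_torsion_iff] at ha ⊢
  obtain ⟨r, hr⟩ := ha
  refine ⟨r, ?_⟩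
  have h1 : (r : ℤ) • a = 0 := hr
  show (r : ℤ) • φ a = 0
  rw [← map_smul, h1, map_zero]

/-- The endomorphism induced on the torsion-free quotient. -/
noncomputable def tfMap (φ : A →ₗ[ℤ] A) :
    (A ⧸ Submodule.torsion ℤ A) →ₗ[ℤ] (A ⧸ Submodule.torsion ℤ A) :=
  (Submodule.torsion ℤ A).mapQ (Submodule.torsion ℤ A) φ (torsion_le_comap_torsion φ)

@[simp] theorem tfMap_mk (φ : A →ₗ[ℤ] A) (a : A) :
    tfMap φ (Submodule.Quotient.mk a) = Submodule.Quotient.mk (φ a) := rfl

theorem tfMap_comp (φ ψ : A →ₗ[ℤ] A) : tfMap (φ ∘ₗ ψ) = tfMap φ ∘ₗ tfMap ψ := by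
  ext a; rfl

theorem tfMap_mul (φ ψ : Module.End ℤ A) : tfMap (φ * ψ) = tfMap φ * tfMap ψ := by
  ext a; rfl

theorem tfMap_one : tfMap (1 : Module.End ℤ A) = 1 := by
  ext a; rfl

theorem tfMap_id : tfMap (LinearMap.id : A →ₗ[ℤ] A) = LinearMap.id := by
  ext a; rfl

theorem tfMap_add (φ ψ : A →ₗ[ℤ] A) : tfMap (φ + ψ) = tfMap φ + tfMap ψ := by
  ext a; rfl

theorem tfMap_sub (φ ψ : A →ₗ[ℤ] A) : tfMap (φ - ψ) = tfMap φ - tfMap ψ := by
  ext a; rfl

theorem tfMap_zero : tfMap (0 : A →ₗ[ℤ] A) = 0 := by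
  ext a; rfl

theorem tfMap_pow (φ : Module.End ℤ A) (n : ℕ) : tfMap (φ ^ n) = (tfMap φ) ^ n := by
  induction n with
  | zero => simpa using tfMap_one
  | succ n ih => rw [pow_succ, pow_succ, tfMap_mul, ih]

theorem tfMap_sum {ι : Type*} (s : Finset ι) (f : ι → (A →ₗ[ℤ] A)) :
    tfMap (∑ i ∈ s, f i) = ∑ i ∈ s, tfMap (f i) := by
  classical
  induction s using Finset.induction_on with
  | empty => simpa using tfMap_zero
  | insert a s ha ih => rw [Finset.sum_insert ha, Finset.sum_insert ha, tfMap_add, ih]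


instance finite_torsion_inst [Module.Finite ℤ A] : Finite (Submodule.torsion ℤ A) :=
  Module.finite_of_fg_torsion _ (Submodule.torsion_isTorsion)

theorem tfMap_injective (φ : A →ₗ[ℤ] A)
    (hφ : ∀ a, φ a ∈ Submodule.torsion ℤ A → a ∈ Submodule.torsion ℤ A) :
    Function.Injective (tfMap φ) := by
  rw [← LinearMap.ker_eq_bot, LinearMap.ker_eq_bot']
  intro x hx
  obtain ⟨a, rfl⟩ := Submodule.Quotient.mk_surjective _ x
  rw [tfMap_mk, Submodule.Quotient.mk_eq_zero] at hx
  rw [Submodule.Quotient.mk_eq_zero]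
  exact hφ a hx

theorem natAbs_det_eq_card_quot {V : Type*} [AddCommGroup V] [Module.Free ℤ V] [Module.Finite ℤ V]
    (f : V →ₗ[ℤ] V) (hf : Function.Injective f) :
    (LinearMap.det f).natAbs = Nat.card (V ⧸ LinearMap.range f) := by
  have := Submodule.natAbs_det_equiv (LinearMap.range f) (LinearEquiv.ofInjective f hf)
  rw [← this]
  congr 2

/-- Lemma A. -/
theorem index_range_eq [Module.Finite ℤ A] (φ : A →ₗ[ℤ] A)
    (hφ : ∀ a, φ a ∈ Submodule.torsion ℤ A → a ∈ Submodule.torsion ℤ A) :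
    (LinearMap.range φ).toAddSubgroup.index =
      Nat.card (LinearMap.ker φ) * (LinearMap.det (tfMap φ)).natAbs := by
  set T : AddSubgroup A := (Submodule.torsion ℤ A).toAddSubgroup with hT
  set R : AddSubgroup A := (LinearMap.range φ).toAddSubgroup with hR
  have hfinT : Finite T := finite_torsion_inst (A := A)
  -- step 1: the index of R ⊔ T
  have h1 : (R ⊔ T).index = (LinearMap.det (tfMap φ)).natAbs := by
    rw [natAbs_det_eq_card_quot _ (tfMap_injective φ hφ)]
    have hcomap : R ⊔ T = (LinearMap.range (tfMap φ)).toAddSubgroup.comap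
        ((Submodule.torsion ℤ A).mkQ : A →ₗ[ℤ] _).toAddMonoidHom := by
      ext a
      simp only [AddSubgroup.mem_comap, LinearMap.toAddMonoidHom_coe, Submodule.mkQ_apply,
        Submodule.mem_toAddSubgroup, LinearMap.mem_range]
      constructor
      · intro ha
        rw [AddSubgroup.mem_sup] at ha
        obtain ⟨r, hr, t, ht, rfl⟩ := ha
        obtain ⟨b, rfl⟩ := hr
        refine ⟨Submodule.Quotient.mk b, ?_⟩
        rw [tfMap_mk, Submodule.Quotient.mk_add]
        have : (Submodule.Quotient.mk t : A ⧸ Submodule.torsion ℤ A) = 0 := by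
          rw [Submodule.Quotient.mk_eq_zero]; exact ht
        rw [this, add_zero]
      · rintro ⟨x, hx⟩
        obtain ⟨b, rfl⟩ := Submodule.Quotient.mk_surjective _ x
        rw [tfMap_mk, Submodule.Quotient.eq] at hx
        rw [AddSubgroup.mem_sup]
        refine ⟨φ b, ⟨b, rfl⟩, a - φ b, ?_, by abel⟩
        have := (Submodule.torsion ℤ A).neg_mem hx
        rw [neg_sub] at this
        exact this
    rw [hcomap, AddSubgroup.index_comap_of_surjective, AddSubgroup.index_eq_card]
    · rfl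
    · exact Submodule.mkQ_surjective _
  -- step 2: R ⊓ T = φ(T)
  have h2 : R ⊓ T = T.map φ.toAddMonoidHom := by
    ext a
    simp only [AddSubgroup.mem_inf, AddSubgroup.mem_map]
    constructor
    · rintro ⟨⟨b, rfl⟩, hb⟩
      exact ⟨b, hφ b hb, rfl⟩
    · rintro ⟨b, hb, rfl⟩
      exact ⟨⟨b, rfl⟩, torsion_le_comap_torsion φ hb⟩
  have hkerT : φ.toAddMonoidHom.ker ≤ T := by
    intro a ha
    apply hφ a
    rw [AddMonoidHom.mem_ker] at ha
    change φ a = 0 at ha
    rw [ha]; exact Submodule.zero_mem _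
  -- step 3: relative index
  have h3 : R.relIndex T * Nat.card (T.map φ.toAddMonoidHom) = Nat.card T := by
    rw [← AddSubgroup.inf_relIndex_right, h2]
    have hle : T.map φ.toAddMonoidHom ≤ T := by
      rintro _ ⟨b, hb, rfl⟩
      exact torsion_le_comap_torsion φ hb
    have := AddSubgroup.card_mul_index ((T.map φ.toAddMonoidHom).addSubgroupOf T)
    rw [← AddSubgroup.relIndex] at this
    rw [mul_comm, ← this]
    congr 1
    exact (Nat.card_congr (AddSubgroup.addSubgroupOfEquivOfLe hle).toEquiv).symm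
  have h4 : Nat.card (φ.toAddMonoidHom.ker) * Nat.card (T.map φ.toAddMonoidHom) = Nat.card T := by
    have h := AddSubgroup.relIndex_ker T φ.toAddMonoidHom
    have := AddSubgroup.card_mul_index ((φ.toAddMonoidHom.ker).addSubgroupOf T)
    rw [← AddSubgroup.relIndex, h] at this
    rw [← this]
    congr 1
    exact (Nat.card_congr (AddSubgroup.addSubgroupOfEquivOfLe hkerT).toEquiv).symm
  have hpos : 0 < Nat.card (T.map φ.toAddMonoidHom) := by
    have : Finite (T.map φ.toAddMonoidHom) := by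
      have hle : T.map φ.toAddMonoidHom ≤ T := by
        rintro _ ⟨b, hb, rfl⟩
        exact torsion_le_comap_torsion φ hb
      exact Finite.of_injective _ (AddSubgroup.inclusion_injective hle)
    exact Nat.card_pos
  have h5 : R.relIndex T = Nat.card (LinearMap.ker φ) := by
    have : R.relIndex T = Nat.card (φ.toAddMonoidHom.ker) :=
      Nat.eq_of_mul_eq_mul_right hpos (h3.trans h4.symm)
    rw [this]
    rfl
  rw [← AddSubgroup.relIndex_mul_index (show R ≤ R ⊔ T from le_sup_left), h1,
    AddSubgroup.relIndex_sup_left, h5]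


end LemmaA

end Fermat.Agent.Kummer
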