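import Mathlib

set_option autoImplicit false

namespace Fermat.Agent.Kummer.H92

open Polynomial Module Submodule

/-- `(1 - X)^(p-1) = ∑_{i<p} X^i + p * g` in `ℤ[X]`, for an odd prime `p`. -/
theorem exists_poly_identity {p : ℕ} (hp : p.Prime) (hodd : p ≠ 2) :
    ∃ g : ℤ[X], (1 - X) ^ (p - 1) = (∑ i ∈ Finset.range p, X ^ i) + C (p : ℤ) * g := by
  have : Fact p.Prime := ⟨hp⟩
  have hev : Even (p - 1) := by
    rcases hp.eq_two_or_odd' with h | h
    · exact absurd h hodd
    · exact Nat.Prime.even_sub_one hp hodd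
  -- the difference vanishes mod p
  have hmod : ((1 - X) ^ (p - 1) - ∑ i ∈ Finset.range p, X ^ i : ℤ[X]).map
      (Int.castRingHom (ZMod p)) = 0 := by
    simp only [Polynomial.map_sub, Polynomial.map_pow, Polynomial.map_one, Polynomial.map_X,
      Polynomial.map_sum]
    have h0 : ((1 : (ZMod p)[X]) - X) ^ (p - 1) = (X - 1) ^ (p - 1) := by
      rw [← hev.neg_pow]; ring
    have h1 : ((X : (ZMod p)[X]) - 1) * ((1 - X) ^ (p - 1) - ∑ i ∈ Finset.range p, X ^ i) = 0 := by
      rw [mul_sub, mul_geom_sum, h0, ← pow_succ', Nat.sub_add_cancel hp.one_le, sub_pow_char,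
        one_pow, sub_self]
    rcases mul_eq_zero.mp h1 with h | h
    · exfalso
      have := congrArg (Polynomial.eval 0) h
      simp at this
    · exact h
  have hdvd : C (p : ℤ) ∣ ((1 - X) ^ (p - 1) - ∑ i ∈ Finset.range p, X ^ i : ℤ[X]) := by
    rw [Polynomial.C_dvd_iff_dvd_coeff]
    intro i
    have := congrArg (fun q => Polynomial.coeff q i) hmod
    simp only [Polynomial.coeff_map, Polynomial.coeff_zero] at this
    exact (ZMod.intCast_zmod_eq_zero_iff_dvd _ p).mp this
  obtain ⟨g, hg⟩ := hdvd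
  exact ⟨g, by rw [← hg]; ring⟩


variable {M : Type*} [AddCommGroup M]

theorem map_mem_torsion (f : M →ₗ[ℤ] M) {x : M} (hx : x ∈ torsion ℤ M) : f x ∈ torsion ℤ M := by
  obtain ⟨a, ha⟩ := (mem_torsion_iff x).mp hx
  refine (mem_torsion_iff _).mpr ⟨a, ?_⟩
  rw [Submonoid.smul_def] at ha ⊢
  rw [← map_smul, ha, map_zero]

/-- The endomorphism induced on the torsion-free quotient. -/
noncomputable def quotEnd (f : M →ₗ[ℤ] M) : (M ⧸ torsion ℤ M) →ₗ[ℤ] (M ⧸ torsion ℤ M) :=
  (torsion ℤ M).mapQ (torsion ℤ M) f (fun _ hx => map_mem_torsion f hx)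

theorem quotEnd_mk (f : M →ₗ[ℤ] M) (x : M) :
    quotEnd f ((torsion ℤ M).mkQ x) = (torsion ℤ M).mkQ (f x) := rfl

/-- `quotEnd` as a ring homomorphism. -/
noncomputable def quotEndHom : Module.End ℤ M →+* Module.End ℤ (M ⧸ torsion ℤ M) where
  toFun := quotEnd
  map_one' := by
    apply LinearMap.ext
    intro x
    obtain ⟨x, rfl⟩ := (torsion ℤ M).mkQ_surjective x
    rfl
  map_mul' f g := by
    apply LinearMap.ext
    intro x
    obtain ⟨x, rfl⟩ := (torsion ℤ M).mkQ_surjective x
    rfl
  map_zero' := by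
    apply LinearMap.ext
    intro x
    obtain ⟨x, rfl⟩ := (torsion ℤ M).mkQ_surjective x
    change (torsion ℤ M).mkQ ((0 : Module.End ℤ M) x) = 0
    rw [LinearMap.zero_apply, map_zero]
  map_add' f g := by
    apply LinearMap.ext
    intro x
    obtain ⟨x, rfl⟩ := (torsion ℤ M).mkQ_surjective x
    change (torsion ℤ M).mkQ ((f + g) x) = (torsion ℤ M).mkQ (f x) + (torsion ℤ M).mkQ (g x)
    rw [LinearMap.add_apply, map_add]

theorem quotEndHom_apply (f : Module.End ℤ M) : quotEndHom f = quotEnd f := rfl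

theorem finrank_quot_torsion [Module.Finite ℤ M] :
    finrank ℤ (M ⧸ torsion ℤ M) = finrank ℤ M := by
  have h := Submodule.finrank_quotient_add_finrank (torsion ℤ M)
  have h0 : finrank ℤ (torsion ℤ M) = 0 := by
    rw [Module.finrank_eq_zero_iff]
    intro x
    obtain ⟨a, ha⟩ := (mem_torsion_iff x.1).mp x.2
    refine ⟨a, nonZeroDivisors.coe_ne_zero a, ?_⟩
    apply Subtype.ext
    rw [Submonoid.smul_def] at ha
    simpa using ha
  omega

theorem card_quot_range_eq_natAbs_det {X : Type*} [AddCommGroup X] [Module.Free ℤ X]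
    [Module.Finite ℤ X] (d : X →ₗ[ℤ] X) (hd : Function.Injective d) :
    Nat.card (X ⧸ LinearMap.range d) = (LinearMap.det d).natAbs := by
  let e : X ≃ₗ[ℤ] LinearMap.range d := LinearEquiv.ofInjective d hd
  have h := Submodule.natAbs_det_equiv (LinearMap.range d) e
  rw [← h]
  congr 2

/-- `|X / pX| = p ^ rank X` for a free f.g. `ℤ`-module. -/
theorem card_quot_range_natCast {X : Type*} [AddCommGroup X] [Module.Free ℤ X]
    [Module.Finite ℤ X] {p : ℕ} (hp : p ≠ 0) :
    Nat.card (X ⧸ LinearMap.range ((p : Module.End ℤ X))) = p ^ finrank ℤ X := by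
  have hp0 : (p : ℤ) ≠ 0 := by exact_mod_cast hp
  have hcast : ((p : Module.End ℤ X)) = (p : ℤ) • (1 : Module.End ℤ X) := by
    apply LinearMap.ext
    intro x
    simp [Module.End.natCast_apply]
  have hinj : Function.Injective ((p : Module.End ℤ X)) := by
    intro x y hxy
    rw [Module.End.natCast_apply, Module.End.natCast_apply] at hxy
    have : (p : ℤ) • (x - y) = 0 := by
      rw [smul_sub, sub_eq_zero]
      simpa using hxy
    exact sub_eq_zero.mp ((smul_eq_zero.mp this).resolve_left hp0)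
  rw [card_quot_range_eq_natAbs_det _ hinj, hcast, LinearMap.det_smul, map_one, mul_one,
    Int.natAbs_pow, Int.natAbs_natCast]


/-- **Torsion count**: if `f` is injective modulo torsion, then
`|M / fM| = |M̄ / f̄ M̄| * |ker f|`. -/
theorem card_quot_range_eq_mul [Module.Finite ℤ M] (f : M →ₗ[ℤ] M)
    (hf : ∀ x, f x ∈ torsion ℤ M → x ∈ torsion ℤ M) :
    Nat.card (M ⧸ LinearMap.range f) =
      Nat.card ((M ⧸ torsion ℤ M) ⧸ LinearMap.range (quotEnd f)) * Nat.card (LinearMap.ker f) := by
  classical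
  set T : Submodule ℤ M := torsion ℤ M with hT
  have hTfin : Finite T :=
    Module.finite_of_fg_torsion T (Submodule.torsion_isTorsion (R := ℤ) (M := M))
  set R : AddSubgroup M := (LinearMap.range f).toAddSubgroup with hR
  set Tg : AddSubgroup M := T.toAddSubgroup with hTg
  set Rbar : AddSubgroup (M ⧸ T) := (LinearMap.range (quotEnd f)).toAddSubgroup with hRbar
  let π : M →+ M ⧸ T := (T.mkQ).toAddMonoidHom
  have hπ : Function.Surjective π := T.mkQ_surjective
  -- step 1
  have h1 : Nat.card (M ⧸ LinearMap.range f) = R.index := rfl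
  have h2 : Nat.card ((M ⧸ T) ⧸ LinearMap.range (quotEnd f)) = Rbar.index := rfl
  have h3 : R.relIndex (R ⊔ Tg) * (R ⊔ Tg).index = R.index :=
    AddSubgroup.relIndex_mul_index le_sup_left
  -- `R ⊔ Tg` is the preimage of `Rbar`
  have h4 : R ⊔ Tg = Rbar.comap π := by
    ext x
    constructor
    · intro hx
      rw [AddSubgroup.mem_sup] at hx
      obtain ⟨y, hy, z, hz, rfl⟩ := hx
      obtain ⟨w, rfl⟩ := hy
      rw [AddSubgroup.mem_comap]
      refine ⟨T.mkQ w, ?_⟩
      rw [quotEnd_mk]
      change T.mkQ (f w) = T.mkQ (f w + z)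
      have hz0 : T.mkQ z = 0 := by
        rw [Submodule.mkQ_apply]; exact (Submodule.Quotient.mk_eq_zero T).mpr hz
      rw [map_add, hz0, add_zero]
    · intro hx
      rw [AddSubgroup.mem_comap] at hx
      obtain ⟨w, hw⟩ := hx
      obtain ⟨w, rfl⟩ := T.mkQ_surjective w
      rw [quotEnd_mk] at hw
      have : x - f w ∈ T := by
        rw [← Submodule.Quotient.mk_eq_zero T, Submodule.Quotient.mk_sub]
        exact sub_eq_zero.mpr hw.symm
      rw [AddSubgroup.mem_sup]
      exact ⟨f w, ⟨w, rfl⟩, x - f w, this, by abel⟩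
  have h5 : (R ⊔ Tg).index = Rbar.index := by
    rw [h4]; exact AddSubgroup.index_comap_of_surjective Rbar hπ
  -- step 2
  have h6 : R.relIndex (R ⊔ Tg) = R.relIndex Tg := AddSubgroup.relIndex_sup_left Tg R
  have h7 : R.relIndex Tg = (R ⊓ Tg).relIndex Tg := (AddSubgroup.inf_relIndex_right R Tg).symm
  have h8 : R ⊓ Tg = Tg.map f.toAddMonoidHom := by
    ext x
    constructor
    · rintro ⟨⟨w, rfl⟩, hx2⟩
      exact ⟨w, hf w hx2, rfl⟩
    · rintro ⟨w, hw, rfl⟩
      exact ⟨⟨w, rfl⟩, map_mem_torsion f hw⟩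
  -- step 3: the restriction of `f` to the finite group `T`
  let fT : T →+ T := (f.restrict (fun x hx => map_mem_torsion f hx)).toAddMonoidHom
  have h9 : (Tg.map f.toAddMonoidHom).relIndex Tg = fT.range.index := by
    rw [AddSubgroup.relIndex]
    congr 1
    ext ⟨x, hx⟩
    simp only [AddSubgroup.mem_addSubgroupOf, AddSubgroup.mem_map, AddMonoidHom.mem_range]
    constructor
    · rintro ⟨w, hw, hwx⟩
      exact ⟨⟨w, hw⟩, Subtype.ext hwx⟩
    · rintro ⟨⟨w, hw⟩, hwx⟩
      exact ⟨w, hw, congrArg Subtype.val hwx⟩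
  have h10 : fT.range.index = Nat.card fT.ker := AddSubgroup.index_range
  have h11 : Nat.card fT.ker = Nat.card (LinearMap.ker f) := by
    apply Nat.card_congr
    refine ⟨fun x => ⟨x.1.1, ?_⟩, fun x => ⟨⟨x.1, ?_⟩, ?_⟩, ?_, ?_⟩
    · have := x.2
      rw [AddMonoidHom.mem_ker] at this
      exact congrArg Subtype.val this
    · apply hf
      rw [LinearMap.mem_ker.mp x.2]
      exact zero_mem _
    · rw [AddMonoidHom.mem_ker]
      apply Subtype.ext
      exact LinearMap.mem_ker.mp x.2
    · intro x; rfl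
    · intro x; rfl
  rw [h1, h2, ← h3, h5, h6, h7, h8, h9, h10, h11, mul_comm]


theorem pow_le_card_quot_one_sub {p : ℕ} (hp : p.Prime) (hodd : p ≠ 2)
    {X : Type*} [AddCommGroup X] [Module.Free ℤ X] [Module.Finite ℤ X]
    (s : Module.End ℤ X) (hs : ∑ i ∈ Finset.range p, s ^ i = 0) (k : ℕ)
    (hk : finrank ℤ X = (p - 1) * k) :
    p ^ k ≤ Nat.card (X ⧸ LinearMap.range (1 - s)) := by
  have hp0 : (p : ℤ) ≠ 0 := by exact_mod_cast hp.ne_zero
  -- `1 - s` is injective
  have hinj : Function.Injective (1 - s : Module.End ℤ X) := by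
    rw [← LinearMap.ker_eq_bot, LinearMap.ker_eq_bot']
    intro x hx
    have hsx : s x = x := by
      have : x - s x = 0 := by simpa using hx
      exact (sub_eq_zero.mp this).symm
    have hpow : ∀ i : ℕ, (s ^ i) x = x := by
      intro i
      induction i with
      | zero => simp
      | succ n ih => rw [pow_succ, Module.End.mul_apply, hsx, ih]
    have h0 : (∑ i ∈ Finset.range p, s ^ i) x = 0 := by rw [hs]; simp
    rw [LinearMap.sum_apply] at h0
    simp only [hpow, Finset.sum_const, Finset.card_range] at h0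
    have : (p : ℤ) • x = 0 := by simpa using h0
    exact (smul_eq_zero.mp this).resolve_left hp0
  rw [card_quot_range_eq_natAbs_det _ hinj]
  -- `(1 - s)^(p-1) = p • g(s)`
  obtain ⟨g, hg⟩ := exists_poly_identity hp hodd
  have hg' := congrArg (Polynomial.aeval s) hg
  simp only [map_pow, map_sub, map_one, aeval_X, map_add, map_sum, map_mul, aeval_C, hs,
    zero_add] at hg'
  have hdet : LinearMap.det ((1 - s) ^ (p - 1)) = (p : ℤ) ^ finrank ℤ X * LinearMap.det (aeval s g) := by
    rw [hg']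
    have : (algebraMap ℤ (Module.End ℤ X)) (p : ℤ) * (aeval s) g = (p : ℤ) • (aeval s g) := by
      rw [Algebra.smul_def]
    rw [this, LinearMap.det_smul]
  rw [map_pow, hk] at hdet
  have hdne : LinearMap.det (1 - s : Module.End ℤ X) ≠ 0 := by
    intro h0
    rw [LinearMap.det_eq_zero_iff_ker_ne_bot] at h0
    exact h0 (LinearMap.ker_eq_bot.mpr hinj)
  -- `(p^k)^(p-1) ∣ |det|^(p-1)`
  have hdvd : ((p : ℤ) ^ k) ^ (p - 1) ∣ (LinearMap.det (1 - s : Module.End ℤ X)) ^ (p - 1) := by
    rw [hdet, ← pow_mul, mul_comm k]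
    exact dvd_mul_right _ _
  have hp1 : p - 1 ≠ 0 := by
    have := hp.two_le; omega
  have hdvd' : (p : ℤ) ^ k ∣ LinearMap.det (1 - s : Module.End ℤ X) :=
    (Int.pow_dvd_pow_iff hp1).mp hdvd
  have : (p ^ k : ℕ) ∣ (LinearMap.det (1 - s : Module.End ℤ X)).natAbs := by
    have := Int.natAbs_dvd_natAbs.mpr hdvd'
    simpa [Int.natAbs_pow] using this
  exact Nat.le_of_dvd (Int.natAbs_pos.mpr hdne) this


variable {G : Type*} [AddCommGroup G]

/-- **Abstract Hilbert 92** (Herbrand quotient of a cyclic group of prime order acting on a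
f.g. abelian group, in index-counting form). -/
theorem exists_mem_ker_notMem_range [Module.Finite ℤ G] {p : ℕ} (hp : p.Prime) (hodd : p ≠ 2)
    (s : Module.End ℤ G) (hs : s ^ p = 1) (r₀ : ℕ)
    (hr₀ : finrank ℤ (LinearMap.ker (1 - s)) = r₀)
    (hr : finrank ℤ G + 1 = p * (r₀ + 1)) :
    ∃ m : G, (∑ i ∈ Finset.range p, s ^ i) m = 0 ∧ m ∉ LinearMap.range (1 - s) := by
  by_contra hcon
  have hall : ∀ m : G, (∑ i ∈ Finset.range p, s ^ i) m = 0 → m ∈ LinearMap.range (1 - s) := by
    intro m hm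
    by_contra h
    exact hcon ⟨m, hm, h⟩
  clear hcon
  have hp0 : (p : ℤ) ≠ 0 := by exact_mod_cast hp.ne_zero
  set N : Module.End ℤ G := ∑ i ∈ Finset.range p, s ^ i with hN
  set D : Module.End ℤ G := 1 - s with hD
  -- basic identities
  have hDN : D * N = 0 := by
    have : (s - 1) * N = 0 := by rw [hN, mul_geom_sum, hs, sub_self]
    rw [hD, ← neg_sub, neg_mul, this, neg_zero]
  have hND : N * D = 0 := by
    have : N * (s - 1) = 0 := by rw [hN, geom_sum_mul, hs, sub_self]
    rw [hD, ← neg_sub, mul_neg, this, neg_zero]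
  have hsN : s * N = N * s := by
    rw [hN, Finset.mul_sum, Finset.sum_mul]
    exact Finset.sum_congr rfl (fun i _ => by rw [← pow_succ', ← pow_succ])
  -- on `G₀ = ker D`, `N = p`
  have hfix : ∀ g : G, D g = 0 → N g = (p : ℤ) • g := by
    intro g hg
    have hsg : s g = g := by
      have : g - s g = 0 := by simpa [hD] using hg
      exact (sub_eq_zero.mp this).symm
    have hpow : ∀ i : ℕ, (s ^ i) g = g := by
      intro i
      induction i with
      | zero => simp
      | succ n ih => rw [pow_succ, Module.End.mul_apply, hsg, ih]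
    rw [hN, LinearMap.sum_apply]
    simp only [hpow, Finset.sum_const, Finset.card_range]
    simp
  -- `s` preserves `ker N`
  have hsM : ∀ x ∈ LinearMap.ker N, s x ∈ LinearMap.ker N := by
    intro x hx
    rw [LinearMap.mem_ker] at hx ⊢
    have : N (s x) = s (N x) := by
      rw [← Module.End.mul_apply, ← hsN, Module.End.mul_apply]
    rw [this, hx, map_zero]
  let sM : Module.End ℤ (LinearMap.ker N) := s.restrict hsM
  have hsum : ∑ i ∈ Finset.range p, sM ^ i = 0 := by
    apply LinearMap.ext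
    intro x
    apply Subtype.ext
    rw [LinearMap.sum_apply, LinearMap.zero_apply, Submodule.coe_zero, Submodule.coe_sum]
    have : ∀ i : ℕ, (((sM ^ i) x : LinearMap.ker N) : G) = (s ^ i) x.1 := by
      intro i
      rw [Module.End.pow_restrict i hsM]
      rfl
    simp only [this]
    have hx : (∑ i ∈ Finset.range p, s ^ i) x.1 = 0 := LinearMap.mem_ker.mp x.2
    rw [LinearMap.sum_apply] at hx
    exact hx
  set DM : Module.End ℤ (LinearMap.ker N) := 1 - sM with hDM
  have hDMval : ∀ x : LinearMap.ker N, ((DM x : LinearMap.ker N) : G) = D x.1 := by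
    intro x; rfl
  -- `DM` is injective modulo torsion
  have hDMtors : ∀ x, DM x ∈ torsion ℤ (LinearMap.ker N) → x ∈ torsion ℤ (LinearMap.ker N) := by
    intro x hx
    obtain ⟨a, ha⟩ := (mem_torsion_iff _).mp hx
    rw [Submonoid.smul_def, ← map_smul] at ha
    have h1 : D ((a : ℤ) • x.1) = 0 := by
      have := congrArg Subtype.val ha
      rw [hDMval] at this
      simpa using this
    have h2 : N ((a : ℤ) • x.1) = 0 := by
      rw [map_smul, LinearMap.mem_ker.mp x.2, smul_zero]
    have h3 := hfix _ h1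
    rw [h2, smul_smul] at h3
    have hne : (p : ℤ) * (a : ℤ) ≠ 0 := mul_ne_zero hp0 (nonZeroDivisors.coe_ne_zero a)
    refine (mem_torsion_iff _).mpr ⟨⟨(p : ℤ) * a, mem_nonZeroDivisors_of_ne_zero hne⟩, ?_⟩
    rw [Submonoid.smul_def]
    apply Subtype.ext
    simpa using h3.symm
  -- rank of `ker N`
  have hrank : finrank ℤ (LinearMap.ker N) = (p - 1) * (r₀ + 1) := by
    have e1 := Submodule.finrank_quotient_add_finrank (LinearMap.ker N)
    rw [N.quotKerEquivRange.finrank_eq] at e1
    have hle : LinearMap.range N ≤ LinearMap.ker D := by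
      rintro _ ⟨x, rfl⟩
      rw [LinearMap.mem_ker, ← Module.End.mul_apply, hDN, LinearMap.zero_apply]
    have e2 : finrank ℤ (LinearMap.range N) ≤ r₀ := hr₀ ▸ Submodule.finrank_mono hle
    let φ : LinearMap.ker D →ₗ[ℤ] G := N.domRestrict (LinearMap.ker D)
    have e3 := Submodule.finrank_quotient_add_finrank (LinearMap.ker φ)
    rw [φ.quotKerEquivRange.finrank_eq, hr₀] at e3
    have e4 : finrank ℤ (LinearMap.ker φ) = 0 := by
      rw [Module.finrank_eq_zero_iff]
      intro x
      refine ⟨(p : ℤ), hp0, ?_⟩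
      apply Subtype.ext
      apply Subtype.ext
      have h1 : N x.1.1 = 0 := LinearMap.mem_ker.mp x.2
      have h2 : D x.1.1 = 0 := LinearMap.mem_ker.mp x.1.2
      have h3 := hfix _ h2
      rw [h1] at h3
      simpa using h3.symm
    have hle2 : LinearMap.range φ ≤ LinearMap.range N := by
      rintro _ ⟨x, rfl⟩
      exact ⟨x.1, rfl⟩
    have e5 : finrank ℤ (LinearMap.range φ) ≤ finrank ℤ (LinearMap.range N) :=
      Submodule.finrank_mono hle2
    have e6 : finrank ℤ (LinearMap.range N) = r₀ := by omega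
    obtain ⟨q, rfl⟩ : ∃ q, p = q + 1 := ⟨p - 1, (Nat.sub_add_cancel hp.one_le).symm⟩
    rw [Nat.add_sub_cancel]
    have : (q + 1) * (r₀ + 1) = q * (r₀ + 1) + r₀ + 1 := by ring
    omega
  -- lower bound
  have hlow : p ^ (r₀ + 1) * Nat.card (LinearMap.ker DM) ≤
      Nat.card (LinearMap.ker N ⧸ LinearMap.range DM) := by
    rw [card_quot_range_eq_mul DM hDMtors]
    apply Nat.mul_le_mul_right
    have hq : quotEnd DM = 1 - quotEndHom sM := by
      rw [← quotEndHom_apply, hDM, map_sub, map_one]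
    rw [hq]
    apply pow_le_card_quot_one_sub hp hodd (quotEndHom sM)
    · have := congrArg (quotEndHom (M := LinearMap.ker N)) hsum
      rw [map_sum, map_zero] at this
      simpa only [map_pow] using this
    · rw [finrank_quot_torsion, hrank]
  -- the module `G₀ = ker D` with the endomorphism `p`
  set P : Module.End ℤ (LinearMap.ker D) := (p : Module.End ℤ (LinearMap.ker D)) with hP
  have hPval : ∀ x : LinearMap.ker D, ((P x : LinearMap.ker D) : G) = (p : ℤ) • x.1 := by
    intro x
    rw [hP, Module.End.natCast_apply]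
    simp
  have hPtors : ∀ x, P x ∈ torsion ℤ (LinearMap.ker D) → x ∈ torsion ℤ (LinearMap.ker D) := by
    intro x hx
    obtain ⟨a, ha⟩ := (mem_torsion_iff _).mp hx
    rw [Submonoid.smul_def, hP, Module.End.natCast_apply] at ha
    have hne : (a : ℤ) * (p : ℤ) ≠ 0 := mul_ne_zero (nonZeroDivisors.coe_ne_zero a) hp0
    refine (mem_torsion_iff _).mpr ⟨⟨(a : ℤ) * p, mem_nonZeroDivisors_of_ne_zero hne⟩, ?_⟩
    rw [Submonoid.smul_def]
    change ((a : ℤ) * (p : ℤ)) • x = 0
    rw [mul_smul, natCast_zsmul]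
    exact ha
  have hupP : Nat.card (LinearMap.ker D ⧸ LinearMap.range P) =
      p ^ r₀ * Nat.card (LinearMap.ker P) := by
    rw [card_quot_range_eq_mul P hPtors]
    congr 1
    have hq : quotEnd P = ((p : Module.End ℤ (LinearMap.ker D ⧸ torsion ℤ (LinearMap.ker D)))) := by
      rw [← quotEndHom_apply, hP, map_natCast]
    rw [hq, card_quot_range_natCast hp.ne_zero, finrank_quot_torsion, hr₀]
  -- the two maps out of `G`
  have hDmem : ∀ g : G, D g ∈ LinearMap.ker N := by
    intro g
    rw [LinearMap.mem_ker, ← Module.End.mul_apply, hND, LinearMap.zero_apply]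
  have hNmem : ∀ g : G, N g ∈ LinearMap.ker D := by
    intro g
    rw [LinearMap.mem_ker, ← Module.End.mul_apply, hDN, LinearMap.zero_apply]
  let ψ₁ : G →ₗ[ℤ] (LinearMap.ker N ⧸ LinearMap.range DM) :=
    (LinearMap.range DM).mkQ ∘ₗ (D.codRestrict (LinearMap.ker N) hDmem)
  let ψ₂ : G →ₗ[ℤ] (LinearMap.ker D ⧸ LinearMap.range P) :=
    (LinearMap.range P).mkQ ∘ₗ (N.codRestrict (LinearMap.ker D) hNmem)
  have hψ₁surj : Function.Surjective ψ₁ := by
    intro y
    obtain ⟨m, rfl⟩ := (LinearMap.range DM).mkQ_surjective y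
    obtain ⟨g, hg⟩ := hall m.1 (LinearMap.mem_ker.mp m.2)
    refine ⟨g, ?_⟩
    change (LinearMap.range DM).mkQ (D.codRestrict (LinearMap.ker N) hDmem g) = _
    congr 1
    exact Subtype.ext hg
  have hker : LinearMap.ker ψ₁ = LinearMap.ker ψ₂ := by
    ext g
    rw [LinearMap.mem_ker, LinearMap.mem_ker]
    change (LinearMap.range DM).mkQ (D.codRestrict (LinearMap.ker N) hDmem g) = 0 ↔
      (LinearMap.range P).mkQ (N.codRestrict (LinearMap.ker D) hNmem g) = 0
    rw [Submodule.mkQ_apply, Submodule.mkQ_apply, Submodule.Quotient.mk_eq_zero,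
      Submodule.Quotient.mk_eq_zero]
    constructor
    · rintro ⟨m, hm⟩
      have hm' : D m.1 = D g := by
        have := congrArg Subtype.val hm
        rwa [hDMval] at this
      have hg₀ : D (g - m.1) = 0 := by rw [map_sub, hm', sub_self]
      refine ⟨⟨g - m.1, LinearMap.mem_ker.mpr hg₀⟩, ?_⟩
      apply Subtype.ext
      rw [hPval]
      change (p : ℤ) • (g - m.1) = N g
      rw [← hfix _ hg₀, map_sub, LinearMap.mem_ker.mp m.2, sub_zero]
    · rintro ⟨g₀, hg₀⟩
      have hg₀' : (p : ℤ) • g₀.1 = N g := by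
        have := congrArg Subtype.val hg₀
        rwa [hPval] at this
      have hD0 : D g₀.1 = 0 := LinearMap.mem_ker.mp g₀.2
      have hm : N (g - g₀.1) = 0 := by
        rw [map_sub, hfix _ hD0, hg₀', sub_self]
      refine ⟨⟨g - g₀.1, LinearMap.mem_ker.mpr hm⟩, ?_⟩
      apply Subtype.ext
      rw [hDMval]
      change D (g - g₀.1) = D g
      rw [map_sub, hD0, sub_zero]
  -- finiteness and the comparison
  have hcpos : 0 < Nat.card (LinearMap.ker P) := by
    have hfin : Finite (torsion ℤ (LinearMap.ker D)) :=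
      Module.finite_of_fg_torsion _ (Submodule.torsion_isTorsion (R := ℤ) (M := LinearMap.ker D))
    have hle : LinearMap.ker P ≤ torsion ℤ (LinearMap.ker D) := by
      intro x hx
      apply hPtors
      rw [LinearMap.mem_ker.mp hx]
      exact zero_mem _
    have : Finite (LinearMap.ker P) :=
      Finite.of_injective (fun x : LinearMap.ker P => (⟨x.1, hle x.2⟩ : torsion ℤ (LinearMap.ker D)))
        (fun x y h => Subtype.ext (by simpa using congrArg Subtype.val h))
    exact Nat.card_pos
  have hfinQ : Finite (LinearMap.ker D ⧸ LinearMap.range P) := by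
    apply Nat.finite_of_card_ne_zero
    rw [hupP]
    exact (Nat.mul_pos (pow_pos hp.pos _) hcpos).ne'
  have hcmp : Nat.card (LinearMap.ker N ⧸ LinearMap.range DM) ≤
      Nat.card (LinearMap.ker D ⧸ LinearMap.range P) := by
    have e1 : Nat.card (LinearMap.ker N ⧸ LinearMap.range DM) = Nat.card (G ⧸ LinearMap.ker ψ₁) :=
      Nat.card_congr (ψ₁.quotKerEquivOfSurjective hψ₁surj).symm.toEquiv
    have e2 : Nat.card (G ⧸ LinearMap.ker ψ₂) = Nat.card (LinearMap.range ψ₂) :=
      Nat.card_congr ψ₂.quotKerEquivRange.toEquiv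
    rw [e1, hker, e2]
    exact Nat.card_le_card_of_injective _ Subtype.val_injective
  -- the two kernels have the same cardinality
  have hcc : Nat.card (LinearMap.ker DM) = Nat.card (LinearMap.ker P) := by
    apply Nat.card_congr
    refine ⟨fun x => ⟨⟨x.1.1, ?_⟩, ?_⟩, fun x => ⟨⟨x.1.1, ?_⟩, ?_⟩, ?_, ?_⟩
    · have := congrArg Subtype.val (LinearMap.mem_ker.mp x.2)
      rw [hDMval] at this
      exact LinearMap.mem_ker.mpr this
    · rw [LinearMap.mem_ker]
      apply Subtype.ext
      rw [hPval]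
      have h1 : D x.1.1 = 0 := by
        have := congrArg Subtype.val (LinearMap.mem_ker.mp x.2)
        rwa [hDMval] at this
      change (p : ℤ) • x.1.1 = 0
      rw [← hfix _ h1]
      exact LinearMap.mem_ker.mp x.1.2
    · rw [LinearMap.mem_ker, hfix _ (LinearMap.mem_ker.mp x.1.2)]
      have := congrArg Subtype.val (LinearMap.mem_ker.mp x.2)
      rwa [hPval] at this
    · rw [LinearMap.mem_ker]
      apply Subtype.ext
      rw [hDMval]
      exact LinearMap.mem_ker.mp x.1.2
    · intro x; rfl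
    · intro x; rfl
  -- final contradiction
  rw [hcc] at hlow
  have hfinal := (hlow.trans hcmp).trans_eq hupP
  rw [pow_succ, mul_assoc, mul_comm (p ^ r₀)] at hfinal
  have hpos : 0 < p ^ r₀ * Nat.card (LinearMap.ker P) := Nat.mul_pos (pow_pos hp.pos _) hcpos
  have h2 := hp.two_le
  nlinarith

end Fermat.Agent.Kummer.H92
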