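import Fermat.Agent.Kummer.Herbrand

set_option autoImplicit false

namespace Fermat.Agent.Kummer

open NumberField Module

namespace H92

variable {K L : Type*} [Field K] [Field L] [Algebra K L]

/-- The action of an automorphism on the units of `𝓞 L`. -/
noncomputable def unitsMap (τ : L ≃ₐ[K] L) : (𝓞 L)ˣ →* (𝓞 L)ˣ :=
  Units.map (RingOfIntegers.mapRingHom (τ : L →+* L)).toMonoidHom

theorem unitsMap_coe (τ : L ≃ₐ[K] L) (u : (𝓞 L)ˣ) :
    (((unitsMap τ u : (𝓞 L)ˣ) : 𝓞 L) : L) = τ ((u : 𝓞 L) : L) := rfl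

theorem unitsMap_mul (τ₁ τ₂ : L ≃ₐ[K] L) (u : (𝓞 L)ˣ) :
    unitsMap (τ₁ * τ₂) u = unitsMap τ₁ (unitsMap τ₂ u) := by
  apply Units.ext
  apply RingOfIntegers.ext
  rfl

theorem unitsMap_one (u : (𝓞 L)ˣ) : unitsMap (1 : L ≃ₐ[K] L) u = u := by
  apply Units.ext
  apply RingOfIntegers.ext
  rfl

/-- The `ℤ`-linear endomorphism of `Additive (𝓞 L)ˣ` induced by `τ`. -/
noncomputable def unitsEnd (τ : L ≃ₐ[K] L) : Module.End ℤ (Additive (𝓞 L)ˣ) :=
  (MonoidHom.toAdditive (unitsMap τ)).toIntLinearMap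

theorem unitsEnd_apply (τ : L ≃ₐ[K] L) (u : Additive (𝓞 L)ˣ) :
    unitsEnd τ u = Additive.ofMul (unitsMap τ u.toMul) := rfl

theorem unitsEnd_pow (τ : L ≃ₐ[K] L) (n : ℕ) : unitsEnd τ ^ n = unitsEnd (τ ^ n) := by
  induction n with
  | zero =>
    apply LinearMap.ext
    intro u
    rw [pow_zero, pow_zero, Module.End.one_apply, unitsEnd_apply, unitsMap_one]
    rfl
  | succ n ih =>
    apply LinearMap.ext
    intro u
    rw [pow_succ', pow_succ', Module.End.mul_apply, ih, unitsEnd_apply, unitsEnd_apply,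
      unitsEnd_apply, unitsMap_mul]
    rfl

/-- The inclusion of the units of `𝓞 K` into those of `𝓞 L`, additively. -/
noncomputable def unitsIncl : Additive (𝓞 K)ˣ →ₗ[ℤ] Additive (𝓞 L)ˣ :=
  (MonoidHom.toAdditive (Units.map (algebraMap (𝓞 K) (𝓞 L)).toMonoidHom)).toIntLinearMap

theorem unitsIncl_coe (u : Additive (𝓞 K)ˣ) :
    ((((unitsIncl (L := L) u).toMul : (𝓞 L)ˣ) : 𝓞 L) : L) =
      algebraMap K L ((u.toMul : 𝓞 K) : K) := rfl

theorem unitsIncl_injective : Function.Injective (unitsIncl (K := K) (L := L)) := by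
  intro u v h
  have h1 := congrArg (fun w : Additive (𝓞 L)ˣ => (((w.toMul : (𝓞 L)ˣ) : 𝓞 L) : L)) h
  simp only [unitsIncl_coe] at h1
  have h2 := (algebraMap K L).injective h1
  have h3 : (u.toMul : (𝓞 K)ˣ) = v.toMul := Units.ext (RingOfIntegers.ext h2)
  exact h3

variable [NumberField K] [NumberField L] [IsGalois K L]

theorem range_unitsIncl (σ : L ≃ₐ[K] L) (hσ : ∀ τ : L ≃ₐ[K] L, τ ∈ Subgroup.zpowers σ) :
    LinearMap.range (unitsIncl (K := K) (L := L)) = LinearMap.ker (1 - unitsEnd σ) := by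
  ext u
  rw [LinearMap.mem_ker, LinearMap.sub_apply, Module.End.one_apply, sub_eq_zero]
  constructor
  · rintro ⟨v, rfl⟩
    have : unitsMap σ (unitsIncl (L := L) v).toMul = (unitsIncl (L := L) v).toMul := by
      apply Units.ext
      apply RingOfIntegers.ext
      rw [unitsMap_coe, unitsIncl_coe, AlgEquiv.commutes]
    rw [unitsEnd_apply, this]
    rfl
  · intro hu
    -- `u` is fixed by `σ`, hence by the whole Galois group
    have hfix : σ (((u.toMul : (𝓞 L)ˣ) : 𝓞 L) : L) = (((u.toMul : (𝓞 L)ˣ) : 𝓞 L) : L) := by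
      have := congrArg (fun w : Additive (𝓞 L)ˣ => (((w.toMul : (𝓞 L)ˣ) : 𝓞 L) : L)) hu
      simpa [unitsEnd_apply, unitsMap_coe] using this.symm
    set w : (𝓞 L)ˣ := u.toMul with hw
    have hpowfix : ∀ n : ℤ, (σ ^ n) ((w : 𝓞 L) : L) = ((w : 𝓞 L) : L) := by
      intro n
      have hnat : ∀ k : ℕ, (σ ^ k) ((w : 𝓞 L) : L) = ((w : 𝓞 L) : L) := by
        intro k
        induction k with
        | zero => simp
        | succ k ih => rw [pow_succ, AlgEquiv.mul_apply, hfix, ih]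
      obtain ⟨k, rfl | rfl⟩ := n.eq_nat_or_neg
      · rw [zpow_natCast]; exact hnat k
      · rw [zpow_neg, zpow_natCast]
        have := hnat k
        rw [AlgEquiv.aut_inv]
        exact (AlgEquiv.symm_apply_eq _).mpr this.symm
    have hallfix : ∀ τ : L ≃ₐ[K] L, τ ((w : 𝓞 L) : L) = ((w : 𝓞 L) : L) := by
      intro τ
      obtain ⟨n, rfl⟩ := Subgroup.mem_zpowers_iff.mp (hσ τ)
      exact hpowfix n
    obtain ⟨y, hy⟩ := (IsGalois.mem_range_algebraMap_iff_fixed (F := K) (E := L) _).mpr hallfix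
    -- the inverse is fixed as well
    have hinvfix : ∀ τ : L ≃ₐ[K] L, τ (((w⁻¹ : (𝓞 L)ˣ) : 𝓞 L) : L) = (((w⁻¹ : (𝓞 L)ˣ) : 𝓞 L) : L) := by
      intro τ
      have h1 : ((w : 𝓞 L) : L) * (((w⁻¹ : (𝓞 L)ˣ) : 𝓞 L) : L) = 1 := by
        have : ((w : 𝓞 L) * ((w⁻¹ : (𝓞 L)ˣ) : 𝓞 L) : 𝓞 L) = 1 := by simp
        exact_mod_cast congrArg (fun a : 𝓞 L => (a : L)) this
      have hne : ((w : 𝓞 L) : L) ≠ 0 := left_ne_zero_of_mul_eq_one h1
      have h2 := congrArg τ h1
      rw [map_mul, map_one, hallfix τ] at h2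
      exact mul_left_cancel₀ hne (h2.trans h1.symm)
    obtain ⟨y', hy'⟩ := (IsGalois.mem_range_algebraMap_iff_fixed (F := K) (E := L) _).mpr hinvfix
    have hyint : IsIntegral ℤ y := by
      have : IsIntegral ℤ ((w : 𝓞 L) : L) := RingOfIntegers.isIntegral_coe (w : 𝓞 L)
      rw [← hy] at this
      exact (isIntegral_algebraMap_iff (algebraMap K L).injective).mp this
    have hy'int : IsIntegral ℤ y' := by
      have : IsIntegral ℤ ((((w⁻¹ : (𝓞 L)ˣ) : 𝓞 L)) : L) :=
        RingOfIntegers.isIntegral_coe ((w⁻¹ : (𝓞 L)ˣ) : 𝓞 L)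
      rw [← hy'] at this
      exact (isIntegral_algebraMap_iff (algebraMap K L).injective).mp this
    have hyy' : y * y' = 1 := by
      apply (algebraMap K L).injective
      rw [map_mul, hy, hy', map_one]
      have : ((w : 𝓞 L) * ((w⁻¹ : (𝓞 L)ˣ) : 𝓞 L) : 𝓞 L) = 1 := by simp
      exact_mod_cast congrArg (fun a : 𝓞 L => (a : L)) this
    let v : (𝓞 K)ˣ := ⟨⟨y, hyint⟩, ⟨y', hy'int⟩, RingOfIntegers.ext hyy',
      RingOfIntegers.ext (by rw [mul_comm] at hyy'; exact hyy')⟩
    refine ⟨Additive.ofMul v, ?_⟩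
    have : (unitsIncl (L := L) (Additive.ofMul v)).toMul = w := by
      apply Units.ext
      apply RingOfIntegers.ext
      rw [unitsIncl_coe]
      exact hy
    exact this

/-- **Hilbert's Theorem 92** for cyclic extensions of odd prime degree. -/
theorem hilbert92 {p : ℕ} (hp : p.Prime) (hodd : p ≠ 2)
    {K L : Type*} [Field K] [Field L] [NumberField K] [NumberField L] [Algebra K L]
    [IsGalois K L] (hdeg : Module.finrank K L = p)
    (σ : L ≃ₐ[K] L) (hσ : ∀ τ : L ≃ₐ[K] L, τ ∈ Subgroup.zpowers σ) :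
    ∃ η : (𝓞 L)ˣ, Algebra.norm K ((η : 𝓞 L) : L) = 1 ∧
      ∀ ε : (𝓞 L)ˣ, ((η : 𝓞 L) : L) ≠ ((ε : 𝓞 L) : L) / σ ((ε : 𝓞 L) : L) := by
  classical
  have hcard : Nat.card (L ≃ₐ[K] L) = p := by rw [IsGalois.card_aut_eq_finrank, hdeg]
  have hσp : σ ^ p = 1 := by rw [← hcard]; exact pow_card_eq_one'
  -- the endomorphism
  have hs : unitsEnd σ ^ p = 1 := by
    rw [unitsEnd_pow, hσp]
    apply LinearMap.ext
    intro u
    rw [unitsEnd_apply, unitsMap_one]
    rfl
  -- ranks
  have hr₀ : finrank ℤ (LinearMap.ker (1 - unitsEnd σ)) = Units.rank K := by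
    rw [← range_unitsIncl σ hσ, ← (LinearEquiv.ofInjective _ unitsIncl_injective).finrank_eq,
      Units.finrank_eq]
  have hr : finrank ℤ (Additive (𝓞 L)ˣ) + 1 = p * (Units.rank K + 1) := by
    have hoddp : Odd (Module.finrank K L) := by
      rw [hdeg]; exact hp.odd_of_ne_two hodd
    have := IsUnramifiedAtInfinitePlaces_of_odd_finrank hoddp
    have h1 := IsUnramifiedAtInfinitePlaces.card_infinitePlace K L
    rw [Units.finrank_eq, Units.rank, Units.rank, hdeg] at *
    have h2 : 0 < Fintype.card (InfinitePlace K) := Fintype.card_pos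
    have h3 : 0 < Fintype.card (InfinitePlace L) := Fintype.card_pos
    rw [Nat.sub_add_cancel h3, Nat.sub_add_cancel h2, h1, mul_comm]
  obtain ⟨m, hm0, hmnot⟩ := exists_mem_ker_notMem_range hp hodd (unitsEnd σ) hs _ hr₀ hr
  refine ⟨m.toMul, ?_, ?_⟩
  · -- the norm is one
    have hprodU : ∏ i ∈ Finset.range p, unitsMap (σ ^ i) m.toMul = 1 := by
      rw [LinearMap.sum_apply] at hm0
      have h1 : ∀ i ∈ Finset.range p, (unitsEnd σ ^ i) m =
          Additive.ofMul (unitsMap (σ ^ i) m.toMul) := by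
        intro i _
        rw [unitsEnd_pow, unitsEnd_apply]
      rw [Finset.sum_congr rfl h1, ← ofMul_prod] at hm0
      exact hm0
    have hprodL : ∏ i ∈ Finset.range p, (σ ^ i) (((m.toMul : (𝓞 L)ˣ) : 𝓞 L) : L) = 1 := by
      have h1 := congrArg (fun u : (𝓞 L)ˣ => (algebraMap (𝓞 L) L) (u : 𝓞 L)) hprodU
      simp only [Units.coe_prod, map_prod, Units.val_one, map_one] at h1
      exact h1
    have huniv : (Finset.univ : Finset (L ≃ₐ[K] L)) = (Finset.range p).image (fun i => σ ^ i) := by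
      symm
      apply Finset.eq_univ_of_card
      have hord : orderOf σ = p := by
        rw [orderOf_eq_card_of_forall_mem_zpowers hσ, hcard]
      rw [Finset.card_image_of_injOn, Finset.card_range, ← Nat.card_eq_fintype_card, hcard]
      intro a ha b hb hab
      exact pow_injOn_Iio_orderOf (x := σ) (by rw [Set.mem_Iio, hord]; exact Finset.mem_range.mp ha)
        (by rw [Set.mem_Iio, hord]; exact Finset.mem_range.mp hb) hab
    have hinj : Set.InjOn (fun i : ℕ => σ ^ i) (Finset.range p : Set ℕ) := by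
      have hord : orderOf σ = p := by
        rw [orderOf_eq_card_of_forall_mem_zpowers hσ, hcard]
      intro a ha b hb hab
      exact pow_injOn_Iio_orderOf (x := σ) (by rw [Set.mem_Iio, hord]; exact Finset.mem_range.mp ha)
        (by rw [Set.mem_Iio, hord]; exact Finset.mem_range.mp hb) hab
    apply (algebraMap K L).injective
    rw [Algebra.norm_eq_prod_automorphisms, map_one, huniv, Finset.prod_image hinj]
    exact hprodL
  · -- not of the form `ε / σ ε`
    intro ε hε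
    apply hmnot
    refine ⟨Additive.ofMul ε, ?_⟩
    rw [LinearMap.sub_apply, Module.End.one_apply, unitsEnd_apply]
    have hne : σ ((ε : 𝓞 L) : L) ≠ 0 := by
      rw [Ne, map_eq_zero_iff σ σ.injective]
      intro h0
      have : ((ε : 𝓞 L)) = 0 := RingOfIntegers.ext h0
      exact ε.ne_zero this
    have hmul : m.toMul * unitsMap σ ε = ε := by
      apply Units.ext
      apply RingOfIntegers.ext
      calc (((m.toMul * unitsMap σ ε : (𝓞 L)ˣ) : 𝓞 L) : L)
          = (((m.toMul : (𝓞 L)ˣ) : 𝓞 L) : L) * (((unitsMap σ ε : (𝓞 L)ˣ) : 𝓞 L) : L) := by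
            rw [Units.val_mul]; exact map_mul (algebraMap (𝓞 L) L) _ _
        _ = ((ε : 𝓞 L) : L) := by rw [unitsMap_coe, hε, div_mul_cancel₀ _ hne]
    have : m.toMul = ε / unitsMap σ ε := eq_div_iff_mul_eq'.mpr hmul
    calc Additive.ofMul ε - Additive.ofMul (unitsMap σ (Additive.toMul (Additive.ofMul ε)))
        = Additive.ofMul (ε / unitsMap σ ε) := by rw [ofMul_div]; rfl
      _ = Additive.ofMul m.toMul := by rw [this]
      _ = m := rfl

end H92

end Fermat.Agent.Kummer
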