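import Mathlib
import Fermat.Agent.Kummer.Hilbert92
import Fermat.Agent.Kummer.Hilbert94

set_option autoImplicit false

namespace Fermat.Agent.Kummer

open NumberField

/-- **K7**: a number field whose ring of integers is a PID has no everywhere unramified cyclic
extension of odd prime degree. -/
theorem not_unramified_of_pid {p : ℕ} (hp : p.Prime) (hodd : p ≠ 2)
    {K L : Type} [Field K] [Field L] [NumberField K] [NumberField L] [Algebra K L]
    [IsPrincipalIdealRing (𝓞 K)]
    [IsGalois K L] (hdeg : Module.finrank K L = p)
    (hunr : differentIdeal (𝓞 K) (𝓞 L) = ⊤) : False := by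
  have : Fact p.Prime := ⟨hp⟩
  exact not_unramified_of_pid_of_hilbert92 hp hdeg hunr
    (fun σ hσ => hilbert92 p hodd hdeg σ hσ)

end Fermat.Agent.Kummer
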