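import Fermat.Agent.Kummer.PIDAux

/-!
# `ℤ[ζ₁₃]` is a PID
-/

namespace Fermat.Agent.Kummer

open NumberField Ideal Nat Real Polynomial

set_option maxHeartbeats 1000000 in
theorem prod_conj_13_53 {K : Type*} [Field K] (z : K) (hz : z^13 = 1)
    (h1 : 1 + z^1 + z^2 + z^3 + z^4 + z^5 + z^6 + z^7 + z^8 + z^9 + z^10 + z^11 + z^12 = 0) :
    ((1) * (z^1)^0 + (1) * (z^1)^1 + (1) * (z^1)^3) * ((1) * (z^2)^0 + (1) * (z^2)^1 + (1) * (z^2)^3) * ((1) * (z^3)^0 + (1) * (z^3)^1 + (1) * (z^3)^3) * ((1) * (z^4)^0 + (1) * (z^4)^1 + (1) * (z^4)^3) * ((1) * (z^5)^0 + (1) * (z^5)^1 + (1) * (z^5)^3) * ((1) * (z^6)^0 + (1) * (z^6)^1 + (1) * (z^6)^3) * ((1) * (z^7)^0 + (1) * (z^7)^1 + (1) * (z^7)^3) * ((1) * (z^8)^0 + (1) * (z^8)^1 + (1) * (z^8)^3) * ((1) * (z^9)^0 + (1) * (z^9)^1 + (1) * (z^9)^3) * ((1) * (z^10)^0 + (1) * (z^10)^1 + (1) * (z^10)^3) * ((1)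 * (z^11)^0 + (1) * (z^11)^1 + (1) * (z^11)^3) * ((1) * (z^12)^0 + (1) * (z^12)^1 + (1) * (z^12)^3) = (53) := by
  have s1 : ((1) * (z^1)^0 + (1) * (z^1)^1 + (1) * (z^1)^3) = (1) + (1) * z^1 + (1) * z^3 := by ring
  have s2 : ((1) * (z^1)^0 + (1) * (z^1)^1 + (1) * (z^1)^3) * ((1) * (z^2)^0 + (1) * (z^2)^1 + (1) * (z^2)^3) = (1) + (1) * z^1 + (1) * z^2 + (2) * z^3 + (1) * z^5 + (1) * z^6 + (1) * z^7 + (1) * z^9 := by
    rw [s1]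
    linear_combination (0) * hz
  have s3 : ((1) * (z^1)^0 + (1) * (z^1)^1 + (1) * (z^1)^3) * ((1) * (z^2)^0 + (1) * (z^2)^1 + (1) * (z^2)^3) * ((1) * (z^3)^0 + (1) * (z^3)^1 + (1) * (z^3)^3) = (1) + (2) * z^1 + (2) * z^2 + (4) * z^3 + (1) * z^4 + (3) * z^5 + (3) * z^6 + (1) * z^7 + (1) * z^8 + (3) * z^9 + (2) * z^10 + (1) * z^11 + (3) * z^12 := by
    rw [s2]
    linear_combination ((1) * z^1 + (1) * z^2 + (1) * z^3 + (1) * z^5) * hz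
  have s4 : ((1) * (z^1)^0 + (1) * (z^1)^1 + (1) * (z^1)^3) * ((1) * (z^2)^0 + (1) * (z^2)^1 + (1) * (z^2)^3) * ((1) * (z^3)^0 + (1) * (z^3)^1 + (1) * (z^3)^3) * ((1) * (z^4)^0 + (1) * (z^4)^1 + (1) * (z^4)^3) = (6) + (6) * z^1 + (7) * z^2 + (8) * z^3 + (5) * z^4 + (8) * z^5 + (6) * z^6 + (6) * z^7 + (5) * z^8 + (8) * z^9 + (6) * z^10 + (5) * z^11 + (5) * z^12 := by
    rw [s3]
    linear_combination ((5) + (4) * z^1 + (5) * z^2 + (4) * z^3 + (3) * z^4 + (3) * z^5 + (1) * z^6 + (1) * z^7 + (3) * z^8 + (2) * z^9 + (1) * z^10 + (3) * z^11) * hz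
  have s5 : ((1) * (z^1)^0 + (1) * (z^1)^1 + (1) * (z^1)^3) * ((1) * (z^2)^0 + (1) * (z^2)^1 + (1) * (z^2)^3) * ((1) * (z^3)^0 + (1) * (z^3)^1 + (1) * (z^3)^3) * ((1) * (z^4)^0 + (1) * (z^4)^1 + (1) * (z^4)^3) * ((1) * (z^5)^0 + (1) * (z^5)^1 + (1) * (z^5)^3) = (16) + (19) * z^1 + (19) * z^2 + (19) * z^3 + (17) * z^4 + (22) * z^5 + (17) * z^6 + (21) * z^7 + (19) * z^8 + (19) * z^9 + (19) * z^10 + (19) * z^11 + (17) * z^12 := by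
    rw [s4]
    linear_combination ((10) + (13) * z^1 + (12) * z^2 + (11) * z^3 + (12) * z^4 + (8) * z^5 + (5) * z^6 + (8) * z^7 + (6) * z^8 + (6) * z^9 + (5) * z^10 + (8) * z^11 + (6) * z^12 + (5) * z^13 + (5) * z^14) * hz
  have s6 : ((1) * (z^1)^0 + (1) * (z^1)^1 + (1) * (z^1)^3) * ((1) * (z^2)^0 + (1) * (z^2)^1 + (1) * (z^2)^3) * ((1) * (z^3)^0 + (1) * (z^3)^1 + (1) * (z^3)^3) * ((1) * (z^4)^0 + (1) * (z^4)^1 + (1) * (z^4)^3) * ((1) * (z^5)^0 + (1) * (z^5)^1 + (1) * (z^5)^3) * ((1) * (z^6)^0 + (1) * (z^6)^1 + (1) * (z^6)^3) = (56) + (57) * z^1 + (57) * z^2 + (57) * z^3 + (53) * z^4 + (55) * z^5 + (52) * z^6 + (59) * z^7 + (57) * z^8 + (55) * z^9 + (58) * z^10 + (58) * z^11 + (55) * z^12 := by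
    rw [s5]
    linear_combination ((40) + (38) * z^1 + (38) * z^2 + (38) * z^3 + (36) * z^4 + (33) * z^5 + (19) * z^6 + (19) * z^7 + (19) * z^8 + (17) * z^9 + (22) * z^10 + (17) * z^11 + (21) * z^12 + (19) * z^13 + (19) * z^14 + (19) * z^15 + (19) * z^16 + (17) * z^17) * hz
  have s7 : ((1) * (z^1)^0 + (1) * (z^1)^1 + (1) * (z^1)^3) * ((1) * (z^2)^0 + (1) * (z^2)^1 + (1) * (z^2)^3) * ((1) * (z^3)^0 + (1) * (z^3)^1 + (1) * (z^3)^3) * ((1) * (z^4)^0 + (1) * (z^4)^1 + (1) * (z^4)^3) * ((1) * (z^5)^0 + (1) * (z^5)^1 + (1) * (z^5)^3) * ((1) * (z^6)^0 + (1) * (z^6)^1 + (1) * (z^6)^3) * ((1) * (z^7)^0 + (1) * (z^7)^1 + (1) * (z^7)^3) = (163) + (168) * z^1 + (173) * z^2 + (169) * z^3 + (166) * z^4 + (171) * z^5 + (165) * z^6 + (170) * z^7 + (170) * z^8 + (169) * z^9 + (172) * z^10 + (168) * z^11 + (163) * z^12 := by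
    rw [s6]
    linear_combination ((107) + (111) * z^1 + (116) * z^2 + (112) * z^3 + (113) * z^4 + (116) * z^5 + (113) * z^6 + (55) * z^7 + (56) * z^8 + (57) * z^9 + (57) * z^10 + (57) * z^11 + (53) * z^12 + (55) * z^13 + (52) * z^14 + (59) * z^15 + (57) * z^16 + (55) * z^17 + (58) * z^18 + (58) * z^19 + (55) * z^20) * hz
  have s8 : ((1) * (z^1)^0 + (1) * (z^1)^1 + (1) * (z^1)^3) * ((1) * (z^2)^0 + (1) * (z^2)^1 + (1) * (z^2)^3) * ((1) * (z^3)^0 + (1) * (z^3)^1 + (1) * (z^3)^3) * ((1) * (z^4)^0 + (1) * (z^4)^1 + (1) * (z^4)^3) * ((1) * (z^5)^0 + (1) * (z^5)^1 + (1) * (z^5)^3) * ((1) * (z^6)^0 + (1) * (z^6)^1 + (1) * (z^6)^3) * ((1) * (z^7)^0 + (1) * (z^7)^1 + (1) * (z^7)^3) * ((1) * (z^8)^0 + (1) * (z^8)^1 + (1) * (z^8)^3) = (507) + (502) * z^1 + (509) * z^2 + (510) * z^3 + (500) * z^4 + (513) * z^5 + (503) * z^6 + (502) * z^7 + (505)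 * z^8 + (505) * z^9 + (508) * z^10 + (500) * z^11 + (497) * z^12 := by
    rw [s7]
    linear_combination ((344) + (334) * z^1 + (336) * z^2 + (341) * z^3 + (334) * z^4 + (342) * z^5 + (338) * z^6 + (332) * z^7 + (172) * z^8 + (168) * z^9 + (163) * z^10 + (163) * z^11 + (168) * z^12 + (173) * z^13 + (169) * z^14 + (166) * z^15 + (171) * z^16 + (165) * z^17 + (170) * z^18 + (170) * z^19 + (169) * z^20 + (172) * z^21 + (168) * z^22 + (163) * z^23) * hz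
  have s9 : ((1) * (z^1)^0 + (1) * (z^1)^1 + (1) * (z^1)^3) * ((1) * (z^2)^0 + (1) * (z^2)^1 + (1) * (z^2)^3) * ((1) * (z^3)^0 + (1) * (z^3)^1 + (1) * (z^3)^3) * ((1) * (z^4)^0 + (1) * (z^4)^1 + (1) * (z^4)^3) * ((1) * (z^5)^0 + (1) * (z^5)^1 + (1) * (z^5)^3) * ((1) * (z^6)^0 + (1) * (z^6)^1 + (1) * (z^6)^3) * ((1) * (z^7)^0 + (1) * (z^7)^1 + (1) * (z^7)^3) * ((1) * (z^8)^0 + (1) * (z^8)^1 + (1) * (z^8)^3) * ((1) * (z^9)^0 + (1) * (z^9)^1 + (1) * (z^9)^3) = (1504) + (1522) * z^1 + (1514) * z^2 + (1521) * z^3 + (1515) * z^4 + (1518) * z^5 + (1524) * z^6 + (1505) * z^7 + (1504) * z^8 + (1517) * z^9 + (1515) * z^10 + (1517) * z^11 + (1507) * z^12 := by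
    rw [s8]
    linear_combination ((997) + (1020) * z^1 + (1005) * z^2 + (1011) * z^3 + (1015) * z^4 + (1005) * z^5 + (1021) * z^6 + (1003) * z^7 + (999) * z^8 + (505) * z^9 + (505) * z^10 + (508) * z^11 + (500) * z^12 + (497) * z^13 + (507) * z^14 + (502) * z^15 + (509) * z^16 + (510) * z^17 + (500) * z^18 + (513) * z^19 + (503) * z^20 + (502) * z^21 + (505) * z^22 + (505) * z^23 + (508) * z^24 + (500) * z^25 + (497) * z^26) * hz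
  have s10 : ((1) * (z^1)^0 + (1) * (z^1)^1 + (1) * (z^1)^3) * ((1) * (z^2)^0 + (1) * (z^2)^1 + (1) * (z^2)^3) * ((1) * (z^3)^0 + (1) * (z^3)^1 + (1) * (z^3)^3) * ((1) * (z^4)^0 + (1) * (z^4)^1 + (1) * (z^4)^3) * ((1) * (z^5)^0 + (1) * (z^5)^1 + (1) * (z^5)^3) * ((1) * (z^6)^0 + (1) * (z^6)^1 + (1) * (z^6)^3) * ((1) * (z^7)^0 + (1) * (z^7)^1 + (1) * (z^7)^3) * ((1) * (z^8)^0 + (1) * (z^8)^1 + (1) * (z^8)^3) * ((1) * (z^9)^0 + (1) * (z^9)^1 + (1) * (z^9)^3) * ((1) * (z^10)^0 + (1) * (z^10)^1 + (1) * (z^10)^3) = (4542) + (4552) * z^1 + (4549) * z^2 + (4552) * z^3 + (4524) * z^4 + (4544) * z^5 + (4555) * z^6 + (4541) * z^7 + (4536) * z^8 + (4542) * z^9 + (4543) * z^10 + (4544) * z^11 + (4525) * z^12 := by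
    rw [s9]
    linear_combination ((3038) + (3030) * z^1 + (3035) * z^2 + (3031) * z^3 + (3009) * z^4 + (3026) * z^5 + (3031) * z^6 + (3036) * z^7 + (3032) * z^8 + (3025) * z^9 + (1524) * z^10 + (1505) * z^11 + (1504) * z^12 + (1517) * z^13 + (1515) * z^14 + (1517) * z^15 + (1507) * z^16 + (1504) * z^17 + (1522) * z^18 + (1514) * z^19 + (1521) * z^20 + (1515) * z^21 + (1518) * z^22 + (1524) * z^23 + (1505) * z^24 + (1504) * z^25 + (1517) * z^26 + (1515) * z^27 + (1517) * z^28 + (1507) * z^29) * hz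
  have s11 : ((1) * (z^1)^0 + (1) * (z^1)^1 + (1) * (z^1)^3) * ((1) * (z^2)^0 + (1) * (z^2)^1 + (1) * (z^2)^3) * ((1) * (z^3)^0 + (1) * (z^3)^1 + (1) * (z^3)^3) * ((1) * (z^4)^0 + (1) * (z^4)^1 + (1) * (z^4)^3) * ((1) * (z^5)^0 + (1) * (z^5)^1 + (1) * (z^5)^3) * ((1) * (z^6)^0 + (1) * (z^6)^1 + (1) * (z^6)^3) * ((1) * (z^7)^0 + (1) * (z^7)^1 + (1) * (z^7)^3) * ((1) * (z^8)^0 + (1) * (z^8)^1 + (1) * (z^8)^3) * ((1) * (z^9)^0 + (1) * (z^9)^1 + (1) * (z^9)^3) * ((1) * (z^10)^0 + (1) * (z^10)^1 + (1) * (z^10)^3) * ((1) * (z^11)^0 + (1) * (z^11)^1 + (1) * (z^11)^3) = (13646) + (13645) * z^1 + (13609) * z^2 + (13638) * z^3 + (13622) * z^4 + (13629) * z^5 + (13616) * z^6 + (13625) * z^7 + (13631) * z^8 + (13635) * z^9 + (13620) * z^10 + (13610) * z^11 + (13621) * z^12 := by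
    rw [s10]
    linear_combination ((9104) + (9093) * z^1 + (9060) * z^2 + (9086) * z^3 + (9098) * z^4 + (9085) * z^5 + (9061) * z^6 + (9084) * z^7 + (9095) * z^8 + (9093) * z^9 + (9077) * z^10 + (4524) * z^11 + (4544) * z^12 + (4555) * z^13 + (4541) * z^14 + (4536) * z^15 + (4542) * z^16 + (4543) * z^17 + (4544) * z^18 + (4525) * z^19 + (4542) * z^20 + (4552) * z^21 + (4549) * z^22 + (4552) * z^23 + (4524) * z^24 + (4544) * z^25 + (4555) * z^26 + (4541) * z^27 + (4536) * z^28 + (4542) * z^29 + (4543) * z^30 + (4544) * z^31 + (4525) * z^32) * hz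
  have s12 : ((1) * (z^1)^0 + (1) * (z^1)^1 + (1) * (z^1)^3) * ((1) * (z^2)^0 + (1) * (z^2)^1 + (1) * (z^2)^3) * ((1) * (z^3)^0 + (1) * (z^3)^1 + (1) * (z^3)^3) * ((1) * (z^4)^0 + (1) * (z^4)^1 + (1) * (z^4)^3) * ((1) * (z^5)^0 + (1) * (z^5)^1 + (1) * (z^5)^3) * ((1) * (z^6)^0 + (1) * (z^6)^1 + (1) * (z^6)^3) * ((1) * (z^7)^0 + (1) * (z^7)^1 + (1) * (z^7)^3) * ((1) * (z^8)^0 + (1) * (z^8)^1 + (1) * (z^8)^3) * ((1) * (z^9)^0 + (1) * (z^9)^1 + (1) * (z^9)^3) * ((1) * (z^10)^0 + (1) * (z^10)^1 + (1) * (z^10)^3) * ((1) * (z^11)^0 + (1) * (z^11)^1 + (1) * (z^11)^3) * ((1) * (z^12)^0 + (1) * (z^12)^1 + (1) * (z^12)^3) = (40929) + (40876) * z^1 + (40876) * z^2 + (40876) * z^3 + (40876) * z^4 + (40876) * z^5 + (40876) * z^6 + (40876) * z^7 + (40876) * z^8 + (40876) * z^9 + (40876) * z^10 + (40876) * z^11 + (40876) * z^12 := by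
    rw [s11]
    linear_combination ((27283) + (27231) * z^1 + (27267) * z^2 + (27238) * z^3 + (27254) * z^4 + (27247) * z^5 + (27260) * z^6 + (27251) * z^7 + (27245) * z^8 + (27241) * z^9 + (27256) * z^10 + (27266) * z^11 + (13609) * z^12 + (13638) * z^13 + (13622) * z^14 + (13629) * z^15 + (13616) * z^16 + (13625) * z^17 + (13631) * z^18 + (13635) * z^19 + (13620) * z^20 + (13610) * z^21 + (13621) * z^22 + (13646) * z^23 + (13645) * z^24 + (13609) * z^25 + (13638) * z^26 + (13622) * z^27 + (13629) * z^28 + (13616) * z^29 + (13625) * z^30 + (13631) * z^31 + (13635) * z^32 + (13620) * z^33 + (13610) * z^34 + (13621) * z^35) * hz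
  rw [s12]
  linear_combination (40876) * h1

set_option maxHeartbeats 1000000 in
theorem prod_conj_13_3 {K : Type*} [Field K] (z : K) (hz : z^13 = 1)
    (h1 : 1 + z^1 + z^2 + z^3 + z^4 + z^5 + z^6 + z^7 + z^8 + z^9 + z^10 + z^11 + z^12 = 0) :
    ((1) * (z^1)^0 + (1) * (z^1)^1 + (-1) * (z^1)^3) * ((1) * (z^2)^0 + (1) * (z^2)^1 + (-1) * (z^2)^3) * ((1) * (z^3)^0 + (1) * (z^3)^1 + (-1) * (z^3)^3) * ((1) * (z^4)^0 + (1) * (z^4)^1 + (-1) * (z^4)^3) * ((1) * (z^5)^0 + (1) * (z^5)^1 + (-1) * (z^5)^3) * ((1) * (z^6)^0 + (1) * (z^6)^1 + (-1) * (z^6)^3) * ((1) * (z^7)^0 + (1) * (z^7)^1 + (-1) * (z^7)^3) * ((1) * (z^8)^0 + (1) * (z^8)^1 + (-1) * (z^8)^3) * ((1) * (z^9)^0 + (1) * (z^9)^1 + (-1) * (z^9)^3) * ((1) * (z^10)^0 + (1) * (z^10)^1 + (-1) * (z^10)^3) * ((1) * (z^11)^0 + (1) * (z^11)^1 + (-1) * (z^11)^3) * ((1) * (z^12)^0 + (1) * (z^12)^1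 + (-1) * (z^12)^3) = (27) := by
  have s1 : ((1) * (z^1)^0 + (1) * (z^1)^1 + (-1) * (z^1)^3) = (1) + (1) * z^1 + (-1) * z^3 := by ring
  have s2 : ((1) * (z^1)^0 + (1) * (z^1)^1 + (-1) * (z^1)^3) * ((1) * (z^2)^0 + (1) * (z^2)^1 + (-1) * (z^2)^3) = (1) + (1) * z^1 + (1) * z^2 + (-1) * z^5 + (-1) * z^6 + (-1) * z^7 + (1) * z^9 := by
    rw [s1]
    linear_combination (0) * hz
  have s3 : ((1) * (z^1)^0 + (1) * (z^1)^1 + (-1) * (z^1)^3) * ((1) * (z^2)^0 + (1) * (z^2)^1 + (-1) * (z^2)^3) * ((1) * (z^3)^0 + (1) * (z^3)^1 + (-1) * (z^3)^3) = (1) + (2) * z^1 + (2) * z^2 + (2) * z^3 + (1) * z^4 + (-1) * z^5 + (-1) * z^6 + (-1) * z^7 + (-1) * z^8 + (-1) * z^9 + (-2) * z^10 + (-1) * z^11 + (1) * z^12 := by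
    rw [s2]
    linear_combination ((1) * z^1 + (1) * z^2 + (1) * z^3 + (-1) * z^5) * hz
  have s4 : ((1) * (z^1)^0 + (1) * (z^1)^1 + (-1) * (z^1)^3) * ((1) * (z^2)^0 + (1) * (z^2)^1 + (-1) * (z^2)^3) * ((1) * (z^3)^0 + (1) * (z^3)^1 + (-1) * (z^3)^3) * ((1) * (z^4)^0 + (1) * (z^4)^1 + (-1) * (z^4)^3) = (-2) + (-2) * z^1 + (-1) * z^2 + (2) * z^3 + (3) * z^4 + (2) * z^5 + (2) * z^6 + (2) * z^7 + (1) * z^8 + (-2) * z^10 + (-3) * z^11 + (-1) * z^12 := by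
    rw [s3]
    linear_combination ((-3) + (-4) * z^1 + (-3) * z^2 + (1) * z^4 + (1) * z^5 + (1) * z^6 + (1) * z^7 + (1) * z^8 + (2) * z^9 + (1) * z^10 + (-1) * z^11) * hz
  have s5 : ((1) * (z^1)^0 + (1) * (z^1)^1 + (-1) * (z^1)^3) * ((1) * (z^2)^0 + (1) * (z^2)^1 + (-1) * (z^2)^3) * ((1) * (z^3)^0 + (1) * (z^3)^1 + (-1) * (z^3)^3) * ((1) * (z^4)^0 + (1) * (z^4)^1 + (-1) * (z^4)^3) * ((1) * (z^5)^0 + (1) * (z^5)^1 + (-1) * (z^5)^3) = (2) + (-1) * z^1 + (-1) * z^2 + (1) * z^3 + (3) * z^4 + (-2) * z^5 + (-3) * z^6 + (-1) * z^7 + (1) * z^8 + (1) * z^9 + (-1) * z^10 + (-1) * z^11 + (3) * z^12 := by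
    rw [s4]
    linear_combination ((4) + (1) * z^1 + (-1) * z^3 + (-2) * z^5 + (-3) * z^6 + (-2) * z^7 + (-2) * z^8 + (-2) * z^9 + (-1) * z^10 + (2) * z^12 + (3) * z^13 + (1) * z^14) * hz
  have s6 : ((1) * (z^1)^0 + (1) * (z^1)^1 + (-1) * (z^1)^3) * ((1) * (z^2)^0 + (1) * (z^2)^1 + (-1) * (z^2)^3) * ((1) * (z^3)^0 + (1) * (z^3)^1 + (-1) * (z^3)^3) * ((1) * (z^4)^0 + (1) * (z^4)^1 + (-1) * (z^4)^3) * ((1) * (z^5)^0 + (1) * (z^5)^1 + (-1) * (z^5)^3) * ((1) * (z^6)^0 + (1) * (z^6)^1 + (-1) * (z^6)^3) = (-1) * z^1 + (1) * z^2 + (1) * z^3 + (-1) * z^4 + (-1) * z^5 + (-1) * z^7 + (-1) * z^8 + (-1) * z^9 + (4) * z^10 + (1) * z^12 := by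
    rw [s5]
    linear_combination ((-2) + (2) * z^2 + (-4) * z^4 + (1) * z^5 + (1) * z^6 + (1) * z^7 + (-1) * z^8 + (-3) * z^9 + (2) * z^10 + (3) * z^11 + (1) * z^12 + (-1) * z^13 + (-1) * z^14 + (1) * z^15 + (1) * z^16 + (-3) * z^17) * hz
  have s7 : ((1) * (z^1)^0 + (1) * (z^1)^1 + (-1) * (z^1)^3) * ((1) * (z^2)^0 + (1) * (z^2)^1 + (-1) * (z^2)^3) * ((1) * (z^3)^0 + (1) * (z^3)^1 + (-1) * (z^3)^3) * ((1) * (z^4)^0 + (1) * (z^4)^1 + (-1) * (z^4)^3) * ((1) * (z^5)^0 + (1) * (z^5)^1 + (-1) * (z^5)^3) * ((1) * (z^6)^0 + (1) * (z^6)^1 + (-1) * (z^6)^3) * ((1) * (z^7)^0 + (1) * (z^7)^1 + (-1) * (z^7)^3) = (1) + (-2) * z^1 + (1) * z^2 + (1) * z^3 + (4) * z^4 + (-5) * z^5 + (1) * z^6 + (-2) * z^7 + (-2) * z^8 + (1) * z^9 + (4) * z^10 + (-2) * z^11 + (1) * z^12 := by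
    rw [s6]
    linear_combination ((1) + (-1) * z^1 + (5) * z^4 + (-4) * z^5 + (1) * z^6 + (-1) * z^7 + (1) * z^9 + (-1) * z^10 + (-1) * z^11 + (1) * z^12 + (1) * z^13 + (1) * z^15 + (1) * z^16 + (1) * z^17 + (-4) * z^18 + (-1) * z^20) * hz
  have s8 : ((1) * (z^1)^0 + (1) * (z^1)^1 + (-1) * (z^1)^3) * ((1) * (z^2)^0 + (1) * (z^2)^1 + (-1) * (z^2)^3) * ((1) * (z^3)^0 + (1) * (z^3)^1 + (-1) * (z^3)^3) * ((1) * (z^4)^0 + (1) * (z^4)^1 + (-1) * (z^4)^3) * ((1) * (z^5)^0 + (1) * (z^5)^1 + (-1) * (z^5)^3) * ((1) * (z^6)^0 + (1) * (z^6)^1 + (-1) * (z^6)^3) * ((1) * (z^7)^0 + (1) * (z^7)^1 + (-1) * (z^7)^3) * ((1) * (z^8)^0 + (1) * (z^8)^1 + (-1) * (z^8)^3) = (-5) + (-2) * z^1 + (-5) * z^2 + (4) * z^3 + (4) * z^4 + (1) * z^5 + (1) * z^6 + (-2) * z^7 + (-5) * z^8 + (1) * z^9 + (4) * z^10 + (-2) * z^11 + (7) * z^12 := by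
    rw [s7]
    linear_combination ((-6) + (-6) * z^2 + (3) * z^3 + (6) * z^5 + (-4) * z^8 + (2) * z^9 + (-1) * z^10 + (-1) * z^11 + (2) * z^12 + (-1) * z^13 + (-1) * z^14 + (-4) * z^15 + (5) * z^16 + (-1) * z^17 + (2) * z^18 + (2) * z^19 + (-1) * z^20 + (-4) * z^21 + (2) * z^22 + (-1) * z^23) * hz
  have s9 : ((1) * (z^1)^0 + (1) * (z^1)^1 + (-1) * (z^1)^3) * ((1) * (z^2)^0 + (1) * (z^2)^1 + (-1) * (z^2)^3) * ((1) * (z^3)^0 + (1) * (z^3)^1 + (-1) * (z^3)^3) * ((1) * (z^4)^0 + (1) * (z^4)^1 + (-1) * (z^4)^3) * ((1) * (z^5)^0 + (1) * (z^5)^1 + (-1) * (z^5)^3) * ((1) * (z^6)^0 + (1) * (z^6)^1 + (-1) * (z^6)^3) * ((1) * (z^7)^0 + (1) * (z^7)^1 + (-1) * (z^7)^3) * ((1) * (z^8)^0 + (1) * (z^8)^1 + (-1) * (z^8)^3) * ((1) * (z^9)^0 + (1) * (z^9)^1 + (-1) * (z^9)^3) = (-8) + (4) * z^1 + (-2) * z^2 + (7) * z^3 + (-5) * z^4 + (-2) * z^5 + (4)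 * z^6 + (-5) * z^7 + (4) * z^8 + (1) * z^9 + (1) * z^10 + (-11) * z^11 + (13) * z^12 := by
    rw [s8]
    linear_combination ((-3) + (6) * z^1 + (3) * z^2 + (3) * z^3 + (-9) * z^4 + (-3) * z^5 + (3) * z^6 + (-3) * z^7 + (9) * z^8 + (5) * z^9 + (-1) * z^10 + (-4) * z^11 + (2) * z^12 + (-7) * z^13 + (5) * z^14 + (2) * z^15 + (5) * z^16 + (-4) * z^17 + (-4) * z^18 + (-1) * z^19 + (-1) * z^20 + (2) * z^21 + (5) * z^22 + (-1) * z^23 + (-4) * z^24 + (2) * z^25 + (-7) * z^26) * hz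
  have s10 : ((1) * (z^1)^0 + (1) * (z^1)^1 + (-1) * (z^1)^3) * ((1) * (z^2)^0 + (1) * (z^2)^1 + (-1) * (z^2)^3) * ((1) * (z^3)^0 + (1) * (z^3)^1 + (-1) * (z^3)^3) * ((1) * (z^4)^0 + (1) * (z^4)^1 + (-1) * (z^4)^3) * ((1) * (z^5)^0 + (1) * (z^5)^1 + (-1) * (z^5)^3) * ((1) * (z^6)^0 + (1) * (z^6)^1 + (-1) * (z^6)^3) * ((1) * (z^7)^0 + (1) * (z^7)^1 + (-1) * (z^7)^3) * ((1) * (z^8)^0 + (1) * (z^8)^1 + (-1) * (z^8)^3) * ((1) * (z^9)^0 + (1) * (z^9)^1 + (-1) * (z^9)^3) * ((1) * (z^10)^0 + (1) * (z^10)^1 + (-1) * (z^10)^3) = (-2) + (-2) * z^1 + (7) * z^2 + (-2) * z^3 + (-2) * z^4 + (-2) * z^5 + (7) * z^6 + (-11) * z^7 + (-2) * z^8 + (16) * z^9 + (-11) * z^10 + (-2) * z^11 + (7) * z^12 := by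
    rw [s9]
    linear_combination ((6) + (-6) * z^1 + (9) * z^2 + (-9) * z^3 + (3) * z^4 + (3) * z^6 + (-6) * z^7 + (-6) * z^8 + (15) * z^9 + (-4) * z^10 + (5) * z^11 + (-4) * z^12 + (-1) * z^13 + (-1) * z^14 + (11) * z^15 + (-13) * z^16 + (8) * z^17 + (-4) * z^18 + (2) * z^19 + (-7) * z^20 + (5) * z^21 + (2) * z^22 + (-4) * z^23 + (5) * z^24 + (-4) * z^25 + (-1) * z^26 + (-1) * z^27 + (11) * z^28 + (-13) * z^29) * hz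
  have s11 : ((1) * (z^1)^0 + (1) * (z^1)^1 + (-1) * (z^1)^3) * ((1) * (z^2)^0 + (1) * (z^2)^1 + (-1) * (z^2)^3) * ((1) * (z^3)^0 + (1) * (z^3)^1 + (-1) * (z^3)^3) * ((1) * (z^4)^0 + (1) * (z^4)^1 + (-1) * (z^4)^3) * ((1) * (z^5)^0 + (1) * (z^5)^1 + (-1) * (z^5)^3) * ((1) * (z^6)^0 + (1) * (z^6)^1 + (-1) * (z^6)^3) * ((1) * (z^7)^0 + (1) * (z^7)^1 + (-1) * (z^7)^3) * ((1) * (z^8)^0 + (1) * (z^8)^1 + (-1) * (z^8)^3) * ((1) * (z^9)^0 + (1) * (z^9)^1 + (-1) * (z^9)^3) * ((1) * (z^10)^0 + (1) * (z^10)^1 + (-1) * (z^10)^3) * ((1) * (z^11)^0 + (1) * (z^11)^1 + (-1) * (z^11)^3) = (-2) + (7) * z^1 + (7) * z^2 + (-20) * z^3 + (16) * z^4 + (-11) * z^5 + (-2) * z^6 + (7) * z^7 + (-11) * z^8 + (7) * z^9 + (-2) * z^10 + (-2) * z^11 + (7) * z^12 := by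
    rw [s10]
    linear_combination ((9) * z^1 + (-18) * z^3 + (18) * z^4 + (-9) * z^5 + (-9) * z^6 + (18) * z^7 + (-9) * z^8 + (-9) * z^9 + (9) * z^10 + (2) * z^11 + (2) * z^12 + (-7) * z^13 + (11) * z^14 + (2) * z^15 + (-16) * z^16 + (11) * z^17 + (2) * z^18 + (-7) * z^19 + (2) * z^20 + (2) * z^21 + (-7) * z^22 + (2) * z^23 + (2) * z^24 + (2) * z^25 + (-7) * z^26 + (11) * z^27 + (2) * z^28 + (-16) * z^29 + (11) * z^30 + (2) * z^31 + (-7) * z^32) * hz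
  have s12 : ((1) * (z^1)^0 + (1) * (z^1)^1 + (-1) * (z^1)^3) * ((1) * (z^2)^0 + (1) * (z^2)^1 + (-1) * (z^2)^3) * ((1) * (z^3)^0 + (1) * (z^3)^1 + (-1) * (z^3)^3) * ((1) * (z^4)^0 + (1) * (z^4)^1 + (-1) * (z^4)^3) * ((1) * (z^5)^0 + (1) * (z^5)^1 + (-1) * (z^5)^3) * ((1) * (z^6)^0 + (1) * (z^6)^1 + (-1) * (z^6)^3) * ((1) * (z^7)^0 + (1) * (z^7)^1 + (-1) * (z^7)^3) * ((1) * (z^8)^0 + (1) * (z^8)^1 + (-1) * (z^8)^3) * ((1) * (z^9)^0 + (1) * (z^9)^1 + (-1) * (z^9)^3) * ((1) * (z^10)^0 + (1) * (z^10)^1 + (-1) * (z^10)^3) * ((1) * (z^11)^0 + (1) * (z^11)^1 + (-1) * (z^11)^3) * ((1) * (z^12)^0 + (1) * (z^12)^1 + (-1) * (z^12)^3) = (25) + (-2) * z^1 + (-2) * z^2 + (-2) * z^3 + (-2) * z^4 + (-2) * z^5 + (-2) * z^6 + (-2) * z^7 + (-2) * z^8 + (-2) * z^9 + (-2) * z^10 + (-2) * z^11 + (-2) * z^12 := by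
    rw [s11]
    linear_combination ((27) + (-9) * z^1 + (-9) * z^2 + (18) * z^3 + (-18) * z^4 + (9) * z^5 + (-9) * z^7 + (9) * z^8 + (-9) * z^9 + (-7) * z^12 + (20) * z^13 + (-16) * z^14 + (11) * z^15 + (2) * z^16 + (-7) * z^17 + (11) * z^18 + (-7) * z^19 + (2) * z^20 + (2) * z^21 + (-7) * z^22 + (2) * z^23 + (-7) * z^24 + (-7) * z^25 + (20) * z^26 + (-16) * z^27 + (11) * z^28 + (2) * z^29 + (-7) * z^30 + (11) * z^31 + (-7) * z^32 + (2) * z^33 + (2) * z^34 + (-7) * z^35) * hz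
  rw [s12]
  linear_combination (-2) * h1

set_option maxHeartbeats 1000000 in
theorem prod_conj_13_131 {K : Type*} [Field K] (z : K) (hz : z^13 = 1)
    (h1 : 1 + z^1 + z^2 + z^3 + z^4 + z^5 + z^6 + z^7 + z^8 + z^9 + z^10 + z^11 + z^12 = 0) :
    ((1) * (z^1)^0 + (-1) * (z^1)^1 + (-1) * (z^1)^3) * ((1) * (z^2)^0 + (-1) * (z^2)^1 + (-1) * (z^2)^3) * ((1) * (z^3)^0 + (-1) * (z^3)^1 + (-1) * (z^3)^3) * ((1) * (z^4)^0 + (-1) * (z^4)^1 + (-1) * (z^4)^3) * ((1) * (z^5)^0 + (-1) * (z^5)^1 + (-1) * (z^5)^3) * ((1) * (z^6)^0 + (-1) * (z^6)^1 + (-1) * (z^6)^3) * ((1) * (z^7)^0 + (-1) * (z^7)^1 + (-1) * (z^7)^3) * ((1) * (z^8)^0 + (-1) * (z^8)^1 + (-1) * (z^8)^3) * ((1) * (z^9)^0 + (-1) * (z^9)^1 + (-1) * (z^9)^3) * ((1) * (z^10)^0 + (-1) * (z^10)^1 + (-1) * (z^10)^3) * ((1) * (z^11)^0 + (-1) * (z^11)^1 + (-1) * (z^11)^3) * ((1) * (z^12)^0 + (-1)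 * (z^12)^1 + (-1) * (z^12)^3) = (131) := by
  have s1 : ((1) * (z^1)^0 + (-1) * (z^1)^1 + (-1) * (z^1)^3) = (1) + (-1) * z^1 + (-1) * z^3 := by ring
  have s2 : ((1) * (z^1)^0 + (-1) * (z^1)^1 + (-1) * (z^1)^3) * ((1) * (z^2)^0 + (-1) * (z^2)^1 + (-1) * (z^2)^3) = (1) + (-1) * z^1 + (-1) * z^2 + (1) * z^5 + (-1) * z^6 + (1) * z^7 + (1) * z^9 := by
    rw [s1]
    linear_combination (0) * hz
  have s3 : ((1) * (z^1)^0 + (-1) * (z^1)^1 + (-1) * (z^1)^3) * ((1) * (z^2)^0 + (-1) * (z^2)^1 + (-1) * (z^2)^3) * ((1) * (z^3)^0 + (-1) * (z^3)^1 + (-1) * (z^3)^3) = (1) + (-2) * z^1 + (-2) * z^3 + (1) * z^4 + (1) * z^5 + (-1) * z^6 + (1) * z^7 + (-1) * z^8 + (1) * z^9 + (1) * z^11 + (-1) * z^12 := by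
    rw [s2]
    linear_combination ((-1) * z^1 + (1) * z^2 + (-1) * z^3 + (-1) * z^5) * hz
  have s4 : ((1) * (z^1)^0 + (-1) * (z^1)^1 + (-1) * (z^1)^3) * ((1) * (z^2)^0 + (-1) * (z^2)^1 + (-1) * (z^2)^3) * ((1) * (z^3)^0 + (-1) * (z^3)^1 + (-1) * (z^3)^3) * ((1) * (z^4)^0 + (-1) * (z^4)^1 + (-1) * (z^4)^3) = (2) + (-2) * z^1 + (1) * z^2 + (-2) * z^3 + (-1) * z^4 + (4) * z^5 + (-2) * z^6 + (4) * z^7 + (-3) * z^8 + (1) * z^11 + (-1) * z^12 := by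
    rw [s3]
    linear_combination ((1) + (1) * z^2 + (-1) * z^4 + (1) * z^5 + (-1) * z^6 + (1) * z^7 + (-1) * z^8 + (-1) * z^10 + (1) * z^11) * hz
  have s5 : ((1) * (z^1)^0 + (-1) * (z^1)^1 + (-1) * (z^1)^3) * ((1) * (z^2)^0 + (-1) * (z^2)^1 + (-1) * (z^2)^3) * ((1) * (z^3)^0 + (-1) * (z^3)^1 + (-1) * (z^3)^3) * ((1) * (z^4)^0 + (-1) * (z^4)^1 + (-1) * (z^4)^3) * ((1) * (z^5)^0 + (-1) * (z^5)^1 + (-1) * (z^5)^3) = (4) + (-1) * z^1 + (-1) * z^2 + (-1) * z^3 + (-1) * z^4 + (4) * z^5 + (1) * z^6 + (-1) * z^7 + (1) * z^8 + (-3) * z^9 + (-1) * z^10 + (3) * z^11 + (-5) * z^12 := by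
    rw [s4]
    linear_combination ((2) + (1) * z^1 + (-2) * z^2 + (1) * z^3 + (2) * z^5 + (1) * z^6 + (-4) * z^7 + (2) * z^8 + (-4) * z^9 + (3) * z^10 + (-1) * z^13 + (1) * z^14) * hz
  have s6 : ((1) * (z^1)^0 + (-1) * (z^1)^1 + (-1) * (z^1)^3) * ((1) * (z^2)^0 + (-1) * (z^2)^1 + (-1) * (z^2)^3) * ((1) * (z^3)^0 + (-1) * (z^3)^1 + (-1) * (z^3)^3) * ((1) * (z^4)^0 + (-1) * (z^4)^1 + (-1) * (z^4)^3) * ((1) * (z^5)^0 + (-1) * (z^5)^1 + (-1) * (z^5)^3) * ((1) * (z^6)^0 + (-1) * (z^6)^1 + (-1) * (z^6)^3) = (4) + (1) * z^1 + (3) * z^2 + (-3) * z^3 + (1) * z^4 + (5) * z^5 + (-2) * z^6 + (1) * z^7 + (3) * z^8 + (-1) * z^9 + (-4) * z^10 + (-2) * z^11 + (-5) * z^12 := by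
    rw [s5]
    linear_combination ((2) * z^1 + (4) * z^2 + (-2) * z^3 + (2) * z^4 + (1) * z^5 + (1) * z^6 + (1) * z^7 + (1) * z^8 + (1) * z^9 + (-4) * z^10 + (-1) * z^11 + (1) * z^12 + (-1) * z^13 + (3) * z^14 + (1) * z^15 + (-3) * z^16 + (5) * z^17) * hz
  have s7 : ((1) * (z^1)^0 + (-1) * (z^1)^1 + (-1) * (z^1)^3) * ((1) * (z^2)^0 + (-1) * (z^2)^1 + (-1) * (z^2)^3) * ((1) * (z^3)^0 + (-1) * (z^3)^1 + (-1) * (z^3)^3) * ((1) * (z^4)^0 + (-1) * (z^4)^1 + (-1) * (z^4)^3) * ((1) * (z^5)^0 + (-1) * (z^5)^1 + (-1) * (z^5)^3) * ((1) * (z^6)^0 + (-1) * (z^6)^1 + (-1) * (z^6)^3) * ((1) * (z^7)^0 + (-1) * (z^7)^1 + (-1) * (z^7)^3) = (1) + (2) * z^1 + (-1) * z^2 + (-5) * z^3 + (6) * z^4 + (11) * z^5 + (5) * z^6 + (2) * z^7 + (-2) * z^8 + (-5) * z^9 + (-4) * z^10 + (-11) * z^12 := by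
    rw [s6]
    linear_combination ((-3) + (1) * z^1 + (-4) * z^2 + (-2) * z^3 + (5) * z^4 + (6) * z^5 + (7) * z^6 + (5) * z^7 + (-4) * z^8 + (-1) * z^9 + (-3) * z^10 + (3) * z^11 + (-1) * z^12 + (-5) * z^13 + (2) * z^14 + (-1) * z^15 + (-3) * z^16 + (1) * z^17 + (4) * z^18 + (2) * z^19 + (5) * z^20) * hz
  have s8 : ((1) * (z^1)^0 + (-1) * (z^1)^1 + (-1) * (z^1)^3) * ((1) * (z^2)^0 + (-1) * (z^2)^1 + (-1) * (z^2)^3) * ((1) * (z^3)^0 + (-1) * (z^3)^1 + (-1) * (z^3)^3) * ((1) * (z^4)^0 + (-1) * (z^4)^1 + (-1) * (z^4)^3) * ((1) * (z^5)^0 + (-1) * (z^5)^1 + (-1) * (z^5)^3) * ((1) * (z^6)^0 + (-1) * (z^6)^1 + (-1) * (z^6)^3) * ((1) * (z^7)^0 + (-1) * (z^7)^1 + (-1) * (z^7)^3) * ((1) * (z^8)^0 + (-1) * (z^8)^1 + (-1) * (z^8)^3) = (-9) + (2) * z^1 + (-9) * z^2 + (-14) * z^3 + (6) * z^4 + (13) * z^5 + (7) * z^6 + (18) * z^7 + (1) * z^8 + (-7)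 * z^9 + (8) * z^10 + (4) * z^11 + (-19) * z^12 := by
    rw [s7]
    linear_combination ((-10) + (-8) * z^2 + (-9) * z^3 + (2) * z^5 + (2) * z^6 + (16) * z^7 + (4) * z^8 + (11) * z^10 + (-1) * z^11 + (-2) * z^12 + (1) * z^13 + (5) * z^14 + (-6) * z^15 + (-11) * z^16 + (-5) * z^17 + (-2) * z^18 + (2) * z^19 + (5) * z^20 + (4) * z^21 + (11) * z^23) * hz
  have s9 : ((1) * (z^1)^0 + (-1) * (z^1)^1 + (-1) * (z^1)^3) * ((1) * (z^2)^0 + (-1) * (z^2)^1 + (-1) * (z^2)^3) * ((1) * (z^3)^0 + (-1) * (z^3)^1 + (-1) * (z^3)^3) * ((1) * (z^4)^0 + (-1) * (z^4)^1 + (-1) * (z^4)^3) * ((1) * (z^5)^0 + (-1) * (z^5)^1 + (-1) * (z^5)^3) * ((1) * (z^6)^0 + (-1) * (z^6)^1 + (-1) * (z^6)^3) * ((1) * (z^7)^0 + (-1) * (z^7)^1 + (-1) * (z^7)^3) * ((1) * (z^8)^0 + (-1) * (z^8)^1 + (-1) * (z^8)^3) * ((1) * (z^9)^0 + (-1) * (z^9)^1 + (-1) * (z^9)^3) = (4) + (-2)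 * z^1 + (-18) * z^2 + (-23) * z^3 + (19) * z^4 + (14) * z^5 + (-14) * z^6 + (7) * z^7 + (2) * z^8 + (1) * z^9 + (13) * z^10 + (5) * z^11 + (-9) * z^12 := by
    rw [s8]
    linear_combination ((13) + (-4) * z^1 + (-9) * z^2 + (-9) * z^3 + (13) * z^4 + (1) * z^5 + (-21) * z^6 + (-11) * z^7 + (1) * z^8 + (-1) * z^9 + (7) * z^10 + (-8) * z^11 + (-4) * z^12 + (19) * z^13 + (9) * z^14 + (-2) * z^15 + (9) * z^16 + (14) * z^17 + (-6) * z^18 + (-13) * z^19 + (-7) * z^20 + (-18) * z^21 + (-1) * z^22 + (7) * z^23 + (-8) * z^24 + (-4) * z^25 + (19) * z^26) * hz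
  have s10 : ((1) * (z^1)^0 + (-1) * (z^1)^1 + (-1) * (z^1)^3) * ((1) * (z^2)^0 + (-1) * (z^2)^1 + (-1) * (z^2)^3) * ((1) * (z^3)^0 + (-1) * (z^3)^1 + (-1) * (z^3)^3) * ((1) * (z^4)^0 + (-1) * (z^4)^1 + (-1) * (z^4)^3) * ((1) * (z^5)^0 + (-1) * (z^5)^1 + (-1) * (z^5)^3) * ((1) * (z^6)^0 + (-1) * (z^6)^1 + (-1) * (z^6)^3) * ((1) * (z^7)^0 + (-1) * (z^7)^1 + (-1) * (z^7)^3) * ((1) * (z^8)^0 + (-1) * (z^8)^1 + (-1) * (z^8)^3) * ((1) * (z^9)^0 + (-1) * (z^9)^1 + (-1) * (z^9)^3) * ((1) * (z^10)^0 + (-1) * (z^10)^1 + (-1) * (z^10)^3) = (26) + (-34) * z^1 + (-37) * z^2 + (8) * z^4 + (14) * z^5 + (3) * z^6 + (17) * z^7 + (-22) * z^8 + (-4) * z^9 + (23) * z^10 + (7) * z^12 := by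
    rw [s9]
    linear_combination ((22) + (-32) * z^1 + (-19) * z^2 + (23) * z^3 + (-11) * z^4 + (17) * z^6 + (10) * z^7 + (-24) * z^8 + (-5) * z^9 + (14) * z^10 + (-7) * z^11 + (-2) * z^12 + (-1) * z^13 + (-13) * z^14 + (-5) * z^15 + (9) * z^16 + (-4) * z^17 + (2) * z^18 + (18) * z^19 + (23) * z^20 + (-19) * z^21 + (-14) * z^22 + (14) * z^23 + (-7) * z^24 + (-2) * z^25 + (-1) * z^26 + (-13) * z^27 + (-5) * z^28 + (9) * z^29) * hz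
  have s11 : ((1) * (z^1)^0 + (-1) * (z^1)^1 + (-1) * (z^1)^3) * ((1) * (z^2)^0 + (-1) * (z^2)^1 + (-1) * (z^2)^3) * ((1) * (z^3)^0 + (-1) * (z^3)^1 + (-1) * (z^3)^3) * ((1) * (z^4)^0 + (-1) * (z^4)^1 + (-1) * (z^4)^3) * ((1) * (z^5)^0 + (-1) * (z^5)^1 + (-1) * (z^5)^3) * ((1) * (z^6)^0 + (-1) * (z^6)^1 + (-1) * (z^6)^3) * ((1) * (z^7)^0 + (-1) * (z^7)^1 + (-1) * (z^7)^3) * ((1) * (z^8)^0 + (-1) * (z^8)^1 + (-1) * (z^8)^3) * ((1) * (z^9)^0 + (-1) * (z^9)^1 + (-1) * (z^9)^3) * ((1) * (z^10)^0 + (-1) * (z^10)^1 + (-1) * (z^10)^3) * ((1) * (z^11)^0 + (-1) * (z^11)^1 + (-1) * (z^11)^3) = (60) + (-51) * z^1 + (-23) * z^2 + (-10) * z^3 + (-18) * z^4 + (-3) * z^5 + (18) * z^6 + (-5) * z^7 + (-11) * z^8 + (33) * z^9 + (16) * z^10 + (-34) * z^11 + (27) * z^12 := by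
    rw [s10]
    linear_combination ((34) + (-17) * z^1 + (14) * z^2 + (-10) * z^3 + (-26) * z^4 + (-17) * z^5 + (15) * z^6 + (-22) * z^7 + (11) * z^8 + (37) * z^9 + (-7) * z^10 + (-8) * z^11 + (-14) * z^12 + (-3) * z^13 + (-17) * z^14 + (22) * z^15 + (4) * z^16 + (-23) * z^17 + (-7) * z^19 + (-26) * z^20 + (34) * z^21 + (37) * z^22 + (-8) * z^24 + (-14) * z^25 + (-3) * z^26 + (-17) * z^27 + (22) * z^28 + (4) * z^29 + (-23) * z^30 + (-7) * z^32) * hz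
  have s12 : ((1) * (z^1)^0 + (-1) * (z^1)^1 + (-1) * (z^1)^3) * ((1) * (z^2)^0 + (-1) * (z^2)^1 + (-1) * (z^2)^3) * ((1) * (z^3)^0 + (-1) * (z^3)^1 + (-1) * (z^3)^3) * ((1) * (z^4)^0 + (-1) * (z^4)^1 + (-1) * (z^4)^3) * ((1) * (z^5)^0 + (-1) * (z^5)^1 + (-1) * (z^5)^3) * ((1) * (z^6)^0 + (-1) * (z^6)^1 + (-1) * (z^6)^3) * ((1) * (z^7)^0 + (-1) * (z^7)^1 + (-1) * (z^7)^3) * ((1) * (z^8)^0 + (-1) * (z^8)^1 + (-1) * (z^8)^3) * ((1) * (z^9)^0 + (-1) * (z^9)^1 + (-1) * (z^9)^3) * ((1) * (z^10)^0 + (-1) * (z^10)^1 + (-1) * (z^10)^3) * ((1) * (z^11)^0 + (-1) * (z^11)^1 + (-1) * (z^11)^3) * ((1) * (z^12)^0 + (-1) * (z^12)^1 + (-1) * (z^12)^3) = (121) + (-10) * z^1 + (-10) * z^2 + (-10) * z^3 + (-10) * z^4 + (-10) * z^5 + (-10) * z^6 + (-10) * z^7 + (-10) * z^8 + (-10) * z^9 + (-10) * z^10 + (-10) * z^11 + (-10) * z^12 := by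
    rw [s11]
    linear_combination ((61) + (41) * z^1 + (13) * z^2 + (8) * z^4 + (-7) * z^5 + (-28) * z^6 + (-5) * z^7 + (1) * z^8 + (-43) * z^9 + (-26) * z^10 + (24) * z^11 + (23) * z^12 + (10) * z^13 + (18) * z^14 + (3) * z^15 + (-18) * z^16 + (5) * z^17 + (11) * z^18 + (-33) * z^19 + (-16) * z^20 + (34) * z^21 + (-27) * z^22 + (-60) * z^23 + (51) * z^24 + (23) * z^25 + (10) * z^26 + (18) * z^27 + (3) * z^28 + (-18) * z^29 + (5) * z^30 + (11) * z^31 + (-33) * z^32 + (-16) * z^33 + (34) * z^34 + (-27) * z^35) * hz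
  rw [s12]
  linear_combination (-10) * h1

set_option maxHeartbeats 1000000 in
theorem prod_conj_13_79 {K : Type*} [Field K] (z : K) (hz : z^13 = 1)
    (h1 : 1 + z^1 + z^2 + z^3 + z^4 + z^5 + z^6 + z^7 + z^8 + z^9 + z^10 + z^11 + z^12 = 0) :
    ((1) * (z^1)^0 + (1) * (z^1)^1 + (-1) * (z^1)^4) * ((1) * (z^2)^0 + (1) * (z^2)^1 + (-1) * (z^2)^4) * ((1) * (z^3)^0 + (1) * (z^3)^1 + (-1) * (z^3)^4) * ((1) * (z^4)^0 + (1) * (z^4)^1 + (-1) * (z^4)^4) * ((1) * (z^5)^0 + (1) * (z^5)^1 + (-1) * (z^5)^4) * ((1) * (z^6)^0 + (1) * (z^6)^1 + (-1) * (z^6)^4) * ((1) * (z^7)^0 + (1) * (z^7)^1 + (-1) * (z^7)^4) * ((1) * (z^8)^0 + (1) * (z^8)^1 + (-1) * (z^8)^4) * ((1) * (z^9)^0 + (1) * (z^9)^1 + (-1) * (z^9)^4) * ((1) * (z^10)^0 + (1) * (z^10)^1 + (-1) * (z^10)^4) * ((1) * (z^11)^0 + (1) * (z^11)^1 + (-1) * (z^11)^4) * ((1) * (z^12)^0 + (1) * (z^12)^1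 + (-1) * (z^12)^4) = (79) := by
  have s1 : ((1) * (z^1)^0 + (1) * (z^1)^1 + (-1) * (z^1)^4) = (1) + (1) * z^1 + (-1) * z^4 := by ring
  have s2 : ((1) * (z^1)^0 + (1) * (z^1)^1 + (-1) * (z^1)^4) * ((1) * (z^2)^0 + (1) * (z^2)^1 + (-1) * (z^2)^4) = (1) + (1) * z^1 + (1) * z^2 + (1) * z^3 + (-1) * z^4 + (-1) * z^6 + (-1) * z^8 + (-1) * z^9 + (1) * z^12 := by
    rw [s1]
    linear_combination (0) * hz
  have s3 : ((1) * (z^1)^0 + (1) * (z^1)^1 + (-1) * (z^1)^4) * ((1) * (z^2)^0 + (1) * (z^2)^1 + (-1) * (z^2)^4) * ((1) * (z^3)^0 + (1) * (z^3)^1 + (-1) * (z^3)^4) = (1) * z^2 + (3) * z^3 + (2) * z^5 + (-2) * z^9 + (-2) * z^11 + (-1) * z^12 := by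
    rw [s2]
    linear_combination ((-1) + (-1) * z^1 + (1) * z^3 + (1) * z^5 + (1) * z^7 + (1) * z^8 + (-1) * z^11) * hz
  have s4 : ((1) * (z^1)^0 + (1) * (z^1)^1 + (-1) * (z^1)^4) * ((1) * (z^2)^0 + (1) * (z^2)^1 + (-1) * (z^2)^4) * ((1) * (z^3)^0 + (1) * (z^3)^1 + (-1) * (z^3)^4) * ((1) * (z^4)^0 + (1) * (z^4)^1 + (-1) * (z^4)^4) = (-2) + (2) * z^1 + (2) * z^3 + (1) * z^5 + (-2) * z^6 + (3) * z^7 + (-2) * z^8 + (-2) * z^11 + (1) * z^12 := by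
    rw [s3]
    linear_combination ((-2) + (2) * z^1 + (-1) * z^2 + (-1) * z^3 + (-1) * z^5 + (-3) * z^6 + (-2) * z^8 + (2) * z^12 + (2) * z^14 + (1) * z^15) * hz
  have s5 : ((1) * (z^1)^0 + (1) * (z^1)^1 + (-1) * (z^1)^4) * ((1) * (z^2)^0 + (1) * (z^2)^1 + (-1) * (z^2)^4) * ((1) * (z^3)^0 + (1) * (z^3)^1 + (-1) * (z^3)^4) * ((1) * (z^4)^0 + (1) * (z^4)^1 + (-1) * (z^4)^4) * ((1) * (z^5)^0 + (1) * (z^5)^1 + (-1) * (z^5)^4) = (-2) + (-1) * z^1 + (2) * z^2 + (1) * z^4 + (1) * z^5 + (-1) * z^6 + (5) * z^7 + (-2) * z^8 + (-1) * z^10 + (-4) * z^11 + (3) * z^12 := by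
    rw [s4]
    linear_combination ((-3) * z^1 + (2) * z^2 + (-2) * z^3 + (1) * z^4 + (2) * z^5 + (-1) * z^6 + (2) * z^7 + (-2) * z^8 + (-2) * z^10 + (-1) * z^12 + (2) * z^13 + (-3) * z^14 + (2) * z^15 + (2) * z^18 + (-1) * z^19) * hz
  have s6 : ((1) * (z^1)^0 + (1) * (z^1)^1 + (-1) * (z^1)^4) * ((1) * (z^2)^0 + (1) * (z^2)^1 + (-1) * (z^2)^4) * ((1) * (z^3)^0 + (1) * (z^3)^1 + (-1) * (z^3)^4) * ((1) * (z^4)^0 + (1) * (z^4)^1 + (-1) * (z^4)^4) * ((1) * (z^5)^0 + (1) * (z^5)^1 + (-1) * (z^5)^4) * ((1) * (z^6)^0 + (1) * (z^6)^1 + (-1) * (z^6)^4) = (1) + (-3) * z^1 + (1) * z^2 + (-2) * z^3 + (-2) * z^4 + (-1) * z^5 + (-1) * z^6 + (4) * z^7 + (1) * z^8 + (4) * z^9 + (-3) * z^10 + (-1) * z^11 + (3) * z^12 := by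
    rw [s5]
    linear_combination ((3) + (-2) * z^1 + (-1) * z^2 + (-2) * z^3 + (-3) * z^4 + (-2) * z^5 + (2) * z^6 + (1) * z^8 + (4) * z^9 + (-3) * z^10 + (2) * z^11 + (1) * z^12 + (-2) * z^13 + (-1) * z^15 + (-1) * z^16 + (1) * z^17 + (-5) * z^18 + (2) * z^19 + (1) * z^21 + (4) * z^22 + (-3) * z^23) * hz
  have s7 : ((1) * (z^1)^0 + (1) * (z^1)^1 + (-1) * (z^1)^4) * ((1) * (z^2)^0 + (1) * (z^2)^1 + (-1) * (z^2)^4) * ((1) * (z^3)^0 + (1) * (z^3)^1 + (-1) * (z^3)^4) * ((1) * (z^4)^0 + (1) * (z^4)^1 + (-1) * (z^4)^4) * ((1) * (z^5)^0 + (1) * (z^5)^1 + (-1) * (z^5)^4) * ((1) * (z^6)^0 + (1) * (z^6)^1 + (-1) * (z^6)^4) * ((1) * (z^7)^0 + (1) * (z^7)^1 + (-1) * (z^7)^4) = (1) + (-2) * z^1 + (1) * z^2 + (5) * z^3 + (-6) * z^4 + (4) * z^6 + (6) * z^7 + (-1) * z^8 + (1) * z^9 + (-6) * z^10 + (-7) * z^11 + (5) * z^12 := by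
    rw [s6]
    linear_combination ((1) * z^1 + (7) * z^3 + (-4) * z^4 + (1) * z^5 + (5) * z^6 + (1) * z^7 + (1) * z^8 + (-4) * z^9 + (-1) * z^10 + (-4) * z^11 + (3) * z^12 + (1) * z^13 + (-3) * z^14 + (-1) * z^15 + (3) * z^16 + (-1) * z^17 + (2) * z^18 + (2) * z^19 + (1) * z^20 + (1) * z^21 + (-4) * z^22 + (-1) * z^23 + (-4) * z^24 + (3) * z^25 + (1) * z^26 + (-3) * z^27) * hz
  have s8 : ((1) * (z^1)^0 + (1) * (z^1)^1 + (-1) * (z^1)^4) * ((1) * (z^2)^0 + (1) * (z^2)^1 + (-1) * (z^2)^4) * ((1) * (z^3)^0 + (1) * (z^3)^1 + (-1) * (z^3)^4) * ((1) * (z^4)^0 + (1) * (z^4)^1 + (-1) * (z^4)^4) * ((1) * (z^5)^0 + (1) * (z^5)^1 + (-1) * (z^5)^4) * ((1) * (z^6)^0 + (1) * (z^6)^1 + (-1) * (z^6)^4) * ((1) * (z^7)^0 + (1) * (z^7)^1 + (-1) * (z^7)^4) * ((1) * (z^8)^0 + (1) * (z^8)^1 + (-1) * (z^8)^4) = (-5) + (3) * z^1 + (6) * z^2 + (10) * z^3 +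 (2) * z^4 + (-11) * z^5 + (-4) * z^6 + (13) * z^7 + (-1) * z^8 + (-6) * z^9 + (1) * z^10 + (-2) * z^11 + (-5) * z^12 := by
    rw [s7]
    linear_combination ((-6) + (5) * z^1 + (5) * z^2 + (5) * z^3 + (8) * z^4 + (-11) * z^5 + (-8) * z^6 + (7) * z^7 + (-1) * z^8 + (-5) * z^9 + (6) * z^10 + (-4) * z^12 + (-6) * z^13 + (1) * z^14 + (-1) * z^15 + (6) * z^16 + (7) * z^17 + (-5) * z^18 + (-1) * z^19 + (2) * z^20 + (-1) * z^21 + (-5) * z^22 + (6) * z^23 + (-4) * z^25 + (-6) * z^26 + (1) * z^27 + (-1) * z^28 + (6) * z^29 + (7) * z^30 + (-5) * z^31) * hz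
  have s9 : ((1) * (z^1)^0 + (1) * (z^1)^1 + (-1) * (z^1)^4) * ((1) * (z^2)^0 + (1) * (z^2)^1 + (-1) * (z^2)^4) * ((1) * (z^3)^0 + (1) * (z^3)^1 + (-1) * (z^3)^4) * ((1) * (z^4)^0 + (1) * (z^4)^1 + (-1) * (z^4)^4) * ((1) * (z^5)^0 + (1) * (z^5)^1 + (-1) * (z^5)^4) * ((1) * (z^6)^0 + (1) * (z^6)^1 + (-1) * (z^6)^4) * ((1) * (z^7)^0 + (1) * (z^7)^1 + (-1) * (z^7)^4) * ((1) * (z^8)^0 + (1) * (z^8)^1 + (-1) * (z^8)^4) * ((1) * (z^9)^0 + (1) * (z^9)^1 + (-1) * (z^9)^4) = (-13) + (-10) * z^1 + (13) * z^2 + (27) * z^3 + (-12) * z^4 + (-16) * z^5 + (3) * z^6 + (10) * z^7 + (-4) * z^8 + (-6) * z^9 + (9) * z^10 + (1) * z^11 + (-1) * z^12 := by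
    rw [s8]
    linear_combination ((-8) + (-13) * z^1 + (7) * z^2 + (17) * z^3 + (-14) * z^4 + (-5) * z^5 + (7) * z^6 + (-3) * z^7 + (-3) * z^8 + (5) * z^9 + (5) * z^10 + (-3) * z^11 + (-6) * z^12 + (-10) * z^13 + (-2) * z^14 + (11) * z^15 + (4) * z^16 + (-13) * z^17 + (1) * z^18 + (6) * z^19 + (-1) * z^20 + (2) * z^21 + (5) * z^22 + (5) * z^23 + (-3) * z^24 + (-6) * z^25 + (-10) * z^26 + (-2) * z^27 + (11) * z^28 + (4) * z^29 + (-13) * z^30 + (1) * z^31 + (6) * z^32 + (-1) * z^33 + (2) * z^34 + (5) * z^35) * hz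
  have s10 : ((1) * (z^1)^0 + (1) * (z^1)^1 + (-1) * (z^1)^4) * ((1) * (z^2)^0 + (1) * (z^2)^1 + (-1) * (z^2)^4) * ((1) * (z^3)^0 + (1) * (z^3)^1 + (-1) * (z^3)^4) * ((1) * (z^4)^0 + (1) * (z^4)^1 + (-1) * (z^4)^4) * ((1) * (z^5)^0 + (1) * (z^5)^1 + (-1) * (z^5)^4) * ((1) * (z^6)^0 + (1) * (z^6)^1 + (-1) * (z^6)^4) * ((1) * (z^7)^0 + (1) * (z^7)^1 + (-1) * (z^7)^4) * ((1) * (z^8)^0 + (1) * (z^8)^1 + (-1) * (z^8)^4) * ((1) * (z^9)^0 + (1) * (z^9)^1 + (-1) * (z^9)^4) * ((1) * (z^10)^0 + (1) * (z^10)^1 + (-1) * (z^10)^4) = (15) + (-9) * z^1 + (7) * z^2 + (17) * z^3 + (-29) * z^4 + (-8) * z^5 + (13) * z^6 + (16) * z^7 + (-13) * z^8 + (-3) * z^9 + (2) * z^10 + (-18) * z^11 + (11) * z^12 := by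
    rw [s9]
    linear_combination ((28) + (1) * z^1 + (-6) * z^2 + (-10) * z^3 + (-17) * z^4 + (8) * z^5 + (10) * z^6 + (6) * z^7 + (-9) * z^8 + (3) * z^9 + (6) * z^10 + (-9) * z^11 + (-1) * z^12 + (1) * z^13 + (13) * z^14 + (10) * z^15 + (-13) * z^16 + (-27) * z^17 + (12) * z^18 + (16) * z^19 + (-3) * z^20 + (-10) * z^21 + (4) * z^22 + (6) * z^23 + (-9) * z^24 + (-1) * z^25 + (1) * z^26 + (13) * z^27 + (10) * z^28 + (-13) * z^29 + (-27) * z^30 + (12) * z^31 + (16) * z^32 + (-3) * z^33 + (-10) * z^34 + (4) * z^35 + (6) * z^36 + (-9) * z^37 + (-1) * z^38 + (1) * z^39) * hz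
  have s11 : ((1) * (z^1)^0 + (1) * (z^1)^1 + (-1) * (z^1)^4) * ((1) * (z^2)^0 + (1) * (z^2)^1 + (-1) * (z^2)^4) * ((1) * (z^3)^0 + (1) * (z^3)^1 + (-1) * (z^3)^4) * ((1) * (z^4)^0 + (1) * (z^4)^1 + (-1) * (z^4)^4) * ((1) * (z^5)^0 + (1) * (z^5)^1 + (-1) * (z^5)^4) * ((1) * (z^6)^0 + (1) * (z^6)^1 + (-1) * (z^6)^4) * ((1) * (z^7)^0 + (1) * (z^7)^1 + (-1) * (z^7)^4) * ((1) * (z^8)^0 + (1) * (z^8)^1 + (-1) * (z^8)^4) * ((1) * (z^9)^0 + (1) * (z^9)^1 + (-1) * (z^9)^4) * ((1) * (z^10)^0 + (1) * (z^10)^1 + (-1) * (z^10)^4) * ((1) * (z^11)^0 + (1) * (z^11)^1 + (-1) * (z^11)^4) = (35) + (11) * z^1 + (-24) * z^2 + (27) * z^3 + (-27) * z^4 + (-7) * z^5 + (9) * z^6 + (6) * z^7 + (-28) * z^8 + (8) * z^9 + (21) * z^10 + (-16) * z^11 + (-14) * z^12 := by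
    rw [s10]
    linear_combination ((20) + (20) * z^1 + (-31) * z^2 + (10) * z^3 + (2) * z^4 + (1) * z^5 + (-4) * z^6 + (-10) * z^7 + (-15) * z^8 + (11) * z^9 + (19) * z^10 + (-13) * z^11 + (-16) * z^12 + (13) * z^13 + (3) * z^14 + (-2) * z^15 + (18) * z^16 + (-11) * z^17 + (-15) * z^18 + (9) * z^19 + (-7) * z^20 + (-17) * z^21 + (29) * z^22 + (8) * z^23 + (-13) * z^24 + (-16) * z^25 + (13) * z^26 + (3) * z^27 + (-2) * z^28 + (18) * z^29 + (-11) * z^30 + (-15) * z^31 + (9) * z^32 + (-7) * z^33 + (-17) * z^34 + (29) * z^35 + (8) * z^36 + (-13) * z^37 + (-16) * z^38 + (13) * z^39 + (3) * z^40 + (-2) * z^41 + (18) * z^42 + (-11) * z^43) * hz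
  have s12 : ((1) * (z^1)^0 + (1) * (z^1)^1 + (-1) * (z^1)^4) * ((1) * (z^2)^0 + (1) * (z^2)^1 + (-1) * (z^2)^4) * ((1) * (z^3)^0 + (1) * (z^3)^1 + (-1) * (z^3)^4) * ((1) * (z^4)^0 + (1) * (z^4)^1 + (-1) * (z^4)^4) * ((1) * (z^5)^0 + (1) * (z^5)^1 + (-1) * (z^5)^4) * ((1) * (z^6)^0 + (1) * (z^6)^1 + (-1) * (z^6)^4) * ((1) * (z^7)^0 + (1) * (z^7)^1 + (-1) * (z^7)^4) * ((1) * (z^8)^0 + (1) * (z^8)^1 + (-1) * (z^8)^4) * ((1) * (z^9)^0 + (1) * (z^9)^1 + (-1) * (z^9)^4) * ((1) * (z^10)^0 + (1) * (z^10)^1 + (-1) * (z^10)^4) * ((1) * (z^11)^0 + (1) * (z^11)^1 + (-1) * (z^11)^4) * ((1) * (z^12)^0 + (1) * (z^12)^1 + (-1) * (z^12)^4) = (73) + (-6) * z^1 + (-6) * z^2 + (-6) * z^3 + (-6) * z^4 + (-6) * z^5 + (-6) * z^6 + (-6) * z^7 + (-6) * z^8 + (-6) * z^9 + (-6) * z^10 + (-6) * z^11 + (-6) * z^12 := by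
    rw [s11]
    linear_combination ((38) + (-17) * z^1 + (18) * z^2 + (-33) * z^3 + (21) * z^4 + (1) * z^5 + (-15) * z^6 + (-12) * z^7 + (22) * z^8 + (-14) * z^9 + (-27) * z^10 + (10) * z^11 + (-27) * z^12 + (27) * z^13 + (7) * z^14 + (-9) * z^15 + (-6) * z^16 + (28) * z^17 + (-8) * z^18 + (-21) * z^19 + (16) * z^20 + (14) * z^21 + (-35) * z^22 + (-11) * z^23 + (24) * z^24 + (-27) * z^25 + (27) * z^26 + (7) * z^27 + (-9) * z^28 + (-6) * z^29 + (28) * z^30 + (-8) * z^31 + (-21) * z^32 + (16) * z^33 + (14) * z^34 + (-35) * z^35 + (-11) * z^36 + (24) * z^37 + (-27) * z^38 + (27) * z^39 + (7) * z^40 + (-9) * z^41 + (-6) * z^42 + (28) * z^43 + (-8) * z^44 + (-21) * z^45 + (16) * z^46 + (14) * z^47) * hz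
  rw [s12]
  linear_combination (-6) * h1

set_option maxHeartbeats 1000000 in
theorem prod_conj_13_157 {K : Type*} [Field K] (z : K) (hz : z^13 = 1)
    (h1 : 1 + z^1 + z^2 + z^3 + z^4 + z^5 + z^6 + z^7 + z^8 + z^9 + z^10 + z^11 + z^12 = 0) :
    ((1) * (z^1)^0 + (-1) * (z^1)^1 + (1) * (z^1)^2 + (1) * (z^1)^4) * ((1) * (z^2)^0 + (-1) * (z^2)^1 + (1) * (z^2)^2 + (1) * (z^2)^4) * ((1) * (z^3)^0 + (-1) * (z^3)^1 + (1) * (z^3)^2 + (1) * (z^3)^4) * ((1) * (z^4)^0 + (-1) * (z^4)^1 + (1) * (z^4)^2 + (1) * (z^4)^4) * ((1) * (z^5)^0 + (-1) * (z^5)^1 + (1) * (z^5)^2 + (1) * (z^5)^4) * ((1) * (z^6)^0 + (-1) * (z^6)^1 + (1) * (z^6)^2 + (1) * (z^6)^4) * ((1) * (z^7)^0 + (-1) * (z^7)^1 + (1) * (z^7)^2 + (1) * (z^7)^4) * ((1) * (z^8)^0 + (-1) * (z^8)^1 + (1) * (z^8)^2 + (1) * (z^8)^4) * ((1) * (z^9)^0 + (-1) * (z^9)^1 + (1) * (z^9)^2 + (1) * (z^9)^4)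 * ((1) * (z^10)^0 + (-1) * (z^10)^1 + (1) * (z^10)^2 + (1) * (z^10)^4) * ((1) * (z^11)^0 + (-1) * (z^11)^1 + (1) * (z^11)^2 + (1) * (z^11)^4) * ((1) * (z^12)^0 + (-1) * (z^12)^1 + (1) * (z^12)^2 + (1) * (z^12)^4) = (157) := by
  have s1 : ((1) * (z^1)^0 + (-1) * (z^1)^1 + (1) * (z^1)^2 + (1) * (z^1)^4) = (1) + (-1) * z^1 + (1) * z^2 + (1) * z^4 := by ring
  have s2 : ((1) * (z^1)^0 + (-1) * (z^1)^1 + (1) * (z^1)^2 + (1) * (z^1)^4) * ((1) * (z^2)^0 + (-1) * (z^2)^1 + (1) * (z^2)^2 + (1) * (z^2)^4) = (1) + (-1) * z^1 + (1) * z^3 + (1) * z^4 + (-1) * z^5 + (2) * z^8 + (-1) * z^9 + (1) * z^10 + (1) * z^12 := by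
    rw [s1]
    linear_combination (0) * hz
  have s3 : ((1) * (z^1)^0 + (-1) * (z^1)^1 + (1) * (z^1)^2 + (1) * (z^1)^4) * ((1) * (z^2)^0 + (-1) * (z^2)^1 + (1) * (z^2)^2 + (1) * (z^2)^4) * ((1) * (z^3)^0 + (-1) * (z^3)^1 + (1) * (z^3)^2 + (1) * (z^3)^4) = (-1) + (1) * z^1 + (-1) * z^2 + (2) * z^3 + (1) * z^4 + (2) * z^8 + (1) * z^9 + (2) * z^10 + (-2) * z^11 + (3) * z^12 := by
    rw [s2]
    linear_combination ((-2) + (2) * z^1 + (-1) * z^2 + (2) * z^3 + (-1) * z^4 + (1) * z^5 + (2) * z^7 + (-1) * z^8 + (1) * z^9 + (1) * z^11) * hz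
  have s4 : ((1) * (z^1)^0 + (-1) * (z^1)^1 + (1) * (z^1)^2 + (1) * (z^1)^4) * ((1) * (z^2)^0 + (-1) * (z^2)^1 + (1) * (z^2)^2 + (1) * (z^2)^4) * ((1) * (z^3)^0 + (-1) * (z^3)^1 + (1) * (z^3)^2 + (1) * (z^3)^4) * ((1) * (z^4)^0 + (-1) * (z^4)^1 + (1) * (z^4)^2 + (1) * (z^4)^4) = (-3) * z^1 + (4) * z^2 + (4) * z^4 + (1) * z^6 + (2) * z^7 + (2) * z^9 + (1) * z^10 + (2) * z^11 + (3) * z^12 := by
    rw [s3]
    linear_combination ((1) + (-4) * z^1 + (5) * z^2 + (-2) * z^3 + (2) * z^4 + (1) * z^5 + (4) * z^7 + (2) * z^11 + (1) * z^12 + (2) * z^13 + (-2) * z^14 + (3) * z^15) * hz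
  have s5 : ((1) * (z^1)^0 + (-1) * (z^1)^1 + (1) * (z^1)^2 + (1) * (z^1)^4) * ((1) * (z^2)^0 + (-1) * (z^2)^1 + (1) * (z^2)^2 + (1) * (z^2)^4) * ((1) * (z^3)^0 + (-1) * (z^3)^1 + (1) * (z^3)^2 + (1) * (z^3)^4) * ((1) * (z^4)^0 + (-1) * (z^4)^1 + (1) * (z^4)^2 + (1) * (z^4)^4) * ((1) * (z^5)^0 + (-1) * (z^5)^1 + (1) * (z^5)^2 + (1) * (z^5)^4) = (1) + (1) * z^1 + (3) * z^2 + (1) * z^3 + (4) * z^4 + (2) * z^5 + (9) * z^6 + (-1) * z^7 + (-1) * z^8 + (5) * z^9 + (1) * z^10 + (2) * z^11 + (5) * z^12 := by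
    rw [s4]
    linear_combination ((1) + (4) * z^1 + (-1) * z^2 + (1) * z^3 + (2) * z^5 + (5) * z^6 + (1) * z^7 + (-1) * z^8 + (7) * z^9 + (4) * z^11 + (1) * z^13 + (2) * z^14 + (2) * z^16 + (1) * z^17 + (2) * z^18 + (3) * z^19) * hz
  have s6 : ((1) * (z^1)^0 + (-1) * (z^1)^1 + (1) * (z^1)^2 + (1) * (z^1)^4) * ((1) * (z^2)^0 + (-1) * (z^2)^1 + (1) * (z^2)^2 + (1) * (z^2)^4) * ((1) * (z^3)^0 + (-1) * (z^3)^1 + (1) * (z^3)^2 + (1) * (z^3)^4) * ((1) * (z^4)^0 + (-1) * (z^4)^1 + (1) * (z^4)^2 + (1) * (z^4)^4) * ((1) * (z^5)^0 + (-1) * (z^5)^1 + (1) * (z^5)^2 + (1) * (z^5)^4) * ((1) * (z^6)^0 + (-1) * (z^6)^1 + (1) * (z^6)^2 + (1) * (z^6)^4) = (6) + (6) * z^1 + (3) * z^2 + (6) * z^3 + (13) * z^4 + (5) * z^5 + (6) * z^6 + (2) * z^7 + (2) * z^8 + (7) * z^9 + (4) * z^10 + (6) * z^11 + (-2) * z^12 := by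
    rw [s5]
    linear_combination ((5) + (5) * z^1 + (5) * z^3 + (9) * z^4 + (3) * z^5 + (-2) * z^6 + (4) * z^7 + (6) * z^8 + (3) * z^9 + (7) * z^10 + (6) * z^11 + (1) * z^12 + (3) * z^13 + (1) * z^14 + (4) * z^15 + (2) * z^16 + (9) * z^17 + (-1) * z^18 + (-1) * z^19 + (5) * z^20 + (1) * z^21 + (2) * z^22 + (5) * z^23) * hz
  have s7 : ((1) * (z^1)^0 + (-1) * (z^1)^1 + (1) * (z^1)^2 + (1) * (z^1)^4) * ((1) * (z^2)^0 + (-1) * (z^2)^1 + (1) * (z^2)^2 + (1) * (z^2)^4) * ((1) * (z^3)^0 + (-1) * (z^3)^1 + (1) * (z^3)^2 + (1) * (z^3)^4) * ((1) * (z^4)^0 + (-1) * (z^4)^1 + (1) * (z^4)^2 + (1) * (z^4)^4) * ((1) * (z^5)^0 + (-1) * (z^5)^1 + (1) * (z^5)^2 + (1) * (z^5)^4) * ((1) * (z^6)^0 + (-1) * (z^6)^1 + (1) * (z^6)^2 + (1) * (z^6)^4) * ((1) * (z^7)^0 + (-1) * (z^7)^1 + (1) * (z^7)^2 + (1) * (z^7)^4) = (4) + (8) * z^1 + (13) * z^2 + (8) *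 z^3 + (18) * z^4 + (18) * z^5 + (26) * z^6 + (7) * z^7 + (4) * z^8 + (8) * z^9 + (7) * z^10 + (4) * z^11 + (3) * z^12 := by
    rw [s6]
    linear_combination ((-2) + (2) * z^1 + (10) * z^2 + (2) * z^3 + (5) * z^4 + (13) * z^5 + (20) * z^6 + (11) * z^7 + (8) * z^8 + (4) * z^9 + (9) * z^10 + (11) * z^11 + (10) * z^12 + (4) * z^13 + (-2) * z^14 + (6) * z^15 + (6) * z^16 + (3) * z^17 + (6) * z^18 + (13) * z^19 + (5) * z^20 + (6) * z^21 + (2) * z^22 + (2) * z^23 + (7) * z^24 + (4) * z^25 + (6) * z^26 + (-2) * z^27) * hz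
  have s8 : ((1) * (z^1)^0 + (-1) * (z^1)^1 + (1) * (z^1)^2 + (1) * (z^1)^4) * ((1) * (z^2)^0 + (-1) * (z^2)^1 + (1) * (z^2)^2 + (1) * (z^2)^4) * ((1) * (z^3)^0 + (-1) * (z^3)^1 + (1) * (z^3)^2 + (1) * (z^3)^4) * ((1) * (z^4)^0 + (-1) * (z^4)^1 + (1) * (z^4)^2 + (1) * (z^4)^4) * ((1) * (z^5)^0 + (-1) * (z^5)^1 + (1) * (z^5)^2 + (1) * (z^5)^4) * ((1) * (z^6)^0 + (-1) * (z^6)^1 + (1) * (z^6)^2 + (1) * (z^6)^4) * ((1) * (z^7)^0 + (-1) * (z^7)^1 + (1) * (z^7)^2 + (1) * (z^7)^4) * ((1) * (z^8)^0 + (-1) * (z^8)^1 + (1) * (z^8)^2 + (1) * (z^8)^4) = (-10) * z^1 + (17) * z^2 + (15) * z^3 + (22) * z^4 + (27) * z^5 + (34) * z^6 + (30) * z^7 + (31) * z^8 + (34) * z^9 + (19) * z^10 + (18) * z^11 + (19) * z^12 := by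
    rw [s7]
    linear_combination ((-4) + (-18) * z^1 + (4) * z^2 + (7) * z^3 + (4) * z^4 + (9) * z^5 + (8) * z^6 + (23) * z^7 + (31) * z^8 + (34) * z^9 + (25) * z^10 + (22) * z^11 + (34) * z^12 + (14) * z^13 + (8) * z^14 + (11) * z^15 + (7) * z^16 + (4) * z^17 + (3) * z^18 + (4) * z^19 + (8) * z^20 + (13) * z^21 + (8) * z^22 + (18) * z^23 + (18) * z^24 + (26) * z^25 + (7) * z^26 + (4) * z^27 + (8) * z^28 + (7) * z^29 + (4) * z^30 + (3) * z^31) * hz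
  have s9 : ((1) * (z^1)^0 + (-1) * (z^1)^1 + (1) * (z^1)^2 + (1) * (z^1)^4) * ((1) * (z^2)^0 + (-1) * (z^2)^1 + (1) * (z^2)^2 + (1) * (z^2)^4) * ((1) * (z^3)^0 + (-1) * (z^3)^1 + (1) * (z^3)^2 + (1) * (z^3)^4) * ((1) * (z^4)^0 + (-1) * (z^4)^1 + (1) * (z^4)^2 + (1) * (z^4)^4) * ((1) * (z^5)^0 + (-1) * (z^5)^1 + (1) * (z^5)^2 + (1) * (z^5)^4) * ((1) * (z^6)^0 + (-1) * (z^6)^1 + (1) * (z^6)^2 + (1) * (z^6)^4) * ((1) * (z^7)^0 + (-1) * (z^7)^1 + (1) * (z^7)^2 + (1) * (z^7)^4) * ((1) * (z^8)^0 + (-1) * (z^8)^1 + (1) * (z^8)^2 + (1) * (z^8)^4) * ((1) * (z^9)^0 + (-1) * (z^9)^1 + (1) * (z^9)^2 + (1) * (z^9)^4) = (24) + (19) * z^1 + (29) * z^2 + (37) * z^3 + (40) * z^4 + (24) * z^5 + (39) * z^6 + (48) * z^7 + (45) * z^8 + (75) * z^9 + (56) * z^10 + (25) * z^11 + (51) * z^12 := by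
    rw [s8]
    linear_combination ((24) + (29) * z^1 + (12) * z^2 + (22) * z^3 + (18) * z^4 + (-3) * z^5 + (5) * z^6 + (18) * z^7 + (14) * z^8 + (41) * z^9 + (27) * z^10 + (24) * z^11 + (47) * z^12 + (46) * z^13 + (56) * z^14 + (46) * z^15 + (52) * z^16 + (49) * z^17 + (31) * z^18 + (34) * z^19 + (19) * z^20 + (18) * z^21 + (19) * z^22 + (-10) * z^24 + (17) * z^25 + (15) * z^26 + (22) * z^27 + (27) * z^28 + (34) * z^29 + (30) * z^30 + (31) * z^31 + (34) * z^32 + (19) * z^33 + (18) * z^34 + (19) * z^35) * hz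
  have s10 : ((1) * (z^1)^0 + (-1) * (z^1)^1 + (1) * (z^1)^2 + (1) * (z^1)^4) * ((1) * (z^2)^0 + (-1) * (z^2)^1 + (1) * (z^2)^2 + (1) * (z^2)^4) * ((1) * (z^3)^0 + (-1) * (z^3)^1 + (1) * (z^3)^2 + (1) * (z^3)^4) * ((1) * (z^4)^0 + (-1) * (z^4)^1 + (1) * (z^4)^2 + (1) * (z^4)^4) * ((1) * (z^5)^0 + (-1) * (z^5)^1 + (1) * (z^5)^2 + (1) * (z^5)^4) * ((1) * (z^6)^0 + (-1) * (z^6)^1 + (1) * (z^6)^2 + (1) * (z^6)^4) * ((1) * (z^7)^0 + (-1) * (z^7)^1 + (1) * (z^7)^2 + (1) * (z^7)^4) * ((1) * (z^8)^0 + (-1) * (z^8)^1 + (1) * (z^8)^2 + (1) * (z^8)^4) * ((1) * (z^9)^0 + (-1) * (z^9)^1 + (1) * (z^9)^2 + (1) * (z^9)^4) * ((1) * (z^10)^0 + (-1) * (z^10)^1 + (1) * (z^10)^2 + (1) * (z^10)^4) = (77) + (51) * z^1 + (69) * z^2 + (102) * z^3 + (85) * z^4 + (44) * z^5 + (39) * z^6 + (55) * z^7 + (87) * z^8 + (98) * z^9 + (144) * z^10 + (102) * z^11 + (71)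 * z^12 := by
    rw [s9]
    linear_combination ((53) + (32) * z^1 + (40) * z^2 + (65) * z^3 + (45) * z^4 + (20) * z^5 + (7) * z^7 + (42) * z^8 + (23) * z^9 + (112) * z^10 + (96) * z^11 + (49) * z^12 + (90) * z^13 + (72) * z^14 + (64) * z^15 + (104) * z^16 + (93) * z^17 + (65) * z^18 + (75) * z^19 + (39) * z^20 + (48) * z^21 + (45) * z^22 + (75) * z^23 + (56) * z^24 + (25) * z^25 + (51) * z^26 + (24) * z^27 + (19) * z^28 + (29) * z^29 + (37) * z^30 + (40) * z^31 + (24) * z^32 + (39) * z^33 + (48) * z^34 + (45) * z^35 + (75) * z^36 + (56) * z^37 + (25) * z^38 + (51) * z^39) * hz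
  have s11 : ((1) * (z^1)^0 + (-1) * (z^1)^1 + (1) * (z^1)^2 + (1) * (z^1)^4) * ((1) * (z^2)^0 + (-1) * (z^2)^1 + (1) * (z^2)^2 + (1) * (z^2)^4) * ((1) * (z^3)^0 + (-1) * (z^3)^1 + (1) * (z^3)^2 + (1) * (z^3)^4) * ((1) * (z^4)^0 + (-1) * (z^4)^1 + (1) * (z^4)^2 + (1) * (z^4)^4) * ((1) * (z^5)^0 + (-1) * (z^5)^1 + (1) * (z^5)^2 + (1) * (z^5)^4) * ((1) * (z^6)^0 + (-1) * (z^6)^1 + (1) * (z^6)^2 + (1) * (z^6)^4) * ((1) * (z^7)^0 + (-1) * (z^7)^1 + (1) * (z^7)^2 + (1) * (z^7)^4) * ((1) * (z^8)^0 + (-1) * (z^8)^1 + (1) * (z^8)^2 + (1) * (z^8)^4) * ((1) * (z^9)^0 + (-1) * (z^9)^1 + (1) * (z^9)^2 + (1) * (z^9)^4) * ((1) * (z^10)^0 + (-1) * (z^10)^1 + (1) * (z^10)^2 + (1) * (z^10)^4) * ((1) * (z^11)^0 + (-1) * (z^11)^1 + (1) * (z^11)^2 + (1) * (z^11)^4) = (180) + (91) * z^1 + (167) * z^2 + (215) * z^3 + (204) * z^4 + (164) * z^5 + (147) * z^6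 + (128) * z^7 + (116) * z^8 + (158) * z^9 + (168) * z^10 + (133) * z^11 + (177) * z^12 := by
    rw [s10]
    linear_combination ((103) + (40) * z^1 + (98) * z^2 + (113) * z^3 + (119) * z^4 + (120) * z^5 + (108) * z^6 + (73) * z^7 + (29) * z^8 + (60) * z^9 + (24) * z^10 + (108) * z^11 + (157) * z^12 + (172) * z^13 + (142) * z^14 + (183) * z^15 + (157) * z^16 + (158) * z^17 + (175) * z^18 + (195) * z^19 + (171) * z^20 + (173) * z^21 + (85) * z^22 + (44) * z^23 + (39) * z^24 + (55) * z^25 + (87) * z^26 + (98) * z^27 + (144) * z^28 + (102) * z^29 + (71) * z^30 + (77) * z^31 + (51) * z^32 + (69) * z^33 + (102) * z^34 + (85) * z^35 + (44) * z^36 + (39) * z^37 + (55) * z^38 + (87) * z^39 + (98) * z^40 + (144) * z^41 + (102) * z^42 + (71) * z^43) * hz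
  have s12 : ((1) * (z^1)^0 + (-1) * (z^1)^1 + (1) * (z^1)^2 + (1) * (z^1)^4) * ((1) * (z^2)^0 + (-1) * (z^2)^1 + (1) * (z^2)^2 + (1) * (z^2)^4) * ((1) * (z^3)^0 + (-1) * (z^3)^1 + (1) * (z^3)^2 + (1) * (z^3)^4) * ((1) * (z^4)^0 + (-1) * (z^4)^1 + (1) * (z^4)^2 + (1) * (z^4)^4) * ((1) * (z^5)^0 + (-1) * (z^5)^1 + (1) * (z^5)^2 + (1) * (z^5)^4) * ((1) * (z^6)^0 + (-1) * (z^6)^1 + (1) * (z^6)^2 + (1) * (z^6)^4) * ((1) * (z^7)^0 + (-1) * (z^7)^1 + (1) * (z^7)^2 + (1) * (z^7)^4) * ((1) * (z^8)^0 + (-1) * (z^8)^1 + (1) * (z^8)^2 + (1) * (z^8)^4) * ((1) * (z^9)^0 + (-1) * (z^9)^1 + (1) * (z^9)^2 + (1) * (z^9)^4) * ((1) * (z^10)^0 + (-1) * (z^10)^1 + (1) * (z^10)^2 + (1) * (z^10)^4) * ((1) * (z^11)^0 + (-1) * (z^11)^1 + (1) * (z^11)^2 + (1) * (z^11)^4) * ((1) * (z^12)^0 + (-1) * (z^12)^1 + (1) * (z^12)^2 + (1) * (z^12)^4) = (460) + (303) *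 z^1 + (303) * z^2 + (303) * z^3 + (303) * z^4 + (303) * z^5 + (303) * z^6 + (303) * z^7 + (303) * z^8 + (303) * z^9 + (303) * z^10 + (303) * z^11 + (303) * z^12 := by
    rw [s11]
    linear_combination ((280) + (212) * z^1 + (136) * z^2 + (88) * z^3 + (99) * z^4 + (139) * z^5 + (156) * z^6 + (175) * z^7 + (187) * z^8 + (145) * z^9 + (135) * z^10 + (170) * z^11 + (306) * z^12 + (371) * z^13 + (379) * z^14 + (351) * z^15 + (292) * z^16 + (263) * z^17 + (286) * z^18 + (284) * z^19 + (291) * z^20 + (345) * z^21 + (313) * z^22 + (268) * z^23 + (167) * z^24 + (215) * z^25 + (204) * z^26 + (164) * z^27 + (147) * z^28 + (128) * z^29 + (116) * z^30 + (158) * z^31 + (168) * z^32 + (133) * z^33 + (177) * z^34 + (180) * z^35 + (91) * z^36 + (167) * z^37 + (215) * z^38 + (204) * z^39 + (164) * z^40 + (147) * z^41 + (128) * z^42 + (116) * z^43 +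 (158) * z^44 + (168) * z^45 + (133) * z^46 + (177) * z^47) * hz
  rw [s12]
  linear_combination (303) * h1

theorem cast_53_zmod_13 : ((53 : ℕ) : ZMod 13) = 1 := by decide

theorem cast_131_zmod_13 : ((131 : ℕ) : ZMod 13) = 1 := by decide

theorem cast_79_zmod_13 : ((79 : ℕ) : ZMod 13) = 1 := by decide

theorem cast_157_zmod_13 : ((157 : ℕ) : ZMod 13) = 1 := by decide

set_option maxRecDepth 100000 in
theorem key_13 : ∀ q ∈ Finset.Icc 2 312, ∀ f ∈ Finset.Icc 1 8, q ^ f ≤ 312 → q ^ f % 13 = 1 →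
    q ∈ ({3, 12, 14, 27, 40, 53, 66, 79, 92, 105, 118, 131, 144, 157, 170, 183, 196, 209, 222,
      235, 248, 261, 274, 287, 300} : Finset ℕ) := by decide

theorem orderOf_3_zmod_13 : orderOf ((3 : ℕ) : ZMod 13) = 3 := by
  have : Fact (Nat.Prime 3) := ⟨by norm_num⟩
  exact orderOf_eq_prime (by decide) (by decide)

/-- If `IsCyclotomicExtension {13} ℚ K` then `𝓞 K` is a principal ideal domain. -/
theorem thirteen_pid (K : Type*) [Field K] [NumberField K] [IsCyclotomicExtension {13} ℚ K] :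
    IsPrincipalIdealRing (𝓞 K) := by
  have : Fact (Nat.Prime 13) := ⟨by norm_num⟩
  refine pid_of_principal_primes' 13 K 312 8 ?_ (by norm_num) ?_
  · -- Minkowski bound `< 313`
    have hπ : (4 / π) ^ ((13 - 1) / 2) ≤ (4 / 3.14 : ℝ) ^ 6 := by
      have h3 : (3.14 : ℝ) < π := pi_gt_d2
      have : (4 / π : ℝ) ≤ 4 / 3.14 := by gcongr
      have h0 : (0 : ℝ) ≤ 4 / π := by positivity
      simpa using pow_le_pow_left₀ h0 this 6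
    have hsq : √((13 : ℝ) ^ (13 - 2)) < 1338717 := by
      rw [Real.sqrt_lt' (by norm_num)]; norm_num
    have hfac : (((13 - 1)! : ℕ) : ℝ) / (((13 - 1 : ℕ) : ℕ) : ℝ) ^ (13 - 1) =
        479001600 / 8916100448256 := by
      norm_num [Nat.factorial]
    calc (4 / π) ^ ((13 - 1) / 2) *
          ((((13 - 1)! : ℕ) : ℝ) / (((13 - 1 : ℕ) : ℕ) : ℝ) ^ (13 - 1) * √((13 : ℝ) ^ (13 - 2)))
        ≤ (4 / 3.14 : ℝ) ^ 6 * (479001600 / 8916100448256 * 1338717) := by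
          rw [hfac]
          gcongr
      _ < ((312 : ℕ) : ℝ) + 1 := by norm_num
  · rintro q hq hq13 ⟨f, hf, hle, hmod⟩
    have hf1 := (Finset.mem_Icc.mp hf).1
    have hf2 := (Finset.mem_Icc.mp hf).2
    have hqB : q ≤ 312 := (Nat.le_self_pow (Nat.one_le_iff_ne_zero.mp hf1) q).trans hle
    have hq2 := hq.two_le
    have key := key_13
    have hqS := key q (Finset.mem_Icc.mpr ⟨hq2, hqB⟩) f hf hle hmod
    simp only [Finset.mem_insert, Finset.mem_singleton] at hqS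
    set z := IsCyclotomicExtension.zeta 13 ℚ K with hz
    have hzs : IsPrimitiveRoot z 13 := IsCyclotomicExtension.zeta_spec 13 ℚ K
    have hz13 : z ^ 13 = 1 := hzs.pow_eq_one
    have h1 : 1 + z^1 + z^2 + z^3 + z^4 + z^5 + z^6 + z^7 + z^8 + z^9 + z^10 + z^11 + z^12
        = 0 := by
      have := hzs.geom_sum_eq_zero (by norm_num)
      simpa [Finset.sum_range_succ] using this
    rcases hqS with rfl | rfl | rfl | rfl | rfl | rfl | rfl | rfl | rfl | rfl | rfl | rfl | rfl | rfl | rfl | rfl | rfl | rfl | rfl | rfl | rfl | rfl | rfl | rfl | rfl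
    · -- `q = 3`, generator `1 + X - X ^ 3` evaluated at `ζ`
      have : Fact (Nat.Prime 3) := ⟨hq⟩
      refine exists_principal_prime_of_prod_conj 13 K 3 (by norm_num) (1 + X - X ^ 3) (27)
        [1, 2, 3, 4, 5, 6, 7, 8, 9, 10, 11, 12] (by decide) rfl ?_ ?_
      · have hg : ∀ y : K, aeval y (1 + X - X ^ 3 : ℤ[X]) = 1 + y - y ^ 3 := by
          intro y; simp
        simp only [List.map_cons, List.map_nil, List.prod_cons, List.prod_nil, hg, ← hz]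
        have := prod_conj_13_3 z hz13 h1
        push_cast
        linear_combination this
      · rw [orderOf_3_zmod_13]
        norm_num
    · exact absurd hq (by norm_num)
    · exact absurd hq (by norm_num)
    · exact absurd hq (by norm_num)
    · exact absurd hq (by norm_num)
    · -- `q = 53`, generator `1 + X + X ^ 3` evaluated at `ζ`
      have : Fact (Nat.Prime 53) := ⟨hq⟩
      refine exists_principal_prime_of_prod_conj 13 K 53 (by norm_num) (1 + X + X ^ 3) (53)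
        [1, 2, 3, 4, 5, 6, 7, 8, 9, 10, 11, 12] (by decide) rfl ?_ ?_
      · have hg : ∀ y : K, aeval y (1 + X + X ^ 3 : ℤ[X]) = 1 + y + y ^ 3 := by
          intro y; simp
        simp only [List.map_cons, List.map_nil, List.prod_cons, List.prod_nil, hg, ← hz]
        have := prod_conj_13_53 z hz13 h1
        push_cast
        linear_combination this
      · rw [cast_53_zmod_13, orderOf_one]
        norm_num
    · exact absurd hq (by norm_num)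
    · -- `q = 79`, generator `1 + X - X ^ 4` evaluated at `ζ`
      have : Fact (Nat.Prime 79) := ⟨hq⟩
      refine exists_principal_prime_of_prod_conj 13 K 79 (by norm_num) (1 + X - X ^ 4) (79)
        [1, 2, 3, 4, 5, 6, 7, 8, 9, 10, 11, 12] (by decide) rfl ?_ ?_
      · have hg : ∀ y : K, aeval y (1 + X - X ^ 4 : ℤ[X]) = 1 + y - y ^ 4 := by
          intro y; simp
        simp only [List.map_cons, List.map_nil, List.prod_cons, List.prod_nil, hg, ← hz]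
        have := prod_conj_13_79 z hz13 h1
        push_cast
        linear_combination this
      · rw [cast_79_zmod_13, orderOf_one]
        norm_num
    · exact absurd hq (by norm_num)
    · exact absurd hq (by norm_num)
    · exact absurd hq (by norm_num)
    · -- `q = 131`, generator `1 - X - X ^ 3` evaluated at `ζ`
      have : Fact (Nat.Prime 131) := ⟨hq⟩
      refine exists_principal_prime_of_prod_conj 13 K 131 (by norm_num) (1 - X - X ^ 3) (131)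
        [1, 2, 3, 4, 5, 6, 7, 8, 9, 10, 11, 12] (by decide) rfl ?_ ?_
      · have hg : ∀ y : K, aeval y (1 - X - X ^ 3 : ℤ[X]) = 1 - y - y ^ 3 := by
          intro y; simp
        simp only [List.map_cons, List.map_nil, List.prod_cons, List.prod_nil, hg, ← hz]
        have := prod_conj_13_131 z hz13 h1
        push_cast
        linear_combination this
      · rw [cast_131_zmod_13, orderOf_one]
        norm_num
    · exact absurd hq (by norm_num)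
    · -- `q = 157`, generator `1 - X + X ^ 2 + X ^ 4` evaluated at `ζ`
      have : Fact (Nat.Prime 157) := ⟨hq⟩
      refine exists_principal_prime_of_prod_conj 13 K 157 (by norm_num) (1 - X + X ^ 2 + X ^ 4) (157)
        [1, 2, 3, 4, 5, 6, 7, 8, 9, 10, 11, 12] (by decide) rfl ?_ ?_
      · have hg : ∀ y : K, aeval y (1 - X + X ^ 2 + X ^ 4 : ℤ[X]) = 1 - y + y ^ 2 + y ^ 4 := by
          intro y; simp
        simp only [List.map_cons, List.map_nil, List.prod_cons, List.prod_nil, hg, ← hz]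
        have := prod_conj_13_157 z hz13 h1
        push_cast
        linear_combination this
      · rw [cast_157_zmod_13, orderOf_one]
        norm_num
    · exact absurd hq (by norm_num)
    · exact absurd hq (by norm_num)
    · exact absurd hq (by norm_num)
    · exact absurd hq (by norm_num)
    · exact absurd hq (by norm_num)
    · exact absurd hq (by norm_num)
    · exact absurd hq (by norm_num)
    · exact absurd hq (by norm_num)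
    · exact absurd hq (by norm_num)
    · exact absurd hq (by norm_num)
    · exact absurd hq (by norm_num)

end Fermat.Agent.Kummer
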