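import Fermat.Agent.Kummer.PIDAux

/-!
# `ℤ[ζ₇]` is a PID
-/

namespace Fermat.Agent.Kummer

open NumberField Ideal Nat Real

/-- If `IsCyclotomicExtension {7} ℚ K` then `𝓞 K` is a principal ideal domain. -/
theorem seven_pid (K : Type*) [Field K] [NumberField K] [IsCyclotomicExtension {7} ℚ K] :
    IsPrincipalIdealRing (𝓞 K) := by
  have : Fact (Nat.Prime 7) := ⟨by norm_num⟩
  refine pid_of_principal_primes' 7 K 6 2 ?_ (by norm_num) ?_
  · -- Minkowski bound `< 7`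
    have hπ : (4 / π) ^ ((7 - 1) / 2) ≤ (4 / 3 : ℝ) ^ 3 := by
      have h3 : (3 : ℝ) < π := pi_gt_three
      have : (4 / π : ℝ) ≤ 4 / 3 := by gcongr
      have h0 : (0 : ℝ) ≤ 4 / π := by positivity
      simpa using pow_le_pow_left₀ h0 this 3
    have hsq : √((7 : ℝ) ^ (7 - 2)) < 130 := by
      rw [Real.sqrt_lt' (by norm_num)]; norm_num
    have hfac : (((7 - 1)! : ℕ) : ℝ) / (((7 - 1 : ℕ) : ℕ) : ℝ) ^ (7 - 1) = 720 / 46656 := by
      norm_num [Nat.factorial]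
    calc (4 / π) ^ ((7 - 1) / 2) *
          ((((7 - 1)! : ℕ) : ℝ) / (((7 - 1 : ℕ) : ℕ) : ℝ) ^ (7 - 1) * √((7 : ℝ) ^ (7 - 2)))
        ≤ (4 / 3 : ℝ) ^ 3 * (720 / 46656 * 130) := by
          rw [hfac]
          gcongr
      _ < ((6 : ℕ) : ℝ) + 1 := by norm_num
  · rintro q hq hq7 ⟨f, hf, hle, hmod⟩
    exfalso
    have hq6 : q ≤ 6 := (Nat.le_self_pow (Nat.one_le_iff_ne_zero.mp (Finset.mem_Icc.mp hf).1) q).trans hle
    have hq2 := hq.two_le
    have hf1 := (Finset.mem_Icc.mp hf).1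
    have hf2 := (Finset.mem_Icc.mp hf).2
    interval_cases q <;> interval_cases f <;> simp_all

end Fermat.Agent.Kummer
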