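import Mathlib

/-!
# Auxiliary lemmas for proving that `ℤ[ζ_p]` is a PID for small primes `p`
-/

namespace Fermat.Agent.Kummer

open NumberField Ideal Module InfinitePlace Nat Real IsCyclotomicExtension.Rat Polynomial

section general

variable (p : ℕ) [hp : Fact p.Prime] (K : Type*) [Field K] [NumberField K]
  [hK : IsCyclotomicExtension {p} ℚ K]

/-- The Minkowski bound of the `p`-th cyclotomic field, `p` a prime. -/
theorem minkowski_bound_cyclotomic :
    (4 / π) ^ nrComplexPlaces K *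
      ((finrank ℚ K)! / (finrank ℚ K) ^ (finrank ℚ K) * √|(discr K : ℝ)|) =
    (4 / π) ^ ((p - 1) / 2) *
      (((p - 1)! : ℝ) / ((p - 1 : ℕ) : ℝ) ^ (p - 1) * √((p : ℝ) ^ (p - 2))) := by
  have hpos : 0 < p := hp.out.pos
  have : NeZero p := ⟨hpos.ne'⟩
  rw [discr_prime p K, IsCyclotomicExtension.finrank (n := p) K
    (cyclotomic.irreducible_rat hpos), nrComplexPlaces_eq_totient_div_two p,
    totient_prime hp.out]
  congr 3
  push_cast
  rw [abs_mul, abs_pow, abs_pow, abs_neg, abs_one, one_pow, one_mul, Nat.abs_cast]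

/-- Reduction of the PID property of `ℤ[ζ_p]` to finitely many primes. -/
theorem pid_of_principal_primes (B : ℕ)
    (hB : (4 / π) ^ ((p - 1) / 2) *
      (((p - 1)! : ℝ) / ((p - 1 : ℕ) : ℝ) ^ (p - 1) * √((p : ℝ) ^ (p - 2))) < B + 1)
    (h : ∀ q ∈ Finset.Icc 1 B, q.Prime → q ≠ p → q ^ orderOf (q : ZMod p) ≤ B →
      ∃ P ∈ primesOver (span {(q : ℤ)}) (𝓞 K), Submodule.IsPrincipal P) :
    IsPrincipalIdealRing (𝓞 K) := by
  have hgal : IsGalois ℚ K := IsCyclotomicExtension.isGalois {p} ℚ K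
  apply RingOfIntegers.isPrincipalIdealRing_of_isPrincipal_of_lt_or_isPrincipal_of_mem_primesOver_of_mem_Icc
  rw [minkowski_bound_cyclotomic p K]
  set M : ℝ := (4 / π) ^ ((p - 1) / 2) *
      (((p - 1)! : ℝ) / ((p - 1 : ℕ) : ℝ) ^ (p - 1) * √((p : ℝ) ^ (p - 2))) with hM
  have hM0 : 0 ≤ M := by positivity
  have hfl : ⌊M⌋₊ ≤ B := Nat.lt_succ_iff.mp ((Nat.floor_lt hM0).mpr (by exact_mod_cast hB))
  intro q hq hqp
  have hqB : q ∈ Finset.Icc 1 B :=
    Finset.mem_Icc.mpr ⟨(Finset.mem_Icc.mp hq).1, (Finset.mem_Icc.mp hq).2.trans hfl⟩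
  by_cases hqp' : q = p
  · subst hqp'
    have hζ := IsCyclotomicExtension.zeta_spec q ℚ K
    refine ⟨span {hζ.toInteger - 1}, ⟨?_, ?_⟩, Or.inr ⟨⟨_, rfl⟩⟩⟩
    · have : IsCyclotomicExtension {q ^ (0 + 1)} ℚ K := by simpa using hK
      have hζ' : IsPrimitiveRoot (IsCyclotomicExtension.zeta q ℚ K) (q ^ (0 + 1)) := by
        simpa using hζ
      exact isPrime_span_zeta_sub_one q 0 hζ'
    · have : IsCyclotomicExtension {q ^ (0 + 1)} ℚ K := by simpa using hK
      have hζ' : IsPrimitiveRoot (IsCyclotomicExtension.zeta q ℚ K) (q ^ (0 + 1)) := by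
        simpa using hζ
      exact liesOver_span_zeta_sub_one q 0 hζ'
  · have hq' : Fact q.Prime := ⟨hqp⟩
    have hndvd : ¬ q ∣ p := fun hd =>
      hqp' ((Nat.prime_dvd_prime_iff_eq hqp hp.out).mp hd)
    have hpos : 0 < p := hp.out.pos
    have : NeZero p := ⟨hpos.ne'⟩
    by_cases hle : q ^ orderOf (q : ZMod p) ≤ B
    · obtain ⟨P, hP, hprinc⟩ := h q hqB hqp hqp' hle
      exact ⟨P, hP, Or.inr hprinc⟩
    · obtain ⟨⟨P, hP1, hP2⟩⟩ := (span {(q : ℤ)}).nonempty_primesOver (S := 𝓞 K)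
      refine ⟨P, ⟨hP1, hP2⟩, Or.inl ?_⟩
      rw [inertiaDeg_eq_of_not_dvd q K P hndvd]
      omega

theorem exists_principal_prime_of_norm (q : ℕ) [hq : Fact q.Prime] (hqp : q ≠ p) (α : 𝓞 K)
    (hα : (Algebra.norm ℤ α).natAbs = q ^ orderOf (q : ZMod p)) :
    ∃ P ∈ primesOver (span {(q : ℤ)}) (𝓞 K), Submodule.IsPrincipal P := by
  have hndvd : ¬ q ∣ p := fun hd =>
    hqp ((Nat.prime_dvd_prime_iff_eq hq.out hp.out).mp hd)
  have hpos : 0 < p := hp.out.pos
  have : NeZero p := ⟨hpos.ne'⟩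
  set f := orderOf (q : ZMod p) with hf
  -- `f > 0`
  have hfpos : 0 < f := by
    obtain ⟨⟨P0, hP1, hP2⟩⟩ := (span {(q : ℤ)}).nonempty_primesOver (S := 𝓞 K)
    rw [hf, ← inertiaDeg_eq_of_not_dvd q K P0 hndvd]
    exact inertiaDeg_pos P0 ℤ
  set I : Ideal (𝓞 K) := span {α} with hI
  have hIn : absNorm I = q ^ f := by rw [hI, absNorm_span_singleton, hα]
  have hItop : I ≠ ⊤ := by
    intro h
    rw [h, absNorm_top] at hIn
    exact (Nat.one_lt_pow hfpos.ne' hq.out.one_lt).ne hIn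
  obtain ⟨P, hPmax, hIP⟩ := Ideal.exists_le_maximal I hItop
  have hPprime : P.IsPrime := hPmax.isPrime
  have hqP : ((q : ℤ) : 𝓞 K) ∈ P := by
    have h1 : ((absNorm I : ℕ) : 𝓞 K) ∈ P := hIP (absNorm_mem I)
    rw [hIn] at h1
    push_cast at h1
    have := hPprime.mem_of_pow_mem _ h1
    simpa using this
  have hlies : P.LiesOver (span {(q : ℤ)}) := by
    constructor
    have hmax : (span {(q : ℤ)}).IsMaximal :=
      (Ideal.span_singleton_prime (by exact_mod_cast hq.out.ne_zero)).mpr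
        (Nat.prime_iff_prime_int.mp hq.out) |>.isMaximal (by simpa using hq.out.ne_zero)
    refine hmax.eq_of_le ?_ ?_
    · intro h
      have : (1 : ℤ) ∈ P.under ℤ := by rw [h]; trivial
      rw [Ideal.mem_comap, map_one] at this
      exact hPprime.ne_top ((Ideal.eq_top_iff_one P).mpr this)
    · rw [Ideal.span_singleton_le_iff_mem, Ideal.mem_comap]
      simpa using hqP
  refine ⟨P, ⟨hPprime, hlies⟩, ?_⟩
  have hPn : absNorm P = q ^ f := by
    rw [← Ideal.pow_inertiaDeg q P, inertiaDeg_eq_of_not_dvd q K P hndvd]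
  -- `I = P`
  have hdvd : P ∣ I := Ideal.dvd_iff_le.mpr hIP
  obtain ⟨J, hJ⟩ := hdvd
  have hJn : absNorm J = 1 := by
    have := congrArg absNorm hJ
    rw [map_mul, hIn, hPn] at this
    have hpos' : 0 < q ^ f := Nat.pos_of_ne_zero (pow_ne_zero _ hq.out.ne_zero)
    exact (Nat.eq_of_mul_eq_mul_left hpos' (by rw [mul_one]; exact this)).symm
  rw [absNorm_eq_one_iff] at hJn
  rw [hJn, Ideal.mul_top] at hJ
  rw [← hJ]
  exact ⟨⟨α, rfl⟩⟩


open IsCyclotomicExtension in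
theorem norm_aeval_zeta_pow (g : ℤ[X]) {k : ℕ} (hk : k.Coprime p) :
    Algebra.norm ℚ (aeval ((zeta p ℚ K) ^ k) g) = Algebra.norm ℚ (aeval (zeta p ℚ K) g) := by
  have hpos : 0 < p := hp.out.pos
  have : NeZero p := ⟨hpos.ne'⟩
  have hμ : IsPrimitiveRoot ((zeta p ℚ K) ^ k) p := (zeta_spec p ℚ K).pow_of_coprime k hk
  set σ : K ≃ₐ[ℚ] K := fromZetaAut hμ (cyclotomic.irreducible_rat hpos) with hσ
  have h1 : σ (zeta p ℚ K) = (zeta p ℚ K) ^ k := fromZetaAut_spec hμ _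
  have h2 : aeval ((zeta p ℚ K) ^ k) g = σ (aeval (zeta p ℚ K) g) := by
    rw [← h1]
    exact (aeval_algHom_apply ((σ : K →ₐ[ℚ] K).restrictScalars ℤ) (zeta p ℚ K) g)
  rw [h2, Algebra.norm_eq_of_algEquiv]

open IsCyclotomicExtension in
/-- If the product of the conjugates `g(ζ^k)`, `k ∈ ks`, `ks` a list of `p - 1` integers
prime to `p`, is the integer `c`, then `g(ζ)` has norm `±c`. -/
theorem natAbs_norm_eq_of_prod_conj (g : ℤ[X]) (c : ℤ) (ks : List ℕ)
    (hks : ∀ k ∈ ks, k.Coprime p) (hlen : ks.length = p - 1)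
    (hprod : (ks.map (fun k => aeval ((zeta p ℚ K) ^ k) g)).prod = (c : K)) :
    (Algebra.norm ℤ (aeval (zeta_spec p ℚ K).toInteger g)).natAbs = c.natAbs := by
  have hpos : 0 < p := hp.out.pos
  have : NeZero p := ⟨hpos.ne'⟩
  have hfr : finrank ℚ K = p - 1 := by
    rw [IsCyclotomicExtension.finrank (n := p) K (cyclotomic.irreducible_rat hpos),
      totient_prime hp.out]
  set N : ℚ := Algebra.norm ℚ (aeval (zeta p ℚ K) g) with hN
  have h1 : Algebra.norm ℚ ((ks.map (fun k => aeval ((zeta p ℚ K) ^ k) g)).prod) =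
      N ^ (p - 1) := by
    rw [map_list_prod, List.map_map, ← hlen]
    rw [List.prod_eq_pow_card _ N]
    · simp
    · intro y hy
      obtain ⟨k, hk, rfl⟩ := List.mem_map.mp hy
      exact norm_aeval_zeta_pow p K g (hks k hk)
  have h2 : Algebra.norm ℚ ((c : ℚ) : K) = (c : ℚ) ^ (p - 1) := by
    have := Algebra.norm_algebraMap (S := K) (c : ℚ)
    rw [hfr] at this
    simpa using this
  have h3 : N ^ (p - 1) = (c : ℚ) ^ (p - 1) := by
    rw [← h1, ← h2, hprod]; simp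
  have hp1 : p - 1 ≠ 0 := by have := hp.out.two_le; omega
  have h4 : |N| = |(c : ℚ)| := by
    have := congrArg abs h3
    rw [abs_pow, abs_pow] at this
    exact (pow_left_inj₀ (abs_nonneg _) (abs_nonneg _) hp1).mp this
  -- transfer to the integral norm
  have h5 : ((Algebra.norm ℤ (aeval (zeta_spec p ℚ K).toInteger g) : ℤ) : ℚ) = N := by
    rw [Algebra.coe_norm_int, hN]
    congr 1
    show algebraMap (𝓞 K) K _ = _
    rw [← aeval_algebraMap_apply]
    rfl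
  have h6 : |((Algebra.norm ℤ (aeval (zeta_spec p ℚ K).toInteger g) : ℤ) : ℚ)| = |(c : ℚ)| := by
    rw [h5, h4]
  rw [← Int.cast_abs, ← Int.cast_abs, Int.cast_inj] at h6
  rw [Int.abs_eq_natAbs, Int.abs_eq_natAbs] at h6
  exact_mod_cast h6


omit hK in
theorem exists_pow_of_pow_orderOf_le {q B L : ℕ} (hq : q.Prime) (hqp : q ≠ p)
    (hL : B < 2 ^ (L + 1)) (h : q ^ orderOf (q : ZMod p) ≤ B) :
    ∃ f ∈ Finset.Icc 1 L, q ^ f ≤ B ∧ q ^ f % p = 1 := by
  have hndvd : ¬ p ∣ q := fun hd =>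
    hqp ((Nat.prime_dvd_prime_iff_eq hp.out hq).mp hd).symm
  have hq0 : (q : ZMod p) ≠ 0 := by
    rwa [Ne, ZMod.natCast_eq_zero_iff]
  have hfin : IsOfFinOrder (q : ZMod p) :=
    isOfFinOrder_iff_pow_eq_one.mpr ⟨p - 1, by have := hp.out.two_le; omega,
      ZMod.pow_card_sub_one_eq_one hq0⟩
  have hfpos : 0 < orderOf (q : ZMod p) := orderOf_pos_iff.mpr hfin
  refine ⟨orderOf (q : ZMod p), Finset.mem_Icc.mpr ⟨hfpos, ?_⟩, h, ?_⟩
  · have h2 : 2 ^ orderOf (q : ZMod p) ≤ q ^ orderOf (q : ZMod p) :=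
      Nat.pow_le_pow_left hq.two_le _
    have h3 : 2 ^ orderOf (q : ZMod p) < 2 ^ (L + 1) := (h2.trans h).trans_lt hL
    have := (Nat.pow_lt_pow_iff_right (le_refl 2)).mp h3
    omega
  · have h1 : ((q ^ orderOf (q : ZMod p) : ℕ) : ZMod p) = ((1 : ℕ) : ZMod p) := by
      push_cast
      exact pow_orderOf_eq_one _
    have h2 := (ZMod.natCast_eq_natCast_iff' _ _ _).mp h1
    rw [h2]
    exact Nat.one_mod_eq_one.mpr hp.out.one_lt.ne'

/-- Reduction of the PID property of `ℤ[ζ_p]` to finitely many primes, decidable form. -/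
theorem pid_of_principal_primes' (B L : ℕ)
    (hB : (4 / π) ^ ((p - 1) / 2) *
      (((p - 1)! : ℝ) / ((p - 1 : ℕ) : ℝ) ^ (p - 1) * √((p : ℝ) ^ (p - 2))) < B + 1)
    (hL : B < 2 ^ (L + 1))
    (h : ∀ q : ℕ, q.Prime → q ≠ p → (∃ f ∈ Finset.Icc 1 L, q ^ f ≤ B ∧ q ^ f % p = 1) →
      ∃ P ∈ primesOver (span {(q : ℤ)}) (𝓞 K), Submodule.IsPrincipal P) :
    IsPrincipalIdealRing (𝓞 K) :=
  pid_of_principal_primes p K B hB fun q _ hq hqp hle =>
    h q hq hqp (exists_pow_of_pow_orderOf_le p hq hqp hL hle)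

open IsCyclotomicExtension in
/-- A principal prime above `q` from an element whose conjugates multiply to `± q ^ f`. -/
theorem exists_principal_prime_of_prod_conj (q : ℕ) [hq : Fact q.Prime] (hqp : q ≠ p)
    (g : ℤ[X]) (c : ℤ) (ks : List ℕ)
    (hks : ∀ k ∈ ks, k.Coprime p) (hlen : ks.length = p - 1)
    (hprod : (ks.map (fun k => aeval ((zeta p ℚ K) ^ k) g)).prod = (c : K))
    (hc : c.natAbs = q ^ orderOf (q : ZMod p)) :
    ∃ P ∈ primesOver (span {(q : ℤ)}) (𝓞 K), Submodule.IsPrincipal P :=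
  exists_principal_prime_of_norm p K q hqp _
    ((natAbs_norm_eq_of_prod_conj p K g c ks hks hlen hprod).trans hc)


end general

end Fermat.Agent.Kummer
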