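import Mathlib

/-!
# Certificates for principal primes in cyclotomic rings of integers (Kummer project, K8 support)
-/

set_option autoImplicit false

namespace Fermat.Agent.Kummer.PIDCert

open NumberField Polynomial Ideal

variable {p : ℕ} [hp : Fact p.Prime] {K : Type*} [Field K] [NumberField K]
  [IsCyclotomicExtension {p} ℚ K] {ζ : K} (hζ : IsPrimitiveRoot ζ p)

/-- The ring hom `𝓞 K → ZMod q` sending `ζ` to a `p`-th root of unity `r` mod `q`. -/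
theorem exists_ringHom_of_root (q : ℕ) (r : ZMod q)
    (hr : ∑ i ∈ Finset.range p, r ^ i = 0) :
    ∃ φ : 𝓞 K →+* ZMod q, φ hζ.toInteger = r := by
  have hmin : minpoly ℤ hζ.integralPowerBasis.gen = cyclotomic p ℤ := by
    rw [hζ.integralPowerBasis_gen, ← RingOfIntegers.minpoly_coe]
    exact (cyclotomic_eq_minpoly hζ hp.out.pos).symm
  have hroot : aeval r (minpoly ℤ hζ.integralPowerBasis.gen) = 0 := by
    rw [hmin, cyclotomic_prime, map_sum]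
    simpa using hr
  refine ⟨(hζ.integralPowerBasis.lift r hroot : 𝓞 K →+* ZMod q), ?_⟩
  have := hζ.integralPowerBasis.lift_gen r hroot
  rw [hζ.integralPowerBasis_gen] at this
  exact this

/-- Every element of `𝓞 K` is a polynomial in `ζ`. -/
theorem exists_aeval_eq (x : 𝓞 K) : ∃ G : ℤ[X], aeval hζ.toInteger G = x := by
  have h : x ∈ Algebra.adjoin ℤ {hζ.toInteger} := by
    rw [IsCyclotomicExtension.Rat.adjoin_singleton_eq_top hζ]
    exact Algebra.mem_top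
  rw [Algebra.adjoin_singleton_eq_range_aeval] at h
  exact h

/-- Certificate for a principal prime of degree one above `q`. -/
theorem exists_principal_of_cert (q : ℕ) [Fact q.Prime] (r : ℤ)
    (hr : (q : ℤ) ∣ ∑ i ∈ Finset.range p, r ^ i)
    (α β γ : 𝓞 K) (hαβ : α * β = (q : 𝓞 K)) (hαγ : α * γ = hζ.toInteger - (r : 𝓞 K))
    (hα : ∃ a : ℤ, (q : ℤ) ∣ a ∧
      ∀ φ : 𝓞 K →+* ZMod q, φ hζ.toInteger = (r : ZMod q) → φ α = (a : ZMod q)) :
    ∃ P ∈ primesOver (span {(q : ℤ)}) (𝓞 K), Submodule.IsPrincipal P := by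
  have hr' : ∑ i ∈ Finset.range p, (r : ZMod q) ^ i = 0 := by
    have := (ZMod.intCast_zmod_eq_zero_iff_dvd _ _).mpr hr
    push_cast at this
    exact this
  obtain ⟨φ, hφ⟩ := exists_ringHom_of_root hζ q (r : ZMod q) hr'
  have hcomp : φ.comp (algebraMap ℤ (𝓞 K)) = Int.castRingHom (ZMod q) := RingHom.ext_int _ _
  have hker : RingHom.ker φ = span {α} := by
    apply le_antisymm
    · intro x hx
      rw [RingHom.mem_ker] at hx
      obtain ⟨G, rfl⟩ := exists_aeval_eq hζ x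
      -- `φ (G(ζ)) = G(r)`
      have h1 : φ (aeval hζ.toInteger G) = ((G.eval r : ℤ) : ZMod q) := by
        rw [aeval_def, hom_eval₂, hcomp, hφ]
        have := eval₂_at_apply (Int.castRingHom (ZMod q)) r (p := G)
        simpa only [eq_intCast] using this
      rw [hx] at h1
      obtain ⟨k, hk⟩ := (ZMod.intCast_zmod_eq_zero_iff_dvd _ _).mp h1.symm
      -- `G(ζ) - G(r)` is a multiple of `ζ - r`
      have h2 : hζ.toInteger - (r : 𝓞 K) ∣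
          aeval hζ.toInteger G - ((G.eval r : ℤ) : 𝓞 K) := by
        have := sub_dvd_eval_sub hζ.toInteger (r : 𝓞 K) (G.map (algebraMap ℤ (𝓞 K)))
        rwa [eval_map_algebraMap, algebraMap_int_eq, eval_intCast_map, eq_intCast] at this
      have h3 : aeval hζ.toInteger G =
          (aeval hζ.toInteger G - ((G.eval r : ℤ) : 𝓞 K)) + ((G.eval r : ℤ) : 𝓞 K) := by ring
      rw [h3]
      refine Ideal.add_mem _ ?_ ?_
      · obtain ⟨c, hc⟩ := h2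
        rw [hc, ← hαγ, mul_assoc]
        exact Ideal.mul_mem_right _ _ (Ideal.mem_span_singleton_self α)
      · rw [hk]
        push_cast
        rw [← hαβ, mul_assoc]
        exact Ideal.mul_mem_right _ _ (Ideal.mem_span_singleton_self α)
    · rw [span_singleton_le_iff_mem, RingHom.mem_ker]
      obtain ⟨a, ha, hφa⟩ := hα
      rw [hφa φ hφ]
      exact (ZMod.intCast_zmod_eq_zero_iff_dvd _ _).mpr ha
  refine ⟨RingHom.ker φ, ⟨RingHom.ker_isPrime φ, ⟨?_⟩⟩, hker ▸ ⟨⟨α, rfl⟩⟩⟩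
  -- lies over `q`
  change span {(q : ℤ)} = Ideal.comap (algebraMap ℤ (𝓞 K)) (RingHom.ker φ)
  rw [RingHom.comap_ker, hcomp, ZMod.ker_intCastRingHom]

theorem principal_11_23 (K : Type*) [Field K] [NumberField K]
    [IsCyclotomicExtension {11} ℚ K] :
    ∃ P ∈ primesOver (span {((23 : ℕ) : ℤ)}) (𝓞 K), Submodule.IsPrincipal P := by
  have : Fact (Nat.Prime 11) := ⟨by norm_num⟩
  have : Fact (Nat.Prime 23) := ⟨by norm_num⟩
  have hζ := IsCyclotomicExtension.zeta_spec 11 ℚ K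
  obtain ⟨z, hz⟩ : ∃ z, z = hζ.toInteger := ⟨_, rfl⟩
  have hΦ : 1 + z + z ^ 2 + z ^ 3 + z ^ 4 + z ^ 5 + z ^ 6 + z ^ 7 + z ^ 8 + z ^ 9 + z ^ 10 = 0 := by
    have := hζ.toInteger_isPrimitiveRoot.geom_sum_eq_zero (by norm_num : 1 < 11)
    rw [← hz] at this
    simpa [Finset.sum_range_succ] using this
  refine exists_principal_of_cert hζ 23 4 (by norm_num [Finset.sum_range_succ])
    (1 + z + z ^ 3)
    (-2 - 14 * z - 17 * z ^ 2 - 12 * z ^ 3 - 5 * z ^ 4 - 9 * z ^ 5 - 10 * z ^ 6 - 16 * z ^ 7 - 6 * z ^ 8 - 15 * z ^ 9)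
    (1 + 3 * z + 3 * z ^ 2 + 2 * z ^ 3 + z ^ 4 + 2 * z ^ 5 + 2 * z ^ 6 + 3 * z ^ 7 + z ^ 8 + 3 * z ^ 9) ?_ ?_ ?_
  · push_cast
    linear_combination (-25 + 9 * z - 15 * z ^ 2) * hΦ
  · rw [← hz]
    push_cast
    linear_combination (5 - 2 * z + 3 * z ^ 2) * hΦ
  · refine ⟨1 + (4 : ℤ) + (4 : ℤ) ^ 3, by norm_num, fun φ hφ => ?_⟩
    rw [← hz] at hφ
    simp only [map_add, map_sub, map_mul, map_pow, map_one, map_neg, hφ]
    push_cast
    ring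

theorem principal_13_53 (K : Type*) [Field K] [NumberField K]
    [IsCyclotomicExtension {13} ℚ K] :
    ∃ P ∈ primesOver (span {((53 : ℕ) : ℤ)}) (𝓞 K), Submodule.IsPrincipal P := by
  have : Fact (Nat.Prime 13) := ⟨by norm_num⟩
  have : Fact (Nat.Prime 53) := ⟨by norm_num⟩
  have hζ := IsCyclotomicExtension.zeta_spec 13 ℚ K
  obtain ⟨z, hz⟩ : ∃ z, z = hζ.toInteger := ⟨_, rfl⟩
  have hΦ : 1 + z + z ^ 2 + z ^ 3 + z ^ 4 + z ^ 5 + z ^ 6 + z ^ 7 + z ^ 8 + z ^ 9 + z ^ 10 + z ^ 11 + z ^ 12 = 0 := by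
    have := hζ.toInteger_isPrimitiveRoot.geom_sum_eq_zero (by norm_num : 1 < 13)
    rw [← hz] at this
    simpa [Finset.sum_range_succ] using this
  refine exists_principal_of_cert hζ 53 36 (by norm_num [Finset.sum_range_succ])
    (1 + z + z ^ 3)
    (1 - 24 * z - 35 * z ^ 2 - 25 * z ^ 3 - 10 * z ^ 4 - 14 * z ^ 5 - 20 * z ^ 6 - 29 * z ^ 7 - 16 * z ^ 8 - 23 * z ^ 9 - 7 * z ^ 10 - 36 * z ^ 11)
    (17 * z + 24 * z ^ 2 + 17 * z ^ 3 + 7 * z ^ 4 + 10 * z ^ 5 + 14 * z ^ 6 + 20 * z ^ 7 + 11 * z ^ 8 + 16 * z ^ 9 + 5 * z ^ 10 + 25 * z ^ 11) ?_ ?_ ?_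
  · push_cast
    linear_combination (-52 + 29 * z - 36 * z ^ 2) * hΦ
  · rw [← hz]
    push_cast
    linear_combination (36 - 20 * z + 25 * z ^ 2) * hΦ
  · refine ⟨1 + (36 : ℤ) + (36 : ℤ) ^ 3, by norm_num, fun φ hφ => ?_⟩
    rw [← hz] at hφ
    simp only [map_add, map_sub, map_mul, map_pow, map_one, map_neg, hφ]
    push_cast
    ring

theorem principal_13_79 (K : Type*) [Field K] [NumberField K]
    [IsCyclotomicExtension {13} ℚ K] :
    ∃ P ∈ primesOver (span {((79 : ℕ) : ℤ)}) (𝓞 K), Submodule.IsPrincipal P := by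
  have : Fact (Nat.Prime 13) := ⟨by norm_num⟩
  have : Fact (Nat.Prime 79) := ⟨by norm_num⟩
  have hζ := IsCyclotomicExtension.zeta_spec 13 ℚ K
  obtain ⟨z, hz⟩ : ∃ z, z = hζ.toInteger := ⟨_, rfl⟩
  have hΦ : 1 + z + z ^ 2 + z ^ 3 + z ^ 4 + z ^ 5 + z ^ 6 + z ^ 7 + z ^ 8 + z ^ 9 + z ^ 10 + z ^ 11 + z ^ 12 = 0 := by
    have := hζ.toInteger_isPrimitiveRoot.geom_sum_eq_zero (by norm_num : 1 < 13)
    rw [← hz] at this
    simpa [Finset.sum_range_succ] using this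
  refine exists_principal_of_cert hζ 79 64 (by norm_num [Finset.sum_range_succ])
    (1 + z - z ^ 4)
    (24 - 25 * z - 27 * z ^ 2 + 10 * z ^ 3 - 3 * z ^ 4 - 39 * z ^ 5 - 5 * z ^ 6 - 2 * z ^ 7 - 18 * z ^ 8 - 38 * z ^ 9 + 16 * z ^ 10 - 35 * z ^ 11)
    (-19 + 21 * z + 22 * z ^ 2 - 8 * z ^ 3 + 3 * z ^ 4 + 32 * z ^ 5 + 4 * z ^ 6 + 2 * z ^ 7 + 15 * z ^ 8 + 31 * z ^ 9 - 13 * z ^ 10 + 29 * z ^ 11) ?_ ?_ ?_
  · push_cast
    linear_combination (-55 + 54 * z - 51 * z ^ 2 + 35 * z ^ 3) * hΦ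
  · rw [← hz]
    push_cast
    linear_combination (45 - 44 * z + 42 * z ^ 2 - 29 * z ^ 3) * hΦ
  · refine ⟨1 + (64 : ℤ) - (64 : ℤ) ^ 4, by norm_num, fun φ hφ => ?_⟩
    rw [← hz] at hφ
    simp only [map_add, map_sub, map_mul, map_pow, map_one, map_neg, hφ]
    push_cast
    ring

theorem principal_13_131 (K : Type*) [Field K] [NumberField K]
    [IsCyclotomicExtension {13} ℚ K] :
    ∃ P ∈ primesOver (span {((131 : ℕ) : ℤ)}) (𝓞 K), Submodule.IsPrincipal P := by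
  have : Fact (Nat.Prime 13) := ⟨by norm_num⟩
  have : Fact (Nat.Prime 131) := ⟨by norm_num⟩
  have hζ := IsCyclotomicExtension.zeta_spec 13 ℚ K
  obtain ⟨z, hz⟩ : ∃ z, z = hζ.toInteger := ⟨_, rfl⟩
  have hΦ : 1 + z + z ^ 2 + z ^ 3 + z ^ 4 + z ^ 5 + z ^ 6 + z ^ 7 + z ^ 8 + z ^ 9 + z ^ 10 + z ^ 11 + z ^ 12 = 0 := by
    have := hζ.toInteger_isPrimitiveRoot.geom_sum_eq_zero (by norm_num : 1 < 13)
    rw [← hz] at this
    simpa [Finset.sum_range_succ] using this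
  refine exists_principal_of_cert hζ 131 80 (by norm_num [Finset.sum_range_succ])
    (-1 + z + z ^ 3)
    (-111 - 78 * z - 17 * z ^ 2 - 67 * z ^ 3 - 84 * z ^ 4 - 40 * z ^ 5 - 46 * z ^ 6 - 69 * z ^ 7 - 48 * z ^ 8 - 33 * z ^ 9 - 41 * z ^ 10 - 28 * z ^ 11)
    (68 + 47 * z + 10 * z ^ 2 + 41 * z ^ 3 + 51 * z ^ 4 + 24 * z ^ 5 + 28 * z ^ 6 + 42 * z ^ 7 + 29 * z ^ 8 + 20 * z ^ 9 + 25 * z ^ 10 + 17 * z ^ 11) ?_ ?_ ?_
  · push_cast
    linear_combination (-20 - 13 * z - 28 * z ^ 2) * hΦ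
  · rw [← hz]
    push_cast
    linear_combination (12 + 8 * z + 17 * z ^ 2) * hΦ
  · refine ⟨-1 + (80 : ℤ) + (80 : ℤ) ^ 3, by norm_num, fun φ hφ => ?_⟩
    rw [← hz] at hφ
    simp only [map_add, map_sub, map_mul, map_pow, map_one, map_neg, hφ]
    push_cast
    ring

theorem principal_13_157 (K : Type*) [Field K] [NumberField K]
    [IsCyclotomicExtension {13} ℚ K] :
    ∃ P ∈ primesOver (span {((157 : ℕ) : ℤ)}) (𝓞 K), Submodule.IsPrincipal P := by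
  have : Fact (Nat.Prime 13) := ⟨by norm_num⟩
  have : Fact (Nat.Prime 157) := ⟨by norm_num⟩
  have hζ := IsCyclotomicExtension.zeta_spec 13 ℚ K
  obtain ⟨z, hz⟩ : ∃ z, z = hζ.toInteger := ⟨_, rfl⟩
  have hΦ : 1 + z + z ^ 2 + z ^ 3 + z ^ 4 + z ^ 5 + z ^ 6 + z ^ 7 + z ^ 8 + z ^ 9 + z ^ 10 + z ^ 11 + z ^ 12 = 0 := by
    have := hζ.toInteger_isPrimitiveRoot.geom_sum_eq_zero (by norm_num : 1 < 13)
    rw [← hz] at this
    simpa [Finset.sum_range_succ] using this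
  refine exists_principal_of_cert hζ 157 75 (by norm_num [Finset.sum_range_succ])
    (-1 + z - z ^ 2 - z ^ 4)
    (-89 - 86 * z - 42 * z ^ 2 - 77 * z ^ 3 - 67 * z ^ 4 - 25 * z ^ 5 - 37 * z ^ 6 - 56 * z ^ 7 - 73 * z ^ 8 - 113 * z ^ 9 - 124 * z ^ 10 - 76 * z ^ 11)
    (43 + 41 * z + 20 * z ^ 2 + 37 * z ^ 3 + 32 * z ^ 4 + 12 * z ^ 5 + 18 * z ^ 6 + 27 * z ^ 7 + 35 * z ^ 8 + 54 * z ^ 9 + 59 * z ^ 10 + 36 * z ^ 11) ?_ ?_ ?_
  · push_cast
    linear_combination (-68 + 65 * z + 48 * z ^ 2 + 76 * z ^ 3) * hΦ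
  · rw [← hz]
    push_cast
    linear_combination (32 - 31 * z - 23 * z ^ 2 - 36 * z ^ 3) * hΦ
  · refine ⟨-1 + (75 : ℤ) - (75 : ℤ) ^ 2 - (75 : ℤ) ^ 4, by norm_num, fun φ hφ => ?_⟩
    rw [← hz] at hφ
    simp only [map_add, map_sub, map_mul, map_pow, map_one, map_neg, hφ]
    push_cast
    ring


end Fermat.Agent.Kummer.PIDCert
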