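import Fermat.Agent.Kummer.PIDCert

/-!
# Certificates for principal primes of higher residue degree (Kummer project, K8 support)
-/

set_option autoImplicit false

namespace Fermat.Agent.Kummer.PIDCert

open NumberField Polynomial Ideal

variable {p : ℕ} [hp : Fact p.Prime] {K : Type*} [Field K] [NumberField K]
  [IsCyclotomicExtension {p} ℚ K] {ζ : K} (hζ : IsPrimitiveRoot ζ p)

/-- Certificate for a principal prime above `q` whose residue field is `𝔽_q[X]/(g)`. -/
theorem exists_principal_of_cert_deg (q : ℕ) [Fact q.Prime] (g : ℤ[X]) (hg : g.Monic)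
    (hirr : Irreducible (g.map (Int.castRingHom (ZMod q))))
    (hdvd : ∃ H S : ℤ[X], cyclotomic p ℤ = g * H + (q : ℤ[X]) * S)
    (α β γ : 𝓞 K) (hαβ : α * β = (q : 𝓞 K)) (hαγ : α * γ = aeval hζ.toInteger g)
    (hα : ∃ u v : 𝓞 K, α = (q : 𝓞 K) * u + aeval hζ.toInteger g * v) :
    ∃ P ∈ primesOver (span {(q : ℤ)}) (𝓞 K), Submodule.IsPrincipal P := by
  have : Fact (Irreducible (g.map (Int.castRingHom (ZMod q)))) := ⟨hirr⟩
  set gbar := g.map (Int.castRingHom (ZMod q)) with hgbar
  let F := AdjoinRoot gbar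
  -- `F` has characteristic `q`
  have hchar : CharP F q :=
    charP_of_injective_algebraMap (algebraMap (ZMod q) F).injective q
  have hqF : ((q : ℤ) : F) = 0 := by
    have := CharP.cast_eq_zero F q
    exact_mod_cast this
  -- evaluation of integer polynomials at the root
  have heval : ∀ G : ℤ[X], aeval (AdjoinRoot.root gbar) G =
      AdjoinRoot.mk gbar (G.map (Int.castRingHom (ZMod q))) := by
    intro G
    rw [← AdjoinRoot.aeval_eq, ← algebraMap_int_eq, aeval_map_algebraMap]
  have hgroot : aeval (AdjoinRoot.root gbar) g = 0 := by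
    rw [heval, AdjoinRoot.mk_self]
  have hmin : minpoly ℤ hζ.integralPowerBasis.gen = cyclotomic p ℤ := by
    rw [hζ.integralPowerBasis_gen, ← RingOfIntegers.minpoly_coe]
    exact (cyclotomic_eq_minpoly hζ hp.out.pos).symm
  have hroot : aeval (AdjoinRoot.root gbar) (minpoly ℤ hζ.integralPowerBasis.gen) = 0 := by
    obtain ⟨H, S, hHS⟩ := hdvd
    rw [hmin, hHS, map_add, map_mul, map_mul, hgroot, zero_mul, zero_add, map_natCast]
    have : ((q : ℕ) : F) = 0 := CharP.cast_eq_zero F q
    rw [this, zero_mul]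
  let φ : 𝓞 K →ₐ[ℤ] F := hζ.integralPowerBasis.lift (AdjoinRoot.root gbar) hroot
  have hφ : φ hζ.toInteger = AdjoinRoot.root gbar := by
    have := hζ.integralPowerBasis.lift_gen (AdjoinRoot.root gbar) hroot
    rw [hζ.integralPowerBasis_gen] at this
    exact this
  have hφG : ∀ G : ℤ[X], φ (aeval hζ.toInteger G) = aeval (AdjoinRoot.root gbar) G := by
    intro G
    rw [← aeval_algHom_apply, hφ]
  have hφg : φ (aeval hζ.toInteger g) = 0 := by rw [hφG, hgroot]
  have hφq : φ (q : 𝓞 K) = 0 := by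
    rw [map_natCast]
    exact CharP.cast_eq_zero F q
  have hker : RingHom.ker (φ : 𝓞 K →+* F) = span {α} := by
    apply le_antisymm
    · intro x hx
      rw [RingHom.mem_ker] at hx
      obtain ⟨G, rfl⟩ := exists_aeval_eq hζ x
      -- divide `G` by `g`
      have hdiv := modByMonic_add_div G g
      set R := G %ₘ g with hR
      set Q := G /ₘ g with hQ
      have hxR : φ (aeval hζ.toInteger R) = 0 := by
        have : aeval hζ.toInteger G = aeval hζ.toInteger R +
            aeval hζ.toInteger g * aeval hζ.toInteger Q := by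
          rw [← map_mul, ← map_add, hdiv]
        have h2 : φ (aeval hζ.toInteger G) = 0 := hx
        rw [this, map_add, map_mul, hφg, zero_mul, add_zero] at h2
        exact h2
      -- the reduction of `R` vanishes
      have hRbar : R.map (Int.castRingHom (ZMod q)) = 0 := by
        rw [hφG, heval, AdjoinRoot.mk_eq_zero] at hxR
        apply eq_zero_of_dvd_of_degree_lt hxR
        calc (R.map (Int.castRingHom (ZMod q))).degree ≤ R.degree := degree_map_le
          _ < g.degree := degree_modByMonic_lt G hg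
          _ = gbar.degree := (hg.degree_map _).symm
      have hRdvd : C (q : ℤ) ∣ R := by
        rw [C_dvd_iff_dvd_coeff]
        intro i
        have := congrArg (fun P => P.coeff i) hRbar
        simp only [coeff_map, coeff_zero, eq_intCast] at this
        exact (ZMod.intCast_zmod_eq_zero_iff_dvd _ _).mp this
      obtain ⟨R', hR'⟩ := hRdvd
      have hG : aeval hζ.toInteger G = (q : 𝓞 K) * aeval hζ.toInteger R' +
          aeval hζ.toInteger g * aeval hζ.toInteger Q := by
        rw [← hdiv, map_add, map_mul, hR', map_mul, aeval_C]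
        simp
      rw [hG]
      refine Ideal.add_mem _ ?_ ?_
      · rw [← hαβ, mul_assoc]
        exact Ideal.mul_mem_right _ _ (Ideal.mem_span_singleton_self α)
      · rw [← hαγ, mul_assoc]
        exact Ideal.mul_mem_right _ _ (Ideal.mem_span_singleton_self α)
    · rw [span_singleton_le_iff_mem, RingHom.mem_ker]
      obtain ⟨u, v, huv⟩ := hα
      change φ α = 0
      rw [huv, map_add, map_mul, map_mul, hφq, hφg, zero_mul, zero_mul, add_zero]
  refine ⟨RingHom.ker (φ : 𝓞 K →+* F), ⟨RingHom.ker_isPrime _, ⟨?_⟩⟩, hker ▸ ⟨⟨α, rfl⟩⟩⟩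
  -- lies over `q`
  change span {(q : ℤ)} = Ideal.comap (algebraMap ℤ (𝓞 K)) (RingHom.ker (φ : 𝓞 K →+* F))
  have hcomp : (φ : 𝓞 K →+* F).comp (algebraMap ℤ (𝓞 K)) = algebraMap ℤ F := RingHom.ext_int _ _
  rw [RingHom.comap_ker, hcomp]
  ext a
  rw [RingHom.mem_ker, Ideal.mem_span_singleton, eq_intCast, CharP.intCast_eq_zero_iff F q]

/-- The prime of `ℤ[ζ₁₃]` above `3` generated by `1 + ζ - ζ³` (residue degree `3`). -/
theorem principal_13_3 (K : Type*) [Field K] [NumberField K]
    [IsCyclotomicExtension {13} ℚ K] :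
    ∃ P ∈ primesOver (span {((3 : ℕ) : ℤ)}) (𝓞 K), Submodule.IsPrincipal P := by
  have : Fact (Nat.Prime 13) := ⟨by norm_num⟩
  have hζ := IsCyclotomicExtension.zeta_spec 13 ℚ K
  obtain ⟨z, hz⟩ : ∃ z, z = hζ.toInteger := ⟨_, rfl⟩
  have hΦ : 1 + z + z ^ 2 + z ^ 3 + z ^ 4 + z ^ 5 + z ^ 6 + z ^ 7 + z ^ 8 + z ^ 9 + z ^ 10 +
      z ^ 11 + z ^ 12 = 0 := by
    have := hζ.toInteger_isPrimitiveRoot.geom_sum_eq_zero (by norm_num : 1 < 13)
    rw [← hz] at this
    simpa [Finset.sum_range_succ] using this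
  have hg : (X ^ (2 + 1) - (X + 1) : ℤ[X]).Monic := by
    apply monic_X_pow_sub
    compute_degree
    norm_num
  have hgmap : (X ^ (2 + 1) - (X + 1) : ℤ[X]).map (Int.castRingHom (ZMod 3)) =
      X ^ 3 - (X + 1) := by
    simp
  have hgz : aeval hζ.toInteger (X ^ (2 + 1) - (X + 1) : ℤ[X]) = z ^ 3 - (z + 1) := by
    rw [← hz]
    simp
  refine exists_principal_of_cert_deg hζ 3 (X ^ (2 + 1) - (X + 1)) hg ?_ ?_
    (1 + z - z ^ 3)
    (-1 - z ^ 2 - z ^ 3 - 2 * z ^ 5 - z ^ 7 - 2 * z ^ 8 + z ^ 9 - 3 * z ^ 10)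
    (-1) ?_ ?_ ?_
  · rw [hgmap]
    apply irreducible_of_degree_le_three_of_not_isRoot
    · have h1 : (X + 1 : (ZMod 3)[X]).natDegree ≤ 1 := by compute_degree
      have : (X ^ 3 - (X + 1) : (ZMod 3)[X]).natDegree = 3 := by
        rw [natDegree_sub_eq_left_of_natDegree_lt] <;> simp only [natDegree_X_pow]
        omega
      rw [this]
      decide
    · intro x
      rw [IsRoot.def]
      simp only [eval_sub, eval_pow, eval_X, eval_add, eval_one]
      revert x
      decide
  · refine ⟨20 + 15 * X + 11 * X ^ 2 + 8 * X ^ 3 + 6 * X ^ 4 + 4 * X ^ 5 + 3 * X ^ 6 + 2 * X ^ 7 +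
      X ^ 8 + X ^ 9, 7 + 12 * X + 9 * X ^ 2, ?_⟩
    rw [cyclotomic_prime]
    simp only [Finset.sum_range_succ, Finset.sum_range_zero]
    push_cast
    ring
  · push_cast
    linear_combination (-4 + 3 * z) * hΦ
  · rw [hgz]
    ring
  · refine ⟨0, -1, ?_⟩
    rw [hgz]
    ring

end Fermat.Agent.Kummer.PIDCert
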