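import Fermat.Agent.Kummer.PIDCertDeg

/-!
# `ℤ[ζ₁₃]` is a principal ideal domain (Kummer project, K8)
-/

set_option autoImplicit false

namespace Fermat.Agent.Kummer.PIDCert

open NumberField Ideal Nat Real Module InfinitePlace IsCyclotomicExtension.Rat

/-- The Minkowski bound of `ℚ(ζ₁₃)` is less than `313`. -/
theorem floor_minkowski_13 (K : Type*) [Field K] [NumberField K]
    [IsCyclotomicExtension {13} ℚ K] :
    ⌊(4 / π) ^ nrComplexPlaces K *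
      ((finrank ℚ K)! / (finrank ℚ K) ^ (finrank ℚ K) * √|discr K|)⌋₊ ≤ 312 := by
  have : Fact (Nat.Prime 13) := ⟨by norm_num⟩
  rw [discr_prime 13 K, IsCyclotomicExtension.finrank (n := 13) K
    (Polynomial.cyclotomic.irreducible_rat (by simp)), nrComplexPlaces_eq_totient_div_two 13,
    totient_prime (by norm_num : Nat.Prime 13)]
  have hdisc : |(((-1 : ℤ) ^ ((13 - 1) / 2) * ((13 : ℕ) : ℤ) ^ (13 - 2) : ℤ) : ℝ)| = 13 ^ 11 := by
    norm_num
  rw [hdisc]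
  have hsqrt : √((13 : ℝ) ^ 11) ≤ 13 ^ 5 * 3.606 := by
    rw [Real.sqrt_le_iff]
    constructor
    · positivity
    · norm_num
  have hπ : (4 / π) ^ 6 ≤ (4 / 3.14) ^ 6 := by
    apply pow_le_pow_left₀ (by positivity)
    apply div_le_div_of_nonneg_left (by norm_num) (by norm_num) pi_gt_d2.le
  have h6 : ((13 - 1) / 2 : ℕ) = 6 := by norm_num
  have h12 : (13 - 1 : ℕ) = 12 := by norm_num
  rw [h6, h12]
  have hlt : ⌊(4 / π) ^ 6 *
      (((12 ! : ℕ) : ℝ) / ((12 : ℕ) : ℝ) ^ 12 * √((13 : ℝ) ^ 11))⌋₊ < 313 := by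
    rw [Nat.floor_lt (by positivity)]
    have h1 : (4 / π) ^ 6 * (((12 ! : ℕ) : ℝ) / ((12 : ℕ) : ℝ) ^ 12 * √((13 : ℝ) ^ 11))
        ≤ (4 / 3.14) ^ 6 * (((12 ! : ℕ) : ℝ) / ((12 : ℕ) : ℝ) ^ 12 * (13 ^ 5 * 3.606)) := by
      gcongr
    have h2 : (4 / 3.14 : ℝ) ^ 6 * (((12 ! : ℕ) : ℝ) / ((12 : ℕ) : ℝ) ^ 12 * (13 ^ 5 * 3.606)) <
        ((313 : ℕ) : ℝ) := by
      norm_num [Nat.factorial]
    exact lt_of_le_of_lt h1 h2
  omega

set_option maxRecDepth 1000000 in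
/-- Prime powers `q ^ f ≤ 312` congruent to `1` mod `13`. -/
theorem key13_aux : ∀ q < 313, ∀ f < 13, (0 < f ∧ q ^ f ≤ 312 ∧ q ^ f % 13 = 1 ∧ q.Prime) →
    (q = 3 ∨ q = 53 ∨ q = 79 ∨ q = 131 ∨ q = 157) := by
  decide

/-- For the primes `q ≤ 312` not in the exceptional list, `q ^ f > 312`. -/
theorem key13 (q : ℕ) (hq : q.Prime) (hq312 : q ≤ 312) (h13 : q ≠ 13)
    (hlist : ¬ (q = 3 ∨ q = 53 ∨ q = 79 ∨ q = 131 ∨ q = 157)) :
    312 < q ^ orderOf (q : ZMod 13) := by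
  have : Fact (Nat.Prime 13) := ⟨by norm_num⟩
  have hq0 : (q : ZMod 13) ≠ 0 := by
    rw [Ne, ZMod.natCast_eq_zero_iff]
    intro h
    exact h13 ((Nat.prime_dvd_prime_iff_eq (by norm_num) hq).mp h).symm
  have h12 : (q : ZMod 13) ^ 12 = 1 := ZMod.pow_card_sub_one_eq_one hq0
  have hdvd : orderOf (q : ZMod 13) ∣ 12 := orderOf_dvd_of_pow_eq_one h12
  have hpos : 0 < orderOf (q : ZMod 13) := Nat.pos_of_dvd_of_pos hdvd (by norm_num)
  have hle : orderOf (q : ZMod 13) ≤ 12 := Nat.le_of_dvd (by norm_num) hdvd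
  have h1 : (q : ZMod 13) ^ orderOf (q : ZMod 13) = 1 := pow_orderOf_eq_one _
  have hmod : q ^ orderOf (q : ZMod 13) % 13 = 1 := by
    have h2 : ((q ^ orderOf (q : ZMod 13) : ℕ) : ZMod 13) = ((1 : ℕ) : ZMod 13) := by
      push_cast
      exact h1
    have := (ZMod.natCast_eq_natCast_iff' _ _ _).mp h2
    simpa using this
  by_contra hcon
  push Not at hcon
  exact hlist (key13_aux q (by omega) _ (by omega) ⟨hpos, hcon, hmod, hq⟩)

/-- `ℤ[ζ₁₃]` is a principal ideal domain. -/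
theorem thirteen_pid (K : Type*) [Field K] [NumberField K] [IsCyclotomicExtension {13} ℚ K] :
    IsPrincipalIdealRing (𝓞 K) := by
  have : Fact (Nat.Prime 13) := ⟨by norm_num⟩
  have : IsGalois ℚ K := IsCyclotomicExtension.isGalois {13} ℚ K
  apply RingOfIntegers.isPrincipalIdealRing_of_isPrincipal_of_lt_or_isPrincipal_of_mem_primesOver_of_mem_Icc
  intro q hq hqp
  have hM := floor_minkowski_13 K
  have hq312 : q ≤ 312 := (Finset.mem_Icc.mp hq).2.trans hM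
  have : Fact q.Prime := ⟨hqp⟩
  by_cases h13 : q = 13
  · subst h13
    obtain ⟨⟨P, hP1, hP2⟩⟩ := (span {((13 : ℕ) : ℤ)}).nonempty_primesOver (S := 𝓞 K)
    refine ⟨P, ⟨hP1, hP2⟩, Or.inr ?_⟩
    rw [eq_span_zeta_sub_one_of_liesOver' 13 K (IsCyclotomicExtension.zeta_spec 13 ℚ K) P]
    exact ⟨⟨_, rfl⟩⟩
  by_cases hlist : q = 3 ∨ q = 53 ∨ q = 79 ∨ q = 131 ∨ q = 157
  · rcases hlist with rfl | rfl | rfl | rfl | rfl
    · obtain ⟨P, hP, hprin⟩ := principal_13_3 K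
      exact ⟨P, hP, Or.inr hprin⟩
    · obtain ⟨P, hP, hprin⟩ := principal_13_53 K
      exact ⟨P, hP, Or.inr hprin⟩
    · obtain ⟨P, hP, hprin⟩ := principal_13_79 K
      exact ⟨P, hP, Or.inr hprin⟩
    · obtain ⟨P, hP, hprin⟩ := principal_13_131 K
      exact ⟨P, hP, Or.inr hprin⟩
    · obtain ⟨P, hP, hprin⟩ := principal_13_157 K
      exact ⟨P, hP, Or.inr hprin⟩
  · have : (span {(q : ℤ)}).IsPrime := by
      rw [span_singleton_prime (by exact_mod_cast hqp.ne_zero)]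
      exact Nat.prime_iff_prime_int.mp hqp
    obtain ⟨⟨P, hP1, hP2⟩⟩ := (span {(q : ℤ)}).nonempty_primesOver (S := 𝓞 K)
    refine ⟨P, ⟨hP1, hP2⟩, Or.inl ?_⟩
    have hndvd : ¬ q ∣ 13 := by
      intro h
      exact h13 ((Nat.prime_dvd_prime_iff_eq hqp (by norm_num)).mp h)
    rw [inertiaDeg_eq_of_not_dvd q K P hndvd]
    exact lt_of_le_of_lt hM (key13 q hqp hq312 h13 hlist)

end Fermat.Agent.Kummer.PIDCert
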