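import Mathlib

/-! K3a of the Kummer project: a unit of `ℤ[ζ_p]` congruent to a rational integer modulo `p` has
`u ^ (p - 1) ≡ 1 mod (ζ - 1) ^ p`. -/

set_option autoImplicit false
set_option linter.unusedSectionVars false

namespace Fermat.Agent.Kummer

open NumberField

section generic

variable {R : Type*} [CommRing R]

/-- expansion of a product `∏ (1 + c * a i)` up to second order in `c`. -/
lemma prim_prod_one_add {ι : Type*} (s : Finset ι) (c : R) (a : ι → R) :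
    ∃ d : R, ∏ i ∈ s, (1 + c * a i) = 1 + c * ∑ i ∈ s, a i + c ^ 2 * d := by
  classical
  induction s using Finset.induction_on with
  | empty => exact ⟨0, by simp⟩
  | insert i s hi ih =>
    obtain ⟨d, hd⟩ := ih
    refine ⟨d + a i * ∑ j ∈ s, a j + c * a i * d, ?_⟩
    rw [Finset.prod_insert hi, Finset.sum_insert hi, hd]
    ring

end generic

section cyclo

variable {p : ℕ} [hp : Fact p.Prime] {K : Type} [Field K] [NumberField K]
  [IsCyclotomicExtension {p} ℚ K] {ζ : K} (hζ : IsPrimitiveRoot ζ p)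

/-- the Galois group acts on the ring of integers. -/
noncomputable abbrev prim_gal (σ : K ≃ₐ[ℚ] K) : 𝓞 K ≃ₐ[ℤ] 𝓞 K := galRestrict ℤ ℚ K (𝓞 K) σ

omit hp [IsCyclotomicExtension {p} ℚ K] in
lemma prim_coe_gal (σ : K ≃ₐ[ℚ] K) (x : 𝓞 K) : ((prim_gal σ x : 𝓞 K) : K) = σ (x : K) :=
  algebraMap_galRestrict_apply ℤ σ x

include hζ in
/-- every element of `𝓞 K` is congruent to a rational integer modulo `ζ - 1`. -/
lemma prim_exists_int_sub_dvd (y : 𝓞 K) : ∃ a : ℤ, (hζ.toInteger - 1) ∣ y - (a : 𝓞 K) := by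
  have htop : Algebra.adjoin ℤ {hζ.toInteger} = ⊤ := by
    have := hζ.integralPowerBasis.adjoin_gen_eq_top
    rwa [hζ.integralPowerBasis_gen] at this
  have hy : y ∈ Algebra.adjoin ℤ {hζ.toInteger} := by rw [htop]; trivial
  induction hy using Algebra.adjoin_induction with
  | mem x hx =>
    rw [Set.mem_singleton_iff] at hx
    exact ⟨1, by rw [hx]; simp⟩
  | algebraMap r => exact ⟨r, by simp⟩
  | add x y _ _ hx hy =>
    obtain ⟨a, ha⟩ := hx
    obtain ⟨b, hb⟩ := hy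
    refine ⟨a + b, ?_⟩
    have : x + y - ((a + b : ℤ) : 𝓞 K) = (x - a) + (y - b) := by push_cast; ring
    rw [this]
    exact dvd_add ha hb
  | mul x y _ _ hx hy =>
    obtain ⟨a, ha⟩ := hx
    obtain ⟨b, hb⟩ := hy
    refine ⟨a * b, ?_⟩
    have : x * y - ((a * b : ℤ) : 𝓞 K) = x * (y - b) + b * (x - a) := by push_cast; ring
    rw [this]
    exact dvd_add (Dvd.dvd.mul_left hb _) (Dvd.dvd.mul_left ha _)

include hζ in
/-- `ζ - 1` divides its Galois conjugates. -/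
lemma prim_dvd_gal (σ : K ≃ₐ[ℚ] K) : (hζ.toInteger - 1) ∣ prim_gal σ (hζ.toInteger - 1) := by
  have hp0 : 0 < p := hp.out.pos
  have h1 : (prim_gal σ hζ.toInteger) ^ p = 1 := by
    rw [← map_pow, hζ.toInteger_isPrimitiveRoot.pow_eq_one, map_one]
  obtain ⟨i, -, hi⟩ := hζ.toInteger_isPrimitiveRoot.eq_pow_of_pow_eq_one h1
  rw [map_sub, map_one, ← hi]
  simpa using sub_dvd_pow_sub_pow hζ.toInteger 1 i

/-- the product over the Galois group is the norm. -/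
lemma prim_prod_gal_eq_norm [IsGalois ℚ K] (x : 𝓞 K) :
    ∏ σ : K ≃ₐ[ℚ] K, prim_gal σ x = ((Algebra.norm ℤ x : ℤ) : 𝓞 K) := by
  apply RingOfIntegers.coe_injective
  have h1 : algebraMap (𝓞 K) K (∏ σ : K ≃ₐ[ℚ] K, prim_gal σ x) =
      ∏ σ : K ≃ₐ[ℚ] K, σ (algebraMap (𝓞 K) K x) := by
    rw [map_prod]
    exact Finset.prod_congr rfl fun σ _ => prim_coe_gal σ x
  have h2 : algebraMap (𝓞 K) K ((Algebra.norm ℤ x : ℤ) : 𝓞 K) =
      algebraMap ℚ K (Algebra.norm ℚ (algebraMap (𝓞 K) K x)) := by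
    have := Algebra.coe_norm_int x
    rw [map_intCast, ← this]
    simp
  exact h1.trans ((Algebra.norm_eq_prod_automorphisms ℚ (algebraMap (𝓞 K) K x)).symm.trans h2.symm)

/-- the norm of `u ^ (p - 1)` is one for a unit `u` and an odd prime `p`. -/
lemma prim_norm_pow_eq_one (hodd : p ≠ 2) (u : (𝓞 K)ˣ) :
    Algebra.norm ℤ (((u ^ (p - 1) : (𝓞 K)ˣ) : 𝓞 K)) = 1 := by
  have hu : IsUnit (Algebra.norm ℤ (u : 𝓞 K)) := u.isUnit.map (Algebra.norm ℤ)
  have heven : Even (p - 1) := hp.out.even_sub_one hodd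
  rw [Units.val_pow_eq_pow_val, map_pow]
  rcases Int.isUnit_iff.mp hu with h | h
  · rw [h, one_pow]
  · rw [h, heven.neg_one_pow]

include hζ in
theorem primary_of_congr_int (hodd : p ≠ 2) (u : (𝓞 K)ˣ) (n : ℤ)
    (h : (p : 𝓞 K) ∣ (u : 𝓞 K) - (n : 𝓞 K)) :
    (hζ.toInteger - 1) ^ p ∣ ((u ^ (p - 1) : (𝓞 K)ˣ) : 𝓞 K) - 1 := by
  have : IsGalois ℚ K := IsCyclotomicExtension.isGalois {p} ℚ K
  have hp1 : 1 ≤ p := hp.out.one_le
  have hass := IsCyclotomicExtension.Rat.associated_zeta_sub_one_pow_prime p hζ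
  set π := hζ.toInteger - 1 with hπ
  have hπprime : Prime π := hζ.zeta_sub_one_prime'
  have hπp : π ∣ (p : 𝓞 K) := by
    refine dvd_trans ?_ hass.dvd
    exact dvd_pow_self π (Nat.sub_ne_zero_of_lt hp.out.one_lt)
  -- Step 1: `p ∤ n`
  have hpn : ¬ (p : ℤ) ∣ n := by
    intro hdiv
    have h1 : π ∣ (n : 𝓞 K) := (IsCyclotomicExtension.Rat.zeta_sub_one_dvd_intCast_iff' p hζ).mpr hdiv
    have h2 : π ∣ (u : 𝓞 K) - n := hπp.trans h
    have h3 : π ∣ (u : 𝓞 K) := by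
      have := dvd_add h2 h1
      simpa using this
    exact hπprime.not_isUnit (isUnit_of_dvd_unit h3 u.isUnit)
  -- Step 2: `p ∣ w - 1`
  have hw : (p : 𝓞 K) ∣ ((u ^ (p - 1) : (𝓞 K)ˣ) : 𝓞 K) - 1 := by
    have h1 : (p : 𝓞 K) ∣ (u : 𝓞 K) ^ (p - 1) - (n : 𝓞 K) ^ (p - 1) :=
      h.trans (sub_dvd_pow_sub_pow _ _ _)
    have hcop : IsCoprime n (p : ℤ) :=
      ((Nat.prime_iff_prime_int.mp hp.out).coprime_iff_not_dvd.mpr hpn).symm
    have h2 : (p : ℤ) ∣ n ^ (p - 1) - 1 :=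
      (Int.modEq_iff_dvd.mp (Int.ModEq.pow_card_sub_one_eq_one hp.out hcop).symm)
    have h3 : (p : 𝓞 K) ∣ (n : 𝓞 K) ^ (p - 1) - 1 := by
      obtain ⟨c, hc⟩ := h2
      refine ⟨(c : 𝓞 K), ?_⟩
      have : ((n ^ (p - 1) - 1 : ℤ) : 𝓞 K) = (((p : ℤ) * c : ℤ) : 𝓞 K) := by rw [hc]
      push_cast at this
      exact this
    have := dvd_add h1 h3
    rw [Units.val_pow_eq_pow_val]
    convert this using 1
    ring
  obtain ⟨y, hy⟩ := hw
  have hwy : ((u ^ (p - 1) : (𝓞 K)ˣ) : 𝓞 K) = 1 + (p : 𝓞 K) * y := by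
    rw [← hy]; ring
  -- Step 3: product expansion
  obtain ⟨d, hd⟩ := prim_prod_one_add (Finset.univ : Finset (K ≃ₐ[ℚ] K)) (p : 𝓞 K)
    (fun σ => prim_gal σ y)
  have hprod : ∏ σ : K ≃ₐ[ℚ] K, (1 + (p : 𝓞 K) * prim_gal σ y) = 1 := by
    have hσ : ∀ σ : K ≃ₐ[ℚ] K, 1 + (p : 𝓞 K) * prim_gal σ y =
        prim_gal σ ((u ^ (p - 1) : (𝓞 K)ˣ) : 𝓞 K) := by
      intro σ
      rw [hwy, map_add, map_mul, map_one, map_natCast]
    rw [Finset.prod_congr rfl (fun σ _ => hσ σ), prim_prod_gal_eq_norm,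
      prim_norm_pow_eq_one hodd u]
    simp
  set S := ∑ σ : K ≃ₐ[ℚ] K, prim_gal σ y with hS
  have hpS : (p : 𝓞 K) ∣ S := by
    have hp0 : (p : 𝓞 K) ≠ 0 := by exact_mod_cast hp.out.ne_zero
    have h0 : (p : 𝓞 K) * (S + p * d) = 0 := by
      have := hd.symm.trans hprod
      linear_combination this
    have h1 : S + p * d = 0 := (mul_eq_zero.mp h0).resolve_left hp0
    exact ⟨-d, by linear_combination h1⟩
  -- Step 4: congruences modulo `π`
  obtain ⟨a, ha⟩ := prim_exists_int_sub_dvd hζ y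
  have hconj : ∀ σ : K ≃ₐ[ℚ] K, π ∣ prim_gal σ y - (a : 𝓞 K) := by
    intro σ
    obtain ⟨z, hz⟩ := ha
    have : prim_gal σ y - (a : 𝓞 K) = prim_gal σ π * prim_gal σ z := by
      rw [← map_mul, ← hz, map_sub, map_intCast]
    rw [this]
    exact (prim_dvd_gal hζ σ).mul_right _
  have hcard : Fintype.card (K ≃ₐ[ℚ] K) = p - 1 := by
    rw [← Nat.card_eq_fintype_card, IsGalois.card_aut_eq_finrank,
      IsCyclotomicExtension.Rat.finrank p K, Nat.totient_prime hp.out]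
  have hsum : π ∣ S - ((p - 1 : ℕ) : 𝓞 K) * a := by
    have : S - ((p - 1 : ℕ) : 𝓞 K) * a = ∑ σ : K ≃ₐ[ℚ] K, (prim_gal σ y - a) := by
      rw [Finset.sum_sub_distrib, Finset.sum_const, Finset.card_univ, hcard, nsmul_eq_mul]
    rw [this]
    exact Finset.dvd_sum (fun σ _ => hconj σ)
  have hπa : π ∣ (a : 𝓞 K) := by
    have h1 : π ∣ S := hπp.trans hpS
    have h2 : π ∣ ((p - 1 : ℕ) : 𝓞 K) * a := by
      have := dvd_sub h1 hsum
      simpa using this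
    have h3 : ((p - 1 : ℕ) : 𝓞 K) * a = (p : 𝓞 K) * a - a := by
      rw [Nat.cast_sub hp1]; push_cast; ring
    rw [h3] at h2
    have h4 : π ∣ (p : 𝓞 K) * a := hπp.mul_right _
    have := dvd_sub h4 h2
    simpa using this
  have hπy : π ∣ y := by
    have := dvd_add ha hπa
    simpa using this
  -- Step 5: conclusion
  rw [hy]
  obtain ⟨v, hv⟩ := hass
  obtain ⟨z, hz⟩ := hπy
  refine ⟨v * z, ?_⟩
  rw [← hv, hz]
  have : π ^ p = π ^ (p - 1) * π := by rw [← pow_succ, Nat.sub_add_cancel hp1]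
  rw [this]
  ring

end cyclo

end Fermat.Agent.Kummer
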